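import Fermat.Agent.DworkRationality.LogDerivative
import Mathlib.Dynamics.PeriodicPts.Defs
import Mathlib.NumberTheory.Divisors
import Mathlib.SetTheory.Cardinal.Finite

/-!
# Zeta series of periodic points

For a map all of whose iterates have finitely many fixed points the zeta series of
`s ↦ #{x | T^[s] x = x}` has integral coefficients (it is the product of `(1 - X ^ d)⁻¹` over the
orbits of length `d`); a bound `N s ≤ R ^ s` bounds the `k`th coefficient by `R ^ k`.
-/

set_option autoImplicit false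
set_option linter.unusedSectionVars false

noncomputable section

open PowerSeries Finset Function

namespace FA.DworkRationality

theorem coeff_eq_of_logSeries_agree {K : Type*} [Field K] [CharZero K] {Z W : K⟦X⟧}
    {N M : ℕ → K} (hZ : d⁄dX K Z = Z * logSeries N) (hW : d⁄dX K W = W * logSeries M)
    (h0 : constantCoeff Z = constantCoeff W) {k : ℕ}
    (h : ∀ s, s ≠ 0 → s ≤ k → N s = M s) : coeff k Z = coeff k W := by
  induction k using Nat.strong_induction_on with
  | _ k ih =>
    rcases k with _ | k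
    · simpa only [coeff_zero_eq_constantCoeff_apply] using h0
    · refine mul_right_cancel₀ (Nat.cast_add_one_ne_zero k) ?_
      rw [coeff_derivative_logSeries hZ, coeff_derivative_logSeries hW]
      refine Finset.sum_congr rfl fun j hj => ?_
      rw [mem_range] at hj
      rw [ih j hj (fun s hs hsj => h s hs (by omega)), h _ (Nat.succ_ne_zero _) (by omega)]

/-- `∑ X ^ (d i)`. -/
def cycleSeries (d : ℕ) : ℤ⟦X⟧ := PowerSeries.mk fun i => if d ∣ i then 1 else 0

theorem constantCoeff_cycleSeries (d : ℕ) : constantCoeff (cycleSeries d) = 1 := by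
  simp [cycleSeries, ← coeff_zero_eq_constantCoeff_apply]

theorem cycleSeries_mul {d : ℕ} (hd : d ≠ 0) :
    cycleSeries d * (1 - PowerSeries.X ^ d) = 1 := by
  ext i
  rw [mul_sub, mul_one, map_sub, coeff_mul_X_pow']
  simp only [cycleSeries, coeff_mk, coeff_one]
  rcases lt_or_ge i d with h | h
  · rw [if_neg (not_le.2 h), sub_zero]
    rcases eq_or_ne i 0 with rfl | hi
    · simp
    · rw [if_neg hi, if_neg fun hdvd => hi (Nat.eq_zero_of_dvd_of_lt hdvd h)]
  · rw [if_pos h, if_neg (show i ≠ 0 by omega)]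
    simp only [Nat.dvd_sub_iff_left h (dvd_refl d), sub_self]

theorem derivative_cycleSeries {d : ℕ} (hd : d ≠ 0) :
    d⁄dX ℚ (PowerSeries.map (Int.castRingHom ℚ) (cycleSeries d)) =
      PowerSeries.map (Int.castRingHom ℚ) (cycleSeries d) *
        logSeries (fun s => if d ∣ s then (d : ℚ) else 0) := by
  set G := PowerSeries.map (Int.castRingHom ℚ) (cycleSeries d) with hG
  have h1 : G * (1 - PowerSeries.X ^ d) = 1 := by
    have := congrArg (PowerSeries.map (Int.castRingHom ℚ)) (cycleSeries_mul hd)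
    simpa [map_mul, map_sub, map_pow, hG] using this
  have h2 : G * ((d : ℚ⟦X⟧) * PowerSeries.X ^ (d - 1)) =
      logSeries (fun s => if d ∣ s then (d : ℚ) else 0) := by
    ext j
    rw [← mul_assoc, coeff_mul_X_pow', mul_comm G, ← map_natCast (C (R := ℚ))]
    simp only [hG, coeff_C_mul, coeff_map, cycleSeries, coeff_mk, logSeries, apply_ite,
      map_one, map_zero, mul_one, mul_zero]
    rcases lt_or_ge j (d - 1) with h | h
    · rw [if_neg (not_le.2 h), if_neg fun hdvd => ?_]
      have := Nat.le_of_dvd (Nat.succ_pos j) hdvd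
      omega
    · rw [if_pos h]
      rw [show j + 1 = j - (d - 1) + d by omega]
      simp only [Nat.dvd_add_self_right]
      split_ifs <;> rfl
  have h3 := congrArg (fun f => d⁄dX ℚ f) h1
  simp only [Derivation.leibniz, map_sub, derivative_one, derivative_pow, derivative_X,
    smul_eq_mul, zero_sub, mul_one] at h3
  rw [← h2]
  linear_combination G * h3 - (d⁄dX ℚ G) * h1

theorem derivative_pow_logSeries {Z : ℚ⟦X⟧} {N : ℕ → ℚ} (hZ : d⁄dX ℚ Z = Z * logSeries N)
    (e : ℕ) : d⁄dX ℚ (Z ^ e) = Z ^ e * logSeries ((e : ℚ) • N) := by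
  induction e with
  | zero => ext j; simp [logSeries]
  | succ e ih =>
    rw [pow_succ, Derivation.leibniz, ih, hZ, Nat.cast_succ, add_smul, one_smul, logSeries_add]
    simp only [smul_eq_mul]
    ring

theorem derivative_prod_logSeries {ι : Type*} (S : Finset ι) {Z : ι → ℚ⟦X⟧} {N : ι → ℕ → ℚ}
    (hZ : ∀ i ∈ S, d⁄dX ℚ (Z i) = Z i * logSeries (N i)) :
    d⁄dX ℚ (∏ i ∈ S, Z i) = (∏ i ∈ S, Z i) * logSeries (∑ i ∈ S, N i) := by
  classical
  induction S using Finset.induction with
  | empty => ext j; simp [logSeries]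
  | insert a S ha ih =>
    rw [Finset.prod_insert ha, Finset.sum_insert ha, Derivation.leibniz, logSeries_add,
      hZ a (mem_insert_self _ _), ih fun i hi => hZ i (mem_insert_of_mem hi)]
    simp only [smul_eq_mul]
    ring

variable {α : Type*} (T : α → α)

/-- The length of an orbit divides the number of points with that period. -/
theorem dvd_card_minimalPeriod {d : ℕ} (hd : d ≠ 0) (hfin : {x | minimalPeriod T x = d}.Finite) :
    d ∣ hfin.toFinset.card := by
  classical
  let orb : α → Finset α := fun x => (range d).image (T^[·] x)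
  have hmem : ∀ x, x ∈ hfin.toFinset ↔ minimalPeriod T x = d := fun x => hfin.mem_toFinset
  have hper : ∀ x ∈ hfin.toFinset, x ∈ periodicPts T := fun x hx =>
    minimalPeriod_pos_iff_mem_periodicPts.1 (by rw [(hmem x).1 hx]; exact Nat.pos_of_ne_zero hd)
  have hmod : ∀ x ∈ hfin.toFinset, ∀ n, T^[n % d] x = T^[n] x := fun x hx n => by
    rw [← (hmem x).1 hx]
    exact iterate_mod_minimalPeriod_eq
  have hrefl : ∀ x ∈ hfin.toFinset, x ∈ orb x := fun x _ =>
    mem_image.2 ⟨0, mem_range.2 (Nat.pos_of_ne_zero hd), rfl⟩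
  have horb : ∀ x ∈ hfin.toFinset, ∀ y ∈ orb x, y ∈ hfin.toFinset ∧ orb y = orb x := by
    intro x hx y hy
    obtain ⟨i, hi, rfl⟩ := mem_image.1 hy
    have hy' : T^[i] x ∈ hfin.toFinset :=
      (hmem _).2 ((minimalPeriod_apply_iterate (hper x hx) i).trans ((hmem x).1 hx))
    refine ⟨hy', Finset.ext fun w => ⟨fun hw => ?_, fun hw => ?_⟩⟩
    · obtain ⟨t, -, rfl⟩ := mem_image.1 hw
      refine mem_image.2 ⟨(t + i) % d, mem_range.2 (Nat.mod_lt _ (Nat.pos_of_ne_zero hd)), ?_⟩
      rw [← iterate_add_apply]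
      exact hmod x hx _
    · obtain ⟨t, -, rfl⟩ := mem_image.1 hw
      rw [mem_range] at hi
      refine mem_image.2
        ⟨(t + (d - i)) % d, mem_range.2 (Nat.mod_lt _ (Nat.pos_of_ne_zero hd)), ?_⟩
      rw [hmod _ hy', ← iterate_add_apply, show t + (d - i) + i = t + d by omega,
        ← hmod x hx (t + d), Nat.add_mod_right, hmod x hx]
  rw [Finset.card_eq_sum_card_image orb hfin.toFinset]
  refine Finset.dvd_sum fun O hO => ?_
  obtain ⟨x, hx, rfl⟩ := mem_image.1 hO
  rw [show hfin.toFinset.filter (fun y => orb y = orb x) = orb x from Finset.ext fun y =>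
    ⟨fun hy => by
      obtain ⟨hy1, hy2⟩ := mem_filter.1 hy
      rw [← hy2]
      exact hrefl y hy1,
    fun hy => mem_filter.2 (horb x hx y hy)⟩]
  rw [Finset.card_image_of_injOn, card_range]
  intro a ha b hb hab
  simp only [coe_range, Set.mem_Iio] at ha hb
  rw [← (hmem x).1 hx] at ha hb
  exact iterate_injOn_Iio_minimalPeriod ha hb hab

/-- The number of points fixed by the `s`th iterate. -/
def fixedCount (s : ℕ) : ℕ := Nat.card {x // IsPeriodicPt T s x}

variable {T}

/-- **Integrality of the zeta series of periodic points.** -/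
theorem exists_int_coeff_zetaSeries (hfin : ∀ s, s ≠ 0 → {x | IsPeriodicPt T s x}.Finite) (k : ℕ) :
    ∃ z : ℤ, coeff k (zetaSeries fun s => (fixedCount T s : ℚ)) = (z : ℚ) := by
  classical
  have hfin' : ∀ d, d ≠ 0 → {x | minimalPeriod T x = d}.Finite := fun d hd =>
    (hfin d hd).subset fun x hx =>
      isPeriodicPt_iff_minimalPeriod_dvd.2 (dvd_of_eq hx)
  let b : ℕ → ℕ := fun d => if hd : d ≠ 0 then (hfin' d hd).toFinset.card else 0
  have hcount : ∀ s, s ≠ 0 → fixedCount T s = ∑ d ∈ s.divisors, b d := fun s hs => by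
    rw [fixedCount, show Nat.card {x // IsPeriodicPt T s x} = (hfin s hs).toFinset.card from
      Nat.card_eq_card_finite_toFinset (hfin s hs),
      Finset.card_eq_sum_card_fiberwise (f := minimalPeriod T) (t := s.divisors) fun x hx =>
        Nat.mem_divisors.2 ⟨isPeriodicPt_iff_minimalPeriod_dvd.1 ((hfin s hs).mem_toFinset.1 hx),
          hs⟩]
    refine Finset.sum_congr rfl fun d hd => ?_
    have hd0 : d ≠ 0 := (Nat.pos_of_mem_divisors hd).ne'
    simp only [b, dif_pos hd0]
    congr 1
    ext x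
    simp only [mem_filter, Set.Finite.mem_toFinset, Set.mem_ofPred_eq]
    exact ⟨fun h => h.2, fun h => ⟨isPeriodicPt_iff_minimalPeriod_dvd.2
      (h ▸ Nat.dvd_of_mem_divisors hd), h⟩⟩
  set W : ℤ⟦X⟧ := ∏ d ∈ Icc 1 k, cycleSeries d ^ (b d / d) with hW_def
  refine ⟨coeff k W, ?_⟩
  rw [← eq_intCast (Int.castRingHom ℚ), ← coeff_map]
  have hW : d⁄dX ℚ (PowerSeries.map (Int.castRingHom ℚ) W) =
      PowerSeries.map (Int.castRingHom ℚ) W * logSeries (∑ d ∈ Icc 1 k,
        ((b d / d : ℕ) : ℚ) • fun s => if d ∣ s then (d : ℚ) else 0) := by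
    rw [hW_def, map_prod]
    simp only [map_pow]
    exact derivative_prod_logSeries _ fun d hd => derivative_pow_logSeries
      (derivative_cycleSeries (Nat.one_le_iff_ne_zero.1 (mem_Icc.1 hd).1)) _
  refine coeff_eq_of_logSeries_agree (derivative_zetaSeries _) hW ?_ fun s hs hsk => ?_
  · rw [constantCoeff_zetaSeries, hW_def, map_prod, map_prod]
    refine (Finset.prod_eq_one fun d _ => ?_).symm
    rw [map_pow, map_pow, ← coeff_zero_eq_constantCoeff_apply, coeff_map,
      coeff_zero_eq_constantCoeff_apply, constantCoeff_cycleSeries, map_one, one_pow]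
  · rw [Finset.sum_apply, hcount s hs, Nat.cast_sum,
      show s.divisors = (Icc 1 k).filter (· ∣ s) by
        ext d
        simp only [Nat.mem_divisors, mem_filter, mem_Icc]
        exact ⟨fun h => ⟨⟨Nat.pos_of_dvd_of_pos h.1 (Nat.pos_of_ne_zero hs),
          (Nat.le_of_dvd (Nat.pos_of_ne_zero hs) h.1).trans hsk⟩, h.1⟩, fun h => ⟨h.2, hs⟩⟩,
      Finset.sum_filter]
    refine Finset.sum_congr rfl fun d hd => ?_
    have hd0 : d ≠ 0 := Nat.one_le_iff_ne_zero.1 (mem_Icc.1 hd).1
    have hdb : d ∣ b d := by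
      simp only [b, dif_pos hd0]
      exact dvd_card_minimalPeriod T hd0 (hfin' d hd0)
    simp only [Pi.smul_apply, smul_eq_mul, mul_ite, mul_zero]
    rw [← Nat.cast_mul, Nat.div_mul_cancel hdb]

/-- The trivial bound for the coefficients of a zeta series. -/
theorem abs_coeff_zetaSeries_le {N : ℕ → ℚ} {R : ℚ} (hR : 0 ≤ R)
    (hN : ∀ s, s ≠ 0 → |N s| ≤ R ^ s) (k : ℕ) : |coeff k (zetaSeries N)| ≤ R ^ k := by
  induction k using Nat.strong_induction_on with
  | _ k ih =>
    rcases k with _ | k
    · simp [coeff_zero_eq_constantCoeff_apply, constantCoeff_zetaSeries]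
    · have h := coeff_derivative_logSeries (derivative_zetaSeries N) k
      refine le_of_mul_le_mul_right ?_ (Nat.cast_add_one_pos (α := ℚ) k)
      rw [← abs_of_pos (Nat.cast_add_one_pos (α := ℚ) k), ← abs_mul, h,
        abs_of_pos (Nat.cast_add_one_pos (α := ℚ) k)]
      refine (Finset.abs_sum_le_sum_abs _ _).trans ((Finset.sum_le_card_nsmul _ _ (R ^ (k + 1))
        fun j hj => ?_).trans (le_of_eq (by
          rw [card_range, nsmul_eq_mul, mul_comm]
          push_cast
          rfl)))
      rw [mem_range] at hj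
      rw [abs_mul, show k + 1 = j + (k - j + 1) by omega, pow_add]
      exact mul_le_mul (ih j hj) (hN _ (Nat.succ_ne_zero _)) (abs_nonneg _)
        (pow_nonneg hR _)

end FA.DworkRationality

end
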