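import Fermat.Agent.DworkRationality.Counting
import Fermat.Agent.DworkRationality.Periodic
import Mathlib.FieldTheory.Finite.Extension
import Mathlib.Algebra.LinearRecurrence
import Mathlib.Analysis.Complex.Polynomial.Basic

/-!
# Dwork's theorem

The zeta series of a system of polynomial equations over a finite field is rational: it is the
quotient of two entire series over `ℂ_p` (Counting), it has integral coefficients of exponential
growth (Periodic), so it is rational (Hankel).
-/

set_option autoImplicit false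
set_option linter.unusedSectionVars false
set_option linter.style.haveILetI false

noncomputable section

open Finset Function

namespace FA.DworkRationality

variable {p : ℕ} [hp : Fact p.Prime]

theorem one_le_abs_mul_norm (z : ℤ) (hz : z ≠ 0) : 1 ≤ |(z : ℝ)| * ‖(z : ℂ_[p])‖ := by
  obtain ⟨e, m, hm, hzm⟩ : ∃ e m : ℕ, ¬ p ∣ m ∧ z.natAbs = p ^ e * m :=
    Nat.exists_eq_pow_mul_and_not_dvd (Int.natAbs_ne_zero.2 hz) p hp.out.ne_one
  have h1 : ‖(z : ℂ_[p])‖ = ‖((z.natAbs : ℕ) : ℚ_[p])‖ := by
    rw [← map_intCast (algebraMap ℚ_[p] ℂ_[p]), norm_algebraMap']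
    rcases Int.natAbs_eq z with h | h <;> conv_lhs => rw [h]
    · rw [Int.cast_natCast]
    · rw [Int.cast_neg, norm_neg, Int.cast_natCast]
  have hm1 : ‖(m : ℚ_[p])‖ = 1 :=
    Padic.norm_natCast_eq_one_iff.2 ((Nat.Prime.coprime_iff_not_dvd hp.out).2 hm)
  have hm0 : (1 : ℝ) ≤ m := Nat.one_le_cast.2 (Nat.pos_of_ne_zero fun e => hm (e ▸ dvd_zero p))
  have hp0 : (0 : ℝ) < (p : ℝ) ^ e := pow_pos (Nat.cast_pos.2 hp.out.pos) e
  rw [h1, ← Int.cast_abs, Int.abs_eq_natAbs, Int.cast_natCast, hzm]
  push_cast
  rw [norm_mul, norm_pow, Padic.norm_p, hm1, mul_one, inv_pow, mul_assoc, mul_comm (m : ℝ),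
    ← mul_assoc, mul_inv_cancel₀ hp0.ne', one_mul]
  exact hm0

variable {a : ℕ} {σ κ : Type*} (f : κ → MvPolynomial σ (fixedField p a))

/-- The common zeros in the residue field. -/
abbrev ZeroLocus : Type _ := {x : σ → Residue p // ∀ j, evalRes (f j) x = 0}

/-- Frobenius on the common zeros. -/
def frobMap : ZeroLocus f → ZeroLocus f := fun x => ⟨fun i => x.1 i ^ (p ^ a), fun j => by
  have h := MvPolynomial.eval₂_comp_left (iterateFrobenius (Residue p) p a)
    (fixedField p a).subtype x.1 (f j)
  rw [show MvPolynomial.eval₂ (fixedField p a).subtype x.1 (f j) = 0 from x.2 j, map_zero,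
    show (iterateFrobenius (Residue p) p a).comp (fixedField p a).subtype =
      (fixedField p a).subtype from RingHom.ext fun c => by
        rw [RingHom.comp_apply, iterateFrobenius_def]
        exact mem_fixedField.1 c.2] at h
  rw [evalRes]
  refine Eq.trans ?_ h.symm
  congr 1⟩

theorem frobMap_iterate (x : ZeroLocus f) (s : ℕ) (i : σ) :
    ((frobMap f)^[s] x).1 i = x.1 i ^ (p ^ (s * a)) := by
  induction s with
  | zero => simp
  | succ s ih =>
    rw [iterate_succ_apply', show (frobMap f ((frobMap f)^[s] x)).1 i =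
      ((frobMap f)^[s] x).1 i ^ (p ^ a) from rfl, ih, ← pow_mul, ← pow_add, Nat.succ_mul]

/-- Periodic points of Frobenius are the points over a subfield. -/
def periodicEquiv (s : ℕ) : {x : ZeroLocus f // IsPeriodicPt (frobMap f) s x} ≃
    {x : σ → fixedField p (s * a) // ∀ j, evalRes (f j) (fun i => (x i : Residue p)) = 0} where
  toFun x := ⟨fun i => ⟨x.1.1 i, mem_fixedField.2 (by
    rw [← frobMap_iterate f x.1 s i]
    exact congrFun (congrArg Subtype.val x.2) i)⟩, x.1.2⟩
  invFun x := ⟨⟨fun i => (x.1 i : Residue p), x.2⟩, Subtype.ext (funext fun i => by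
    rw [frobMap_iterate]
    exact mem_fixedField.1 (x.1 i).2)⟩
  left_inv _ := rfl
  right_inv _ := rfl

theorem fixedCount_frobMap (s : ℕ) : fixedCount (frobMap f) s = systemCount f s :=
  Nat.card_congr (periodicEquiv f s)

variable [Fintype σ] [Fintype κ] (ha : a ≠ 0)

include ha in
theorem systemCount_le {s : ℕ} (hs : s ≠ 0) :
    systemCount f s ≤ ((p ^ a) ^ Fintype.card σ) ^ s := by
  have := finite_fixedField (p := p) (mul_ne_zero hs ha)
  refine (Finite.card_subtype_le _).trans (le_of_eq ?_)
  rw [Nat.card_fun, natCard_fixedField (mul_ne_zero hs ha), Nat.card_eq_fintype_card, ← pow_mul,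
    ← pow_mul, ← pow_mul]
  ring_nf

include ha in
theorem finite_periodicPts (s : ℕ) (hs : s ≠ 0) :
    {x : ZeroLocus f | IsPeriodicPt (frobMap f) s x}.Finite := by
  have := finite_fixedField (p := p) (mul_ne_zero hs ha)
  exact Set.finite_coe_iff.1 (Finite.of_equiv _ (periodicEquiv f s).symm)

open PowerSeries in
include ha in
/-- **Dwork's theorem** for equations over a subfield of the residue field. -/
theorem exists_rational_zetaSeries :
    ∃ P Q : Polynomial ℤ, P.coeff 0 = 1 ∧ Q.coeff 0 = 1 ∧
      zetaSeries (fun s => (systemCount f s : ℚ)) * ((Q.map (Int.castRingHom ℚ) : Polynomial ℚ) :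
        PowerSeries ℚ) = ((P.map (Int.castRingHom ℚ) : Polynomial ℚ) : PowerSeries ℚ) := by
  set N : ℕ → ℚ := fun s => (systemCount f s : ℚ) with hN
  have hint : ∀ k, ∃ z : ℤ, PowerSeries.coeff k (zetaSeries N) = (z : ℚ) := fun k => by
    have h := exists_int_coeff_zetaSeries (T := frobMap f) (finite_periodicPts f ha) k
    simpa only [fixedCount_frobMap] using h
  choose z hz using hint
  have hzmap : PowerSeries.map (Int.castRingHom ℚ) (PowerSeries.mk z) = zetaSeries N := by
    ext k; simp [hz]
  set R : ℝ := (((p ^ a) ^ Fintype.card σ : ℕ) : ℝ) with hR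
  have hR1 : 1 ≤ R := Nat.one_le_cast.2 (Nat.one_le_pow _ _ (pow_pos hp.out.pos a))
  have hbound : ∀ k, |(z k : ℝ)| ≤ R ^ k := fun k => by
    have h := abs_coeff_zetaSeries_le (N := N) (R := (((p ^ a) ^ Fintype.card σ : ℕ) : ℚ))
      (Nat.cast_nonneg _) (fun s hs => ?_) k
    · rw [hz] at h
      have := (Rat.cast_le (K := ℝ)).2 h
      simpa [hR] using this
    · rw [hN, Nat.abs_cast, ← Nat.cast_pow]
      exact Nat.cast_le.2 (systemCount_le f ha hs)
  obtain ⟨P, Q, hP, hQ, hP0, hQ0, hlog⟩ := isEntireQuot_systemCount ha f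
  have hzC : PowerSeries.map (algebraMap ℚ ℂ_[p]) (zetaSeries N) =
      PowerSeries.mk fun k => (z k : ℂ_[p]) := by
    ext k; simp [hz]
  have hder : d⁄dX ℂ_[p] (PowerSeries.mk fun k => (z k : ℂ_[p])) =
      (PowerSeries.mk fun k => (z k : ℂ_[p])) * logSeries (fun s => (systemCount f s : ℂ_[p])) := by
    have h := congrArg (PowerSeries.map (algebraMap ℚ ℂ_[p])) (derivative_zetaSeries N)
    rw [map_mul, hzC] at h
    convert h using 1
    · rw [← hzC]
      ext j
      simp [PowerSeries.coeff_derivative]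
    · congr 1
      ext j
      simp [logSeries, hN]
  have hmul := mul_eq_of_logDeriv hder (by
    rw [← PowerSeries.coeff_zero_eq_constantCoeff_apply, PowerSeries.coeff_mk]
    have h := hz 0
    rw [PowerSeries.coeff_zero_eq_constantCoeff_apply, constantCoeff_zetaSeries] at h
    rw [show z 0 = 1 by exact_mod_cast h.symm, Int.cast_one]) hP0 hQ0 hlog
  have hz0 : z 0 = 1 := by
    have h := hz 0
    rw [PowerSeries.coeff_zero_eq_constantCoeff_apply, constantCoeff_zetaSeries] at h
    exact_mod_cast h.symm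
  obtain ⟨P', Q', h1, h2, h3⟩ :=
    rational_of_entire_quotient one_le_abs_mul_norm hz0 hR1 hbound hP hQ hQ0 hmul
  refine ⟨P', Q', h1, h2, ?_⟩
  rw [← hzmap, Polynomial.polynomial_map_coe, Polynomial.polynomial_map_coe, ← map_mul, h3]

section roots

open Polynomial

theorem monic_reverse {P : ℤ[X]} (h : P.coeff 0 = 1) : P.reverse.Monic := by
  rw [Monic, reverse_leadingCoeff, trailingCoeff,
    natTrailingDegree_eq_zero.2 (Or.inr (by rw [h]; exact one_ne_zero)), h]

theorem map_eq_prod_roots_reverse {P : ℤ[X]} (h : P.coeff 0 = 1) :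
    ((P.map (Int.castRingHom ℂ) : ℂ[X]) : PowerSeries ℂ) =
      ((P.reverse.map (Int.castRingHom ℂ)).roots.map fun x =>
        1 - PowerSeries.C x * PowerSeries.X).prod := by
  set R := P.reverse.map (Int.castRingHom ℂ) with hR
  have hRP : R.reverse = P.map (Int.castRingHom ℂ) := by
    have hd : P.reverse.natDegree = P.natDegree := by
      rw [reverse_natDegree, natTrailingDegree_eq_zero.2 (Or.inr (by rw [h]; exact one_ne_zero)),
        Nat.sub_zero]
    rw [hR, Polynomial.reverse, (monic_reverse h).natDegree_map, hd, reflect_map,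
      Polynomial.reverse, reflect_reflect]
  rw [← hRP]
  conv_lhs =>
    rw [(IsAlgClosed.splits R).eq_prod_roots_of_monic ((monic_reverse h).map _)]
  rw [← prod_one_sub_eq_reverse, ← Polynomial.coeToPowerSeries.ringHom_apply, map_multiset_prod,
    Multiset.map_map]
  simp

/-- A rational zeta series gives a difference of power sums of algebraic integers. -/
theorem exists_powerSums {N : ℕ → ℕ} {P Q : ℤ[X]} (hP : P.coeff 0 = 1) (hQ : Q.coeff 0 = 1)
    (h : zetaSeries (fun s => (N s : ℚ)) * ((Q.map (Int.castRingHom ℚ) : ℚ[X]) : PowerSeries ℚ) =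
      ((P.map (Int.castRingHom ℚ) : ℚ[X]) : PowerSeries ℚ)) :
    ∀ s, s ≠ 0 → (N s : ℂ) =
      ((Q.reverse.map (Int.castRingHom ℂ)).roots.map (· ^ s)).sum -
        ((P.reverse.map (Int.castRingHom ℂ)).roots.map (· ^ s)).sum := by
  set DQ := ((Q.map (Int.castRingHom ℂ) : ℂ[X]) : PowerSeries ℂ) with hDQ
  set DP := ((P.map (Int.castRingHom ℂ) : ℂ[X]) : PowerSeries ℂ) with hDP
  set Z := PowerSeries.map (algebraMap ℚ ℂ) (zetaSeries fun s => (N s : ℚ)) with hZ
  have h1 : Z * DQ = DP := by
    have := congrArg (PowerSeries.map (algebraMap ℚ ℂ)) h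
    rwa [map_mul, ← polynomial_map_coe, ← polynomial_map_coe, Polynomial.map_map,
      Polynomial.map_map, show (algebraMap ℚ ℂ).comp (Int.castRingHom ℚ) = Int.castRingHom ℂ from
        RingHom.ext_int _ _] at this
  have h2 : PowerSeries.derivative ℂ Z = Z * logSeries (fun s => (N s : ℂ)) := by
    have := congrArg (PowerSeries.map (algebraMap ℚ ℂ)) (derivative_zetaSeries fun s => (N s : ℚ))
    rw [map_mul, ← hZ] at this
    convert this using 1
    · ext j; simp [hZ, PowerSeries.coeff_derivative]
    · congr 1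
  have dQ := derivative_prod_one_sub (Q.reverse.map (Int.castRingHom ℂ)).roots
  have dP := derivative_prod_one_sub (P.reverse.map (Int.castRingHom ℂ)).roots
  rw [← map_eq_prod_roots_reverse hQ, ← hDQ] at dQ
  rw [← map_eq_prod_roots_reverse hP, ← hDP, ← h1, Derivation.leibniz, smul_eq_mul, smul_eq_mul,
    dQ, h2] at dP
  have hne : Z * DQ ≠ 0 := by
    rw [h1]
    intro e
    have := congrArg PowerSeries.constantCoeff e
    rw [hDP, Polynomial.constantCoeff_coe, Polynomial.coeff_map, hP, map_one, map_zero] at this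
    exact one_ne_zero this
  have h3 : logSeries (fun s => (N s : ℂ)) =
      logSeries (fun s => ((Q.reverse.map (Int.castRingHom ℂ)).roots.map (· ^ s)).sum) -
        logSeries (fun s => ((P.reverse.map (Int.castRingHom ℂ)).roots.map (· ^ s)).sum) := by
    refine mul_left_cancel₀ hne ?_
    linear_combination dP
  intro s hs
  obtain ⟨k, rfl⟩ := Nat.exists_eq_succ_of_ne_zero hs
  simpa [logSeries] using congrArg (PowerSeries.coeff k) h3

/-- Differences of power sums of the roots of monic integral polynomials are recurrent. -/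
theorem exists_recurrence_powerSums {N : ℕ → ℕ} {A B : ℤ[X]} (hA : A.Monic) (hB : B.Monic)
    (h : ∀ s, s ≠ 0 → (N s : ℂ) = ((A.map (Int.castRingHom ℂ)).roots.map (· ^ s)).sum -
      ((B.map (Int.castRingHom ℂ)).roots.map (· ^ s)).sum) :
    ∃ E : LinearRecurrence ℤ, E.IsSolution fun n => (N (n + 1) : ℤ) := by
  set G := A * B
  have hG : G.Monic := hA.mul hB
  refine ⟨⟨G.natDegree, fun i => -G.coeff i⟩, fun n => ?_⟩
  refine Int.cast_injective (α := ℂ) ?_
  have hroot : ∀ x : ℂ, (G.map (Int.castRingHom ℂ)).IsRoot x → x ^ (n + 1 + G.natDegree) =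
      ∑ i : Fin G.natDegree, (-(G.coeff i : ℂ)) * x ^ (n + 1 + i) := fun x hx => by
    rw [IsRoot.def, eval_map, eval₂_eq_sum_range, sum_range_succ, hG.coeff_natDegree, map_one,
      one_mul, ← Fin.sum_univ_eq_sum_range] at hx
    rw [pow_add, eq_neg_of_add_eq_zero_right hx, mul_neg, mul_sum, ← sum_neg_distrib]
    refine sum_congr rfl fun i _ => ?_
    rw [eq_intCast, pow_add]
    ring
  have hsum : ∀ R : Multiset ℂ, (∀ x ∈ R, (G.map (Int.castRingHom ℂ)).IsRoot x) →
      (R.map (· ^ (n + 1 + G.natDegree))).sum =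
        ∑ i : Fin G.natDegree, (-(G.coeff i : ℂ)) * (R.map (· ^ (n + 1 + i))).sum := by
    intro R hR
    induction R using Multiset.induction with
    | empty => simp
    | cons x R ih =>
      simp only [Multiset.map_cons, Multiset.sum_cons, mul_add, sum_add_distrib]
      rw [hroot x (hR x (Multiset.mem_cons_self _ _)),
        ih fun y hy => hR y (Multiset.mem_cons_of_mem hy)]
  have h1 := hsum (A.map (Int.castRingHom ℂ)).roots fun x hx => by
    rw [Polynomial.map_mul, IsRoot.def, eval_mul, (mem_roots'.1 hx).2, zero_mul]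
  have h2 := hsum (B.map (Int.castRingHom ℂ)).roots fun x hx => by
    rw [Polynomial.map_mul, IsRoot.def, eval_mul, (mem_roots'.1 hx).2, mul_zero]
  simp only [Int.cast_sum, Int.cast_mul, Int.cast_neg, Int.cast_natCast]
  rw [show n + G.natDegree + 1 = n + 1 + G.natDegree by omega, h _ (by omega), h1, h2,
    ← sum_sub_distrib]
  refine sum_congr rfl fun i _ => ?_
  rw [show n + (i : ℕ) + 1 = n + 1 + i by omega, h _ (by omega)]
  ring

end roots

section extension

variable {F : Type*} [Field F] [Fintype F]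

/-- The number of common zeros over the extension of degree `m + 1`, zero for `s = 0`. -/
def extensionCount (p : ℕ) [Fact p.Prime] [CharP F p] {σ κ : Type*}
    (f : κ → MvPolynomial σ F) : ℕ → ℕ
  | 0 => 0
  | m + 1 => Nat.card {x : σ → FiniteField.Extension F p (m + 1) //
      ∀ j, MvPolynomial.aeval x (f j) = 0}

/-- Counting over extensions is counting in the residue field of `ℂ_p`. -/
theorem exists_systemCount_eq [CharP F p] (f : κ → MvPolynomial σ F) :
    ∃ (a : ℕ) (f₀ : κ → MvPolynomial σ (fixedField p a)), a ≠ 0 ∧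
      ∀ s, s ≠ 0 → extensionCount p f s = systemCount f₀ s := by
  classical
  obtain ⟨⟨a, ha0⟩, -, hcard⟩ := FiniteField.card F p
  simp only [PNat.mk_coe] at hcard
  have ha : a ≠ 0 := by omega
  have := finite_fixedField (p := p) ha
  have := Fintype.ofFinite (fixedField p a)
  let φ : F ≃+* fixedField p a := FiniteField.ringEquivOfCardEq (by
    rw [hcard, ← Nat.card_eq_fintype_card, natCard_fixedField ha])
  refine ⟨a, fun j => MvPolynomial.map (φ : F →+* fixedField p a) (f j), ha, fun s hs => ?_⟩
  obtain ⟨m, rfl⟩ := Nat.exists_eq_succ_of_ne_zero hs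
  set L := fixedField p ((m + 1) * a)
  have hle : fixedField p a ≤ L := fun x hx =>
    mem_fixedField.2 (fixed_of_dvd (mem_fixedField.1 hx) _)
  letI : Algebra F L := ((Subfield.inclusion hle).comp (φ : F →+* fixedField p a)).toAlgebra
  have hb : (m + 1) * a ≠ 0 := mul_ne_zero m.succ_ne_zero ha
  have : Finite L := finite_fixedField hb
  have hrank : Module.finrank F L = m + 1 := by
    have h := Module.natCard_eq_pow_finrank (K := F) (V := L)
    rw [natCard_fixedField hb, Nat.card_eq_fintype_card, hcard, ← pow_mul] at h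
    have h2 := Nat.pow_right_injective hp.out.two_le h
    rw [mul_comm (m + 1) a] at h2
    exact (Nat.eq_of_mul_eq_mul_left (Nat.pos_of_ne_zero ha) h2).symm
  let e := FiniteField.algEquivExtension F p (m + 1) L hrank
  refine (Nat.card_congr (Equiv.subtypeEquiv (Equiv.arrowCongr (Equiv.refl σ) e.toEquiv)
    fun x => forall_congr' fun j => ?_)).symm
  have h1 : MvPolynomial.aeval (fun i => e (x i)) (f j) = e (MvPolynomial.aeval x (f j)) := by
    exact (MvPolynomial.comp_aeval_apply x e.toAlgHom (f j)).symm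
  show _ ↔ MvPolynomial.aeval (fun i => e (x i)) (f j) = 0
  rw [h1, map_eq_zero_iff _ e.injective, ← map_eq_zero_iff L.subtype L.subtype.injective,
    MvPolynomial.aeval_def, MvPolynomial.eval₂_comp_left, evalRes, MvPolynomial.eval₂_map]
  exact Iff.rfl

variable (F) in
/-- **Dwork's theorem.** -/
theorem exists_rational_extension [CharP F p] (f : κ → MvPolynomial σ F) :
    ∃ P Q : Polynomial ℤ, P.coeff 0 = 1 ∧ Q.coeff 0 = 1 ∧
      zetaSeries (fun s => (extensionCount p f s : ℚ)) *
        ((Q.map (Int.castRingHom ℚ) : Polynomial ℚ) : PowerSeries ℚ) =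
          ((P.map (Int.castRingHom ℚ) : Polynomial ℚ) : PowerSeries ℚ) := by
  obtain ⟨a, f₀, ha, hcount⟩ := exists_systemCount_eq (p := p) f
  obtain ⟨P, Q, hP, hQ, h⟩ := exists_rational_zetaSeries f₀ ha
  refine ⟨P, Q, hP, hQ, ?_⟩
  rw [← h]
  congr 1
  refine PowerSeries.ext fun k => eq_of_derivative_eq (derivative_zetaSeries _) ?_
    (by rw [constantCoeff_zetaSeries, constantCoeff_zetaSeries])
  rw [derivative_zetaSeries, logSeries_congr (M := fun s => (extensionCount p f s : ℚ))
    fun s hs => by rw [hcount s hs]]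

end extension

end FA.DworkRationality

end
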