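import Fermat.Agent.DworkRationality.LogDerivative
import Mathlib.LinearAlgebra.Matrix.Adjugate
import Mathlib.LinearAlgebra.Matrix.Trace
import Mathlib.Algebra.Polynomial.Reverse
import Mathlib.Algebra.Polynomial.Splits
import Mathlib.FieldTheory.IsAlgClosed.Basic

/-!
# Newton's identities as logarithmic derivatives

* `derivative_det_one_sub`: `det (1 - X A)` has logarithmic derivative `-∑ tr (A ^ (j + 1)) X ^ j`;
* `derivative_prod_one_sub`: `∏ (1 - x X)` has logarithmic derivative `-∑ (∑ x ^ (j + 1)) X ^ j`;
* `exists_int_psum`: the power sums of the roots of a monic integral polynomial are integers.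
-/

set_option autoImplicit false
set_option linter.unusedSectionVars false

noncomputable section

open Finset

namespace FA.DworkRationality

open PowerSeries in
theorem derivative_matrix_det {R : Type*} [CommRing R] {ι : Type*} [DecidableEq ι] [Fintype ι]
    (M : Matrix ι ι R⟦X⟧) :
    d⁄dX R M.det = (M.adjugate * M.map (d⁄dX R)).trace := by
  have hprod : ∀ (s : Finset ι) (f : ι → R⟦X⟧),
      d⁄dX R (∏ i ∈ s, f i) = ∑ i ∈ s, (∏ j ∈ s.erase i, f j) * d⁄dX R (f i) := by
    intro s f
    induction s using Finset.induction with
    | empty => simp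
    | insert a s ha ih =>
      rw [prod_insert ha, Derivation.leibniz, ih, sum_insert ha, erase_insert ha, smul_eq_mul,
        smul_eq_mul, mul_sum, add_comm]
      congr 1
      refine sum_congr rfl fun i hi => ?_
      have hai : a ≠ i := fun e => ha (e ▸ hi)
      rw [erase_insert_of_ne hai, prod_insert (fun h => ha (mem_of_mem_erase h)), mul_assoc]
  calc d⁄dX R M.det
      = ∑ σ : Equiv.Perm ι, Equiv.Perm.sign σ •
          ∑ i, (∏ j ∈ univ.erase i, M (σ j) j) * d⁄dX R (M (σ i) i) := by
        rw [Matrix.det_apply, map_sum]
        refine sum_congr rfl fun σ _ => ?_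
        rw [Units.smul_def, map_zsmul, hprod, ← Units.smul_def]
    _ = ∑ i, (M.updateCol i fun k => d⁄dX R (M k i)).det := by
        simp only [Matrix.det_apply, Finset.smul_sum]
        rw [sum_comm]
        refine sum_congr rfl fun i _ => sum_congr rfl fun σ _ => ?_
        congr 1
        rw [← mul_prod_erase univ _ (mem_univ i), mul_comm, Matrix.updateCol_self]
        congr 1
        refine prod_congr rfl fun j hj => ?_
        rw [Matrix.updateCol_ne (ne_of_mem_erase hj)]
    _ = (M.adjugate * M.map (d⁄dX R)).trace := by
        refine sum_congr rfl fun i _ => ?_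
        rw [← Matrix.cramer_apply, Matrix.cramer_eq_adjugate_mulVec]
        rfl

variable {K : Type*} [Field K]

open PowerSeries in
/-- **Newton's identities for a matrix.** -/
theorem derivative_det_one_sub {ι : Type*} [DecidableEq ι] [Fintype ι] (A : Matrix ι ι K) :
    d⁄dX K (1 - (PowerSeries.X : K⟦X⟧) • A.map C).det =
      -(logSeries (fun s => (A ^ s).trace) * (1 - (PowerSeries.X : K⟦X⟧) • A.map C).det) := by
  classical
  set M := 1 - (PowerSeries.X : K⟦X⟧) • A.map C with hM
  set S : Matrix ι ι K⟦X⟧ := Matrix.of fun i j => PowerSeries.mk fun s => (A ^ s) i j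
  have hMS : M * S = 1 := by
    refine Matrix.ext fun i j => PowerSeries.ext fun n => ?_
    rw [hM, sub_mul, one_mul, Matrix.smul_mul, Matrix.sub_apply, Matrix.smul_apply, smul_eq_mul,
      map_sub]
    rcases n with _ | n
    · rw [coeff_zero_X_mul, sub_zero]
      simp [S, Matrix.one_apply, apply_ite (coeff 0)]
    · rw [coeff_succ_X_mul, Matrix.mul_apply, map_sum]
      simp only [S, Matrix.of_apply, coeff_mk, Matrix.map_apply, coeff_C_mul, pow_succ',
        Matrix.mul_apply, sub_self]
      rw [Matrix.one_apply]
      split_ifs <;> simp
  have hadj : M.adjugate = M.det • S := by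
    calc M.adjugate = M.adjugate * (M * S) := by rw [hMS, mul_one]
      _ = M.det • S := by rw [← mul_assoc, Matrix.adjugate_mul, Matrix.smul_mul, one_mul]
  have hder : M.map (d⁄dX K) = -A.map C := by
    refine Matrix.ext fun i j => ?_
    rw [Matrix.map_apply, hM, Matrix.sub_apply, Matrix.smul_apply, map_sub, smul_eq_mul,
      Derivation.leibniz, Matrix.map_apply, derivative_C, smul_zero, zero_add, derivative_X,
      smul_eq_mul, mul_one, Matrix.neg_apply, Matrix.map_apply, Matrix.one_apply]
    split_ifs <;> simp
  rw [derivative_matrix_det, hadj, hder, Matrix.smul_mul, Matrix.trace_smul, Matrix.mul_neg,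
    Matrix.trace_neg, smul_eq_mul, mul_neg, mul_comm]
  congr 2
  ext n
  simp only [Matrix.trace, Matrix.diag_apply, map_sum, Matrix.mul_apply, S, Matrix.of_apply,
    Matrix.map_apply, coeff_mul_C, coeff_mk, logSeries, pow_succ, Matrix.mul_apply]

open PowerSeries in
/-- **Newton's identities for the roots.** -/
theorem derivative_prod_one_sub (s : Multiset K) :
    d⁄dX K ((s.map fun x => 1 - C x * PowerSeries.X).prod) =
      -(logSeries (fun m => (s.map (· ^ m)).sum) *
        (s.map fun x => 1 - C x * PowerSeries.X).prod) := by
  induction s using Multiset.induction with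
  | empty => ext j; simp [logSeries]
  | cons a s ih =>
    have h : logSeries (fun m => a ^ m) * (1 - C a * PowerSeries.X) = C a := by
      ext j
      rcases j with _ | j
      · simp [logSeries]
      · rw [mul_sub, mul_one, ← mul_assoc, map_sub, coeff_succ_mul_X, coeff_mul_C, coeff_C,
          if_neg (Nat.succ_ne_zero j)]
        simp only [logSeries, coeff_mk]
        ring
    rw [Multiset.map_cons, Multiset.prod_cons, Derivation.leibniz, ih,
      show (fun m => ((a ::ₘ s).map (· ^ m)).sum) =
        (fun m => a ^ m) + fun m => (s.map (· ^ m)).sum from funext fun m => by simp,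
      logSeries_add, map_sub, Derivation.leibniz, derivative_one, derivative_C, derivative_X]
    simp only [smul_eq_mul]
    linear_combination (s.map fun x => 1 - C x * PowerSeries.X).prod * h

open Polynomial in
/-- The reverse of a product of monic linear factors. -/
theorem prod_one_sub_eq_reverse (r : Multiset K) :
    (r.map fun x => (1 : K[X]) - Polynomial.C x * Polynomial.X).prod =
      ((r.map fun x => Polynomial.X - Polynomial.C x).prod).reverse := by
  induction r using Multiset.induction with
  | empty => simp [Polynomial.reverse]
  | cons a s ih =>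
    rw [Multiset.map_cons, Multiset.prod_cons, Multiset.map_cons, Multiset.prod_cons,
      Polynomial.reverse_mul_of_domain, ih]
    congr 1
    simp [Polynomial.reverse, Polynomial.reflect_sub, Polynomial.reflect_C]

open Polynomial in
/-- The power sums of the roots of a monic integral polynomial are integers. -/
theorem exists_int_psum [IsAlgClosed K] {f : ℤ[X]} (hf : f.Monic) (m : ℕ) :
    ∃ z : ℤ, ((f.map (Int.castRingHom K)).roots.map (· ^ (m + 1))).sum = (z : K) := by
  classical
  set r := (f.map (Int.castRingHom K)).roots
  have hprod : (r.map fun x => (1 : K[X]) - Polynomial.C x * Polynomial.X).prod =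
      f.reverse.map (Int.castRingHom K) := by
    have hrev : f.reverse.map (Int.castRingHom K) = (f.map (Int.castRingHom K)).reverse := by
      rw [Polynomial.reverse, Polynomial.reverse, Polynomial.reflect_map, hf.natDegree_map]
    rw [hrev, prod_one_sub_eq_reverse]
    congr 1
    exact ((IsAlgClosed.splits (f.map (Int.castRingHom K))).eq_prod_roots_of_monic (hf.map _)).symm
  set D : PowerSeries ℤ := (f.reverse : PowerSeries ℤ)
  have hD0 : PowerSeries.constantCoeff D = 1 := by
    rw [Polynomial.constantCoeff_coe, Polynomial.coeff_zero_reverse, hf.leadingCoeff]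
  set L : PowerSeries ℤ :=
    -(PowerSeries.derivative ℤ D * PowerSeries.invOfUnit D 1)
  refine ⟨PowerSeries.coeff m L, ?_⟩
  have h1 := derivative_prod_one_sub r
  have h2 : (r.map fun x => (1 : PowerSeries K) - PowerSeries.C x * PowerSeries.X).prod =
      PowerSeries.map (Int.castRingHom K) D := by
    rw [← Polynomial.polynomial_map_coe, ← hprod, ← Polynomial.coeToPowerSeries.ringHom_apply,
      map_multiset_prod, Multiset.map_map]
    simp
  rw [h2] at h1
  have h3 : logSeries (fun n => (r.map (· ^ n)).sum) = PowerSeries.map (Int.castRingHom K) L := by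
    have hinv := congrArg (PowerSeries.map (Int.castRingHom K))
      (PowerSeries.mul_invOfUnit D 1 hD0)
    rw [map_mul, map_one] at hinv
    rw [show PowerSeries.map (Int.castRingHom K) L = -(PowerSeries.derivative K
        (PowerSeries.map (Int.castRingHom K) D) *
          PowerSeries.map (Int.castRingHom K) (PowerSeries.invOfUnit D 1)) by
      rw [map_neg, map_mul]
      congr 2
      ext j
      simp [PowerSeries.coeff_derivative], h1]
    linear_combination -logSeries (fun n => (r.map (· ^ n)).sum) * hinv
  have := congrArg (PowerSeries.coeff m) h3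
  rwa [logSeries, PowerSeries.coeff_mk, PowerSeries.coeff_map, eq_intCast] at this

end FA.DworkRationality

end
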