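import Mathlib.Data.ZMod.Basic
import Mathlib.Algebra.Ring.GeomSum
import Mathlib.Data.Fintype.BigOperators
import Mathlib.Tactic.Ring

/-!
# The weights in the theorem of Ax and Katz

For exponents `k` indexed by monomials `i` and Frobenius steps `j < a` the exponent of a variable
`v` is `∑ k (i, j) p ^ (j + s) u i v`, with `j + s` taken modulo `a`. If all of them are divisible
by `q - 1`, `q = p ^ a`, then the total of `k`, plus `(p - 1) a` for each variable of exponent zero,
is at least `(p - 1) a (r + b)`: here `r` is the number of equations, of degrees `d ≤ D`, and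
`D b + ∑ d < n + D`.
-/

set_option autoImplicit false
set_option linter.unusedSectionVars false

namespace FA.DworkRationality.AxKatz

open Finset

variable {I V : Type*} [Fintype I] {a : ℕ} [NeZero a] {p : ℕ}

/-- The exponent of the variable `v` after `s` Frobenius shifts. -/
def expo (p : ℕ) (u : I → V → ℕ) (k : I × Fin a → ℕ) (s : Fin a) (v : V) : ℕ :=
  ∑ t : I × Fin a, k t * p ^ ((t.2 + s : Fin a) : ℕ) * u t.1 v

theorem expo_zero (u : I → V → ℕ) (k : I × Fin a → ℕ) (v : V) :
    expo p u k 0 v = ∑ t : I × Fin a, k t * p ^ (t.2 : ℕ) * u t.1 v := by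
  simp [expo]

/-- A shift multiplies the exponent by a power of `p` modulo `q - 1`. -/
theorem dvd_expo (hp : 1 ≤ p) {u : I → V → ℕ} {k : I × Fin a → ℕ} {v : V}
    (h : p ^ a - 1 ∣ expo p u k 0 v) (s : Fin a) : p ^ a - 1 ∣ expo p u k s v := by
  rw [← ZMod.natCast_eq_zero_iff] at h ⊢
  have hq : ((p : ℕ) : ZMod (p ^ a - 1)) ^ a = 1 := by
    have h1 : p ^ a - 1 + 1 = p ^ a := Nat.sub_add_cancel (Nat.one_le_pow _ _ hp)
    rw [← Nat.cast_pow]
    refine (congrArg Nat.cast h1).symm.trans ?_
    simp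
  rw [expo_zero, Nat.cast_sum] at h
  rw [expo, Nat.cast_sum, ← mul_zero ((p : ZMod (p ^ a - 1)) ^ (s : ℕ)), ← h, mul_sum]
  refine sum_congr rfl fun t _ => ?_
  push_cast
  rw [Fin.val_add, ← pow_eq_pow_mod _ hq, pow_add]
  ring

/-- A shift does not change the variables of exponent zero. -/
theorem expo_eq_zero (hp : 1 ≤ p) (u : I → V → ℕ) (k : I × Fin a → ℕ) (s : Fin a) (v : V) :
    expo p u k s v = 0 ↔ expo p u k 0 v = 0 := by
  have hp0 : p ≠ 0 := by omega
  simp [expo, sum_eq_zero_iff, mul_eq_zero, hp0]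

theorem sum_expo (u : I → V → ℕ) (k : I × Fin a → ℕ) (v : V) :
    ∑ s, expo p u k s v = (∑ i ∈ range a, p ^ i) * ∑ t, k t * u t.1 v := by
  simp only [expo]
  rw [sum_comm, mul_sum]
  refine sum_congr rfl fun t _ => ?_
  rw [← sum_mul, ← mul_sum, ← Fin.sum_univ_eq_sum_range,
    ← Equiv.sum_comp (Equiv.addLeft t.2) (fun s : Fin a => p ^ (s : ℕ))]
  simp only [Equiv.coe_addLeft]
  ring

variable {κ σ : Type*} [Fintype κ] [Fintype σ] [DecidableEq κ]

/-- The exponents of the variables of a monomial of an equation. -/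
def monomialExp (eqn : I → κ) (w : I → σ → ℕ) (i : I) : κ ⊕ σ → ℕ :=
  Sum.elim (fun j => if eqn i = j then 1 else 0) (w i)

/-- **The bound on the weights.** -/
theorem weight_bound (hp : 2 ≤ p) (eqn : I → κ) (w : I → σ → ℕ) (d : κ → ℕ)
    (hw : ∀ i, ∑ l, w i l ≤ d (eqn i)) {D b : ℕ} (hD : 0 < D) (hdD : ∀ j, d j ≤ D)
    (hb : D * b + ∑ j, d j < Fintype.card σ + D) (k : I × Fin a → ℕ)
    (hdvd : ∀ v, p ^ a - 1 ∣ expo p (monomialExp eqn w) k 0 v) :
    (p - 1) * a * (Fintype.card κ + b) ≤ ∑ t, k t +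
      (p - 1) * a * (univ.filter fun v => expo p (monomialExp eqn w) k 0 v = 0).card := by
  set u := monomialExp eqn w
  set S := ∑ i ∈ range a, p ^ i
  have hq1 : S * (p - 1) = p ^ a - 1 := by
    have h := geom_sum_mul_add (p - 1) a
    rw [Nat.sub_add_cancel (by omega : 1 ≤ p)] at h
    change S * (p - 1) + 1 = p ^ a at h
    omega
  have hS : 0 < S := sum_pos (fun i _ => pow_pos (by omega) i) (nonempty_range_iff.2 (NeZero.ne a))
  have hqpos : 0 < p ^ a - 1 := by
    rw [← hq1]
    exact Nat.mul_pos hS (by omega)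
  set c : Fin a → κ ⊕ σ → ℕ := fun s v => expo p u k s v / (p ^ a - 1) with hc
  have hcE : ∀ s v, (p ^ a - 1) * c s v = expo p u k s v := fun s v =>
    Nat.mul_div_cancel' (dvd_expo (by omega) (hdvd v) s)
  set Z := (univ.filter fun v => expo p u k 0 v = 0).card with hZ
  have hshift : ∀ s, Fintype.card κ + b ≤ ∑ j, c s (Sum.inl j) + Z := by
    intro s
    -- indicators of the exponents zero
    set z : κ ⊕ σ → ℕ := fun v => if expo p u k s v = 0 then 1 else 0 with hz
    have hZz : Z = ∑ j, z (Sum.inl j) + ∑ l, z (Sum.inr l) := by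
      rw [hZ, card_filter, Fintype.sum_sum_type]
      simp only [hz, expo_eq_zero (by omega : 1 ≤ p) u k s]
    have hcpos : ∀ v, 1 ≤ c s v + z v := fun v => by
      rcases Nat.eq_zero_or_pos (c s v) with h | h
      · have h1 := hcE s v
        rw [h, mul_zero] at h1
        simp [hz, ← h1]
      · omega
    set e : κ → ℕ := fun j => c s (Sum.inl j) + z (Sum.inl j) - 1 with he
    have hej : ∀ j, e j + 1 = c s (Sum.inl j) + z (Sum.inl j) := fun j => by
      have := hcpos (Sum.inl j)
      simp only [he]; omega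
    have hdc : ∀ j, d j * c s (Sum.inl j) ≤ d j + D * e j := by
      intro j
      have hle : c s (Sum.inl j) ≤ 1 + e j := by
        have := hej j
        omega
      calc d j * c s (Sum.inl j) ≤ d j * (1 + e j) := Nat.mul_le_mul_left _ hle
        _ = d j + d j * e j := by ring
        _ ≤ d j + D * e j := Nat.add_le_add_left (Nat.mul_le_mul_right _ (hdD j)) _
    have hm : ∑ l, c s (Sum.inr l) ≤ ∑ j, d j * c s (Sum.inl j) := by
      refine Nat.le_of_mul_le_mul_left ?_ hqpos
      rw [mul_sum, mul_sum]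
      simp only [mul_left_comm (p ^ a - 1) (d _), hcE]
      simp only [expo, mul_sum]
      rw [sum_comm, sum_comm (γ := κ)]
      refine sum_le_sum fun t _ => ?_
      simp only [u, monomialExp, Sum.elim_inl, Sum.elim_inr]
      rw [← mul_sum]
      simp only [mul_ite, mul_one, mul_zero]
      rw [sum_ite_eq, if_pos (mem_univ _), mul_comm (d _)]
      exact Nat.mul_le_mul_left _ (hw t.1)
    have hn : Fintype.card σ ≤ ∑ l, c s (Sum.inr l) + ∑ l, z (Sum.inr l) := by
      rw [← sum_add_distrib, Fintype.card, card_eq_sum_ones]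
      exact sum_le_sum fun l _ => hcpos _
    have hsum : ∑ j, d j * c s (Sum.inl j) ≤ ∑ j, d j + D * ∑ j, e j := by
      rw [mul_sum, ← sum_add_distrib]
      exact sum_le_sum fun j _ => hdc j
    have hr : ∑ j, e j + Fintype.card κ = ∑ j, c s (Sum.inl j) + ∑ j, z (Sum.inl j) := by
      rw [← sum_add_distrib, Fintype.card, card_eq_sum_ones, ← sum_add_distrib]
      exact sum_congr rfl fun j _ => hej j
    have hkey : b ≤ ∑ j, e j + ∑ l, z (Sum.inr l) := by
      by_contra hlt
      have h1 : D * (∑ j, e j + ∑ l, z (Sum.inr l) + 1) ≤ D * b := Nat.mul_le_mul_left _ (by omega)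
      rw [mul_add, mul_add, mul_one] at h1
      have h2 : ∑ l, z (Sum.inr l) ≤ D * ∑ l, z (Sum.inr l) := Nat.le_mul_of_pos_left _ hD
      omega
    omega
  have hk : (p - 1) * ∑ s, ∑ j, c s (Sum.inl j) = ∑ t, k t := by
    refine Nat.eq_of_mul_eq_mul_left hS ?_
    rw [← mul_assoc, hq1, mul_sum]
    simp only [mul_sum (a := p ^ a - 1), hcE]
    rw [sum_comm]
    simp only [sum_expo, u, monomialExp, Sum.elim_inl, mul_ite, mul_one, mul_zero]
    rw [← mul_sum, sum_comm]
    simp [S]
  have h := sum_le_sum fun s (_ : s ∈ (univ : Finset (Fin a))) => hshift s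
  simp only [sum_add_distrib, sum_const, card_univ, Fintype.card_fin, smul_eq_mul,
    ← mul_add] at h
  calc (p - 1) * a * (Fintype.card κ + b) ≤ (p - 1) * (∑ s, ∑ j, c s (Sum.inl j) + a * Z) := by
        rw [mul_assoc]; exact Nat.mul_le_mul_left _ h
    _ = _ := by rw [← hk]; ring

end FA.DworkRationality.AxKatz
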