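import Fermat.Agent.DworkRationality.Counting
import Fermat.Agent.DworkRationality.AxKatzWeights
import Mathlib.RingTheory.Polynomial.Cyclotomic.Eval

/-!
# The theorem of Ax and Katz

`q ^ r N`, with `N` the number of common zeros of `r` polynomials over the field with `q = p ^ a`
elements, is a sum over all variables, the `r` auxiliary ones included, of products of values of
the splitting function. Expanding, a term with exponents `k` has absolute value at most
`|γ| ^ ∑ k` times `|q|` for each variable of exponent zero, and `|γ| ^ (p - 1) = |p|`.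
-/

set_option autoImplicit false
set_option linter.unusedSectionVars false
set_option linter.style.haveILetI false

noncomputable section

open Finset

namespace FA.DworkRationality.AxKatz

open FA.DworkRationality

variable {p : ℕ} [hp : Fact p.Prime]

/-- **Dwork's `γ` has at most the absolute value of `ζ - 1`.** -/
theorem norm_gammaRoot_le : ‖gammaRoot p‖ ≤ ‖zetaRoot p - 1‖ := by
  set γ := gammaRoot p
  have h0 : ahEval (0 : ℂ_[p]) = 1 := by
    rw [ahEval_split (by simp)]; simp
  have h := norm_ahEval_contract (p := p) (r := ‖γ‖) norm_gammaRoot le_rfl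
    (y := 0) (by simp)
  rw [ahEval_gammaRoot, h0, sub_zero,
    show γ - zetaRoot p - (0 - 1) = γ - (zetaRoot p - 1) by ring] at h
  by_contra hlt
  push Not at hlt
  have h1 := (IsUltrametricDist.norm_add_le_max (γ - (zetaRoot p - 1)) (zetaRoot p - 1))
  rw [sub_add_cancel] at h1
  rcases le_max_iff.1 h1 with h2 | h2
  · have h3 : 0 < ‖γ‖ := (norm_nonneg _).trans_lt hlt
    nlinarith [norm_gammaRoot (p := p)]
  · linarith

/-- **`|γ| ^ (p - 1) ≤ |p|`.** -/
theorem norm_gammaRoot_pow_le : ‖gammaRoot p‖ ^ (p - 1) ≤ ‖(p : ℂ_[p])‖ := by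
  refine (pow_le_pow_left₀ (norm_nonneg _) norm_gammaRoot_le _).trans ?_
  have h := Polynomial.eval_one_cyclotomic_prime (R := ℂ_[p]) (p := p)
  rw [Polynomial.cyclotomic_eq_prod_X_sub_primitiveRoots zetaRoot_spec, Polynomial.eval_prod] at h
  rw [← h, norm_prod, ← Nat.totient_prime hp.out, ← zetaRoot_spec.card_primitiveRoots,
    ← prod_const]
  refine prod_le_prod (fun μ _ => norm_nonneg _) fun μ hμ => ?_
  simp only [Polynomial.eval_sub, Polynomial.eval_X, Polynomial.eval_C]
  have hμ' := (mem_primitiveRoots hp.out.pos).1 hμ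
  have : NeZero p := ⟨hp.out.ne_zero⟩
  obtain ⟨j, -, hj⟩ := hμ'.eq_pow_of_pow_eq_one (ξ := zetaRoot p) zetaRoot_spec.pow_eq_one
  rw [← hj, norm_sub_rev 1 μ, ← geom_sum_mul μ j, norm_mul]
  refine mul_le_of_le_one_left (norm_nonneg _) ?_
  refine IsUltrametricDist.norm_sum_le_of_forall_le_of_nonneg zero_le_one fun i _ => ?_
  rw [norm_pow]
  refine pow_le_one₀ (norm_nonneg _) (le_of_eq ?_)
  exact (pow_eq_one_iff_of_nonneg (norm_nonneg μ) hp.out.ne_zero).1
    (by rw [← norm_pow, hμ'.pow_eq_one, norm_one])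

/-- The sum of the powers of the Teichmüller representatives, zero included. -/
theorem sum_teich_pow_all {b : ℕ} (hb : b ≠ 0) [Fintype (fixedField p b)] (e : ℕ) :
    ∑ x : fixedField p b, teich (x : Residue p) ^ e =
      if e = 0 then ((p ^ b : ℕ) : ℂ_[p]) else
        if p ^ b - 1 ∣ e then ((p ^ b - 1 : ℕ) : ℂ_[p]) else 0 := by
  classical
  have hcard : Fintype.card (fixedField p b) = p ^ b := by
    rw [← Nat.card_eq_fintype_card, natCard_fixedField hb]
  split_ifs with he hdiv
  · simp [he, hcard]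
  all_goals
    rw [← add_sum_erase univ _ (mem_univ (0 : fixedField p b)), ZeroMemClass.coe_zero, teich_zero,
      zero_pow he, zero_add]
    have hu : ∑ x ∈ univ.erase (0 : fixedField p b), teich (x : Residue p) ^ e =
        ∑ y : (fixedField p b)ˣ, teich ((y : fixedField p b) : Residue p) ^ e :=
      (sum_bij (fun (y : (fixedField p b)ˣ) _ => (y : fixedField p b))
        (fun (y : (fixedField p b)ˣ) _ => mem_erase.2 ⟨y.ne_zero, mem_univ _⟩)
        (fun y _ y' _ h => Units.ext h)
        (fun z hz => ⟨Units.mk0 z (ne_of_mem_erase hz), mem_univ _, rfl⟩) fun y _ => rfl).symm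
    rw [hu, sum_teich_pow hb]
  · rw [if_pos hdiv]
  · rw [if_neg hdiv]

variable {a : ℕ} [NeZero a] {σ κ : Type*} [Fintype σ] [Fintype κ]

/-- **The theorem of Ax and Katz over a subfield of the residue field of `ℂ_p`**, as a bound on
`q ^ r N`. -/
theorem norm_count_le [Fintype (fixedField p a)] (f : κ → MvPolynomial σ (fixedField p a))
    {D b : ℕ} (hD : 0 < D) (hdD : ∀ j, (f j).totalDegree ≤ D)
    (hb : D * b + ∑ j, (f j).totalDegree < Fintype.card σ + D) :
    ‖(((p ^ a) ^ Fintype.card κ *
        Nat.card {x : σ → fixedField p a // ∀ j, MvPolynomial.eval x (f j) = 0} : ℕ) : ℂ_[p])‖ ≤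
      ‖(p : ℂ_[p])‖ ^ (a * (Fintype.card κ + b)) := by
  classical
  have ha : a ≠ 0 := NeZero.ne a
  have hfix : ∀ x : (fixedField p a), IsFin (x : Residue p) := fun x => isFin_of_mem ha x.2
  let eqn : (Σ j, (f j).support) → κ := fun i => i.1
  let w : (Σ j, (f j).support) → σ → ℕ := fun i l => (i.2 : σ →₀ ℕ) l
  let cf : (Σ j, (f j).support) → fixedField p a := fun i => (f i.1).coeff (i.2 : σ →₀ ℕ)
  set u := monomialExp eqn w with hu
  let β : (Σ j, (f j).support) × Fin a → ℂ_[p] := fun t =>
    gammaRoot p * teich (cf t.1 : Residue p) ^ (p ^ (t.2 : ℕ))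
  let coef : ((Σ j, (f j).support) × Fin a → ℕ) → ℂ_[p] := fun k =>
    ∏ t, PowerSeries.coeff (k t) (ahSeries p) * β t ^ k t
  let X : (κ ⊕ σ → fixedField p a) → κ ⊕ σ → ℂ_[p] := fun z v => teich (z v : Residue p)
  -- each point
  have hpoint : ∀ z : κ ⊕ σ → fixedField p a, HasSum
      (fun k => coef k * ∏ v, X z v ^ expo p u k 0 v)
      (∏ j, traceChar ha (z (Sum.inl j) * MvPolynomial.eval (fun l => z (Sum.inr l)) (f j))) := by
    intro z
    have h1 : ∀ t, HasSum (fun n => PowerSeries.coeff n (ahSeries p) *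
          (β t * ∏ v, X z v ^ (p ^ (t.2 : ℕ) * u t.1 v)) ^ n)
        (ahEval (β t * ∏ v, X z v ^ (p ^ (t.2 : ℕ) * u t.1 v))) := fun t => by
      refine (summable_evalSeries boundedSeries_ahSeries ?_).hasSum
      rw [norm_mul, norm_prod, norm_mul, norm_pow]
      refine lt_of_le_of_lt (mul_le_of_le_one_right (by positivity) ?_)
        (lt_of_le_of_lt (mul_le_of_le_one_right (norm_nonneg _)
          (pow_le_one₀ (norm_nonneg _) (norm_teich_le _))) norm_gammaRoot)
      exact Finset.prod_le_one (fun v _ => norm_nonneg _) fun v _ => by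
        rw [norm_pow]; exact pow_le_one₀ (norm_nonneg _) (norm_teich_le _)
    convert hasSum_prod_pi h1 using 1
    · funext k
      simp only [coef, expo_zero, mul_pow, ← prod_pow_eq_pow_sum, ← Finset.prod_pow, ← pow_mul,
        prod_mul_distrib]
      rw [prod_comm (γ := κ ⊕ σ), ← mul_assoc]
      congr 1
      exact prod_congr rfl fun t _ => prod_congr rfl fun v _ => by ring
    · rw [Fintype.prod_prod_type, Fintype.prod_sigma]
      refine prod_congr rfl fun j _ => ?_
      rw [MvPolynomial.eval_eq', mul_sum, ← Finset.sum_coe_sort, addChar_sum]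
      refine prod_congr rfl fun d _ => ?_
      rw [traceChar_apply, ← Fin.prod_univ_eq_prod_range]
      refine prod_congr rfl fun i _ => ?_
      congr 1
      simp only [β, X, u, monomialExp, cf, eqn, w, Fintype.prod_sum_type, Sum.elim_inl,
        Sum.elim_inr, mul_ite, mul_one, mul_zero, pow_ite, pow_zero, Finset.prod_ite_eq,
        mem_univ, if_true, mul_assoc]
      congr 1
      have hm : ∀ x y : (fixedField p a), teich ((x * y : (fixedField p a)) : Residue p) =
          teich (x : Residue p) * teich (y : Residue p) := map_mul (teichHom ha)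
      have hprod : teich ((∏ l, z (Sum.inr l) ^ (d : σ →₀ ℕ) l : (fixedField p a)) : Residue p) =
          ∏ l, teich (z (Sum.inr l) : Residue p) ^ (d : σ →₀ ℕ) l := by
        show teichHom ha _ = _
        rw [map_prod]
        exact prod_congr rfl fun l _ => map_pow _ _ _
      rw [hm, hm, hprod, mul_pow, mul_pow, ← Finset.prod_pow]
      simp only [← pow_mul, mul_comm (p ^ (i : ℕ))]
      ring
  -- orthogonality in each variable
  have htot : HasSum (fun k => coef k * ∏ v, ∑ x : fixedField p a,
        teich (x : Residue p) ^ expo p u k 0 v)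
      (((p ^ a) ^ Fintype.card κ *
        Nat.card {x : σ → fixedField p a // ∀ j, MvPolynomial.eval x (f j) = 0} : ℕ) : ℂ_[p]) := by
    have h := hasSum_sum fun z (_ : z ∈ (univ : Finset (κ ⊕ σ → fixedField p a))) => hpoint z
    convert h using 1
    · funext k
      rw [← mul_sum]
      congr 1
      exact (Finset.prod_univ_sum (fun _ : κ ⊕ σ => (univ : Finset (fixedField p a))) _).trans
        (by rw [Fintype.piFinset_univ])
    · rw [← (Equiv.sumArrowEquivProdArrow κ σ (fixedField p a)).symm.sum_comp,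
        Fintype.sum_prod_type, sum_comm, Nat.card_eq_fintype_card, Fintype.card_subtype,
        card_filter, Nat.cast_mul, Nat.cast_sum,
        mul_sum]
      refine sum_congr rfl fun x _ => ?_
      simp only [Equiv.sumArrowEquivProdArrow_symm_apply_inl,
        Equiv.sumArrowEquivProdArrow_symm_apply_inr]
      rw [← Fintype.prod_sum (fun j (y : fixedField p a) =>
        traceChar ha (y * MvPolynomial.eval x (f j))), prod_congr rfl fun j _ =>
        sum_traceChar_mul ha (MvPolynomial.eval x (f j))]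
      rw [Nat.cast_pow, Fintype.card, ← prod_const, Nat.cast_ite, Nat.cast_one, Nat.cast_zero,
        mul_ite, mul_one, mul_zero]
      split_ifs with hall
      · exact prod_congr rfl fun j _ => (if_pos (hall j)).symm
      · push Not at hall
        obtain ⟨j, hj⟩ := hall
        exact (prod_eq_zero (mem_univ j) (if_neg hj)).symm
  rw [← htot.tsum_eq]
  refine IsUltrametricDist.norm_tsum_le_of_forall_le_of_nonneg (by positivity) fun k => ?_
  simp only [sum_teich_pow_all ha]
  by_cases hdvd : ∀ v, p ^ a - 1 ∣ expo p u k 0 v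
  swap
  · push Not at hdvd
    obtain ⟨v, hv⟩ := hdvd
    rw [prod_eq_zero (mem_univ v) (by
      rw [if_neg fun h => hv (by rw [h]; exact dvd_zero _), if_neg hv]), mul_zero, norm_zero]
    positivity
  -- the absolute value of a term
  have hw : ∀ i, ∑ l, w i l ≤ (f (eqn i)).totalDegree := fun i => by
    refine le_trans (le_of_eq ?_) (MvPolynomial.le_totalDegree i.2.2)
    rw [Finsupp.sum_fintype _ _ fun _ => rfl]
  have hweight := weight_bound hp.out.two_le eqn w (fun j => (f j).totalDegree) hw hD hdD hb k hdvd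
  set Z := (univ.filter fun v => expo p u k 0 v = 0).card with hZ
  have hcoef : ‖coef k‖ ≤ ‖gammaRoot p‖ ^ ∑ t, k t := by
    rw [norm_prod, ← prod_pow_eq_pow_sum]
    refine prod_le_prod (fun t _ => norm_nonneg _) fun t _ => ?_
    rw [norm_mul, norm_pow]
    refine (mul_le_of_le_one_left (by positivity) (boundedSeries_ahSeries _)).trans
      (pow_le_pow_left₀ (norm_nonneg _) ?_ _)
    rw [norm_mul, norm_pow]
    exact mul_le_of_le_one_right (norm_nonneg _) (pow_le_one₀ (norm_nonneg _) (norm_teich_le _))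
  have hvar : ‖∏ v, if expo p u k 0 v = 0 then ((p ^ a : ℕ) : ℂ_[p]) else
      if p ^ a - 1 ∣ expo p u k 0 v then ((p ^ a - 1 : ℕ) : ℂ_[p]) else 0‖ ≤
      ‖(p : ℂ_[p])‖ ^ (a * Z) := by
    rw [norm_prod, pow_mul, hZ, ← prod_const, prod_filter]
    refine prod_le_prod (fun v _ => norm_nonneg _) fun v _ => ?_
    split_ifs with h h'
    · rw [Nat.cast_pow, norm_pow]
    · exact IsUltrametricDist.norm_natCast_le_one _ _
    · simp
  rw [norm_mul]
  refine (mul_le_mul hcoef hvar (norm_nonneg _) (by positivity)).trans ?_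
  set R := Fintype.card κ + b
  have hγ : ‖gammaRoot p‖ ≤ 1 := norm_gammaRoot.le
  have hp1 : ‖(p : ℂ_[p])‖ ≤ 1 := (norm_natCast_prime_lt_one (p := p)).le
  rcases le_or_gt R Z with hRZ | hRZ
  · exact (mul_le_of_le_one_left (by positivity) (pow_le_one₀ (norm_nonneg _) hγ)).trans
      (pow_le_pow_of_le_one (norm_nonneg _) hp1 (Nat.mul_le_mul_left _ hRZ))
  · have hK : (p - 1) * (a * (R - Z)) ≤ ∑ t, k t := by
      rw [← mul_assoc, Nat.mul_sub]
      omega
    calc ‖gammaRoot p‖ ^ (∑ t, k t) * ‖(p : ℂ_[p])‖ ^ (a * Z)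
        ≤ ‖(p : ℂ_[p])‖ ^ (a * (R - Z)) * ‖(p : ℂ_[p])‖ ^ (a * Z) := by
          refine mul_le_mul_of_nonneg_right ?_ (by positivity)
          refine (pow_le_pow_of_le_one (norm_nonneg _) hγ hK).trans ?_
          rw [pow_mul]
          exact pow_le_pow_left₀ (by positivity) norm_gammaRoot_pow_le _
      _ = ‖(p : ℂ_[p])‖ ^ (a * R) := by
          rw [← pow_add, ← mul_add, Nat.sub_add_cancel hRZ.le]

/-- **Ax–Katz over a subfield of the residue field of `ℂ_p`.** -/
theorem pow_dvd_count [Fintype (fixedField p a)] (f : κ → MvPolynomial σ (fixedField p a))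
    {D b : ℕ} (hD : 0 < D) (hdD : ∀ j, (f j).totalDegree ≤ D)
    (hb : D * b + ∑ j, (f j).totalDegree < Fintype.card σ + D) :
    (p ^ a) ^ b ∣ Nat.card {x : σ → fixedField p a // ∀ j, MvPolynomial.eval x (f j) = 0} := by
  set N := Nat.card {x : σ → fixedField p a // ∀ j, MvPolynomial.eval x (f j) = 0}
  have h := norm_count_le f hD hdD hb
  rw [← map_natCast (algebraMap ℚ_[p] ℂ_[p]), ← map_natCast (algebraMap ℚ_[p] ℂ_[p]) p] at h
  change ‖((((p ^ a) ^ Fintype.card κ * N : ℕ) : ℚ_[p]) : ℂ_[p])‖ ≤
    ‖(((p : ℕ) : ℚ_[p]) : ℂ_[p])‖ ^ _ at h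
  rw [PadicComplex.norm_extends', PadicComplex.norm_extends', Padic.norm_p, inv_pow,
    ← zpow_natCast (p : ℝ), ← zpow_neg, ← Int.cast_natCast,
    Padic.norm_int_le_pow_iff_dvd, ← Nat.cast_pow, Int.natCast_dvd_natCast] at h
  rw [mul_add, pow_add, ← pow_mul p a (Fintype.card κ)] at h
  rw [← pow_mul]
  exact Nat.dvd_of_mul_dvd_mul_left (pow_pos hp.out.pos _) h

end FA.DworkRationality.AxKatz

end
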