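import Fermat.Agent.DworkRationality.Splitting
import Mathlib.NumberTheory.LegendreSymbol.AddCharacter
import Mathlib.FieldTheory.Fixed

/-!
# The additive character of a finite subfield of the residue field

`fixedField p b` is the subfield with `p ^ b` elements; `traceChar` is its character
`x ↦ ∏ E (γ teich x ^ p ^ j) = ζ ^ Tr x`, nontrivial and orthogonal.
-/

set_option autoImplicit false
set_option linter.unusedSectionVars false

noncomputable section

open Finset

namespace FA.DworkRationality

variable {p : ℕ} [hp : Fact p.Prime]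

variable (p) in
/-- The subfield with `p ^ b` elements. -/
def fixedField (b : ℕ) : Subfield (Residue p) :=
  RingHom.eqLocusField (iterateFrobenius (Residue p) p b) (RingHom.id (Residue p))

theorem mem_fixedField {b : ℕ} {x : Residue p} : x ∈ fixedField p b ↔ x ^ (p ^ b) = x := by
  show iterateFrobenius (Residue p) p b x = x ↔ _
  rw [iterateFrobenius_def]

theorem finite_fixedField {b : ℕ} (hb : b ≠ 0) : Finite (fixedField p b) := by
  classical
  have h : {x : Residue p | x ^ (p ^ b) = x}.Finite := by
    refine (Polynomial.X ^ (p ^ b) - Polynomial.X :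
      Polynomial (Residue p)).roots.toFinset.finite_toSet.subset fun x hx => ?_
    rw [Finset.mem_coe, Multiset.mem_toFinset,
      Polynomial.mem_roots (FiniteField.X_pow_card_sub_X_ne_zero (Residue p) (two_le_prime_pow hb))]
    simpa [sub_eq_zero] using hx
  exact (h.subset fun x hx => mem_fixedField.1 hx).to_subtype

theorem natCard_fixedField {b : ℕ} (hb : b ≠ 0) : Nat.card (fixedField p b) = p ^ b := by
  classical
  have := finite_fixedField (p := p) hb
  have := Fintype.ofFinite (fixedField p b)
  have hn := two_le_prime_pow (p := p) hb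
  rw [Nat.card_eq_fintype_card]
  refine le_antisymm ?_ ?_
  · have hq := FiniteField.X_pow_card_sub_X_ne_zero (Residue p) (p := p ^ b) hn
    have hle : (univ.image fun x : fixedField p b => (x : Residue p)).card ≤
        (Polynomial.X ^ (p ^ b) - Polynomial.X : Polynomial (Residue p)).roots.toFinset.card := by
      refine card_le_card fun x hx => ?_
      obtain ⟨y, -, rfl⟩ := mem_image.1 hx
      rw [Multiset.mem_toFinset, Polynomial.mem_roots hq]
      simpa [sub_eq_zero] using mem_fixedField.1 y.2
    rw [card_image_of_injective _ Subtype.val_injective, card_univ] at hle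
    refine hle.trans ((Multiset.toFinset_card_le _).trans ((Polynomial.card_roots' _).trans
      (le_of_eq (FiniteField.X_pow_card_sub_X_natDegree_eq (Residue p) hn))))
  · obtain ⟨T, hcard, hT⟩ := exists_roots_finset (p := p) hb
    rw [← hcard, ← Fintype.card_coe]
    refine Fintype.card_le_of_injective (fun x : T =>
      (⟨red p ⟨x.1, norm_le_one_of_pow_eq hn (hT x.1 x.2)⟩, mem_fixedField.2 (by
        rw [← map_pow]
        exact congrArg (red p) (Subtype.ext (hT x.1 x.2)))⟩ : fixedField p b)) fun x y h =>
      Subtype.ext (eq_of_pow_fixed hb (hT x.1 x.2) (hT y.1 y.2)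
        (red_eq_red.1 (congrArg Subtype.val h)))

theorem isFin_of_mem {b : ℕ} (hb : b ≠ 0) {x : Residue p} (hx : x ∈ fixedField p b) : IsFin x :=
  ⟨b, hb, mem_fixedField.1 hx⟩

theorem exists_pow_traceChar {b : ℕ} (hb : b ≠ 0) (x : fixedField p b) :
    ∃ m : ℕ, (m : Residue p) = ∑ j ∈ range b, (x : Residue p) ^ (p ^ j) ∧
      ∏ j ∈ range b, ahEval (gammaRoot p * teich (x : Residue p) ^ (p ^ j)) = zetaRoot p ^ m :=
  prod_ahEval_teich hb (mem_fixedField.1 x.2)

theorem zetaRoot_pow_eq {m m' : ℕ} (h : (m : Residue p) = m') :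
    zetaRoot p ^ m = zetaRoot p ^ m' :=
  pow_eq_pow_of_modEq ((CharP.natCast_eq_natCast (Residue p) p).1 h) zetaRoot_spec.pow_eq_one

/-- **The additive character.** -/
def traceChar {b : ℕ} (hb : b ≠ 0) : AddChar (fixedField p b) ℂ_[p] where
  toFun x := ∏ j ∈ range b, ahEval (gammaRoot p * teich (x : Residue p) ^ (p ^ j))
  map_zero_eq_one' := by
    obtain ⟨m, hm, h⟩ := exists_pow_traceChar hb (0 : fixedField p b)
    rw [h, zetaRoot_pow_eq (m' := 0) ?_, pow_zero]
    rw [hm, Nat.cast_zero]
    exact sum_eq_zero fun j _ => zero_pow (pow_ne_zero j hp.out.ne_zero)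
  map_add_eq_mul' x y := by
    obtain ⟨m, hm, h⟩ := exists_pow_traceChar hb x
    obtain ⟨m', hm', h'⟩ := exists_pow_traceChar hb y
    obtain ⟨n, hn, h''⟩ := exists_pow_traceChar hb (x + y)
    rw [h, h', h'', ← pow_add]
    refine zetaRoot_pow_eq ?_
    rw [Nat.cast_add, hn, hm, hm', ← sum_add_distrib]
    exact sum_congr rfl fun j _ => by rw [Subfield.coe_add]; exact add_pow_char_pow _ _ p j

theorem traceChar_apply {b : ℕ} (hb : b ≠ 0) (x : fixedField p b) :
    traceChar hb x = ∏ j ∈ range b, ahEval (gammaRoot p * teich (x : Residue p) ^ (p ^ j)) := rfl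

theorem traceChar_ne_one {b : ℕ} (hb : b ≠ 0) : traceChar (p := p) hb ≠ 1 := by
  classical
  intro hone
  have := finite_fixedField (p := p) hb
  have := Fintype.ofFinite (fixedField p b)
  let P : Polynomial (Residue p) := ∑ j ∈ range b, Polynomial.X ^ (p ^ j)
  have hP0 : P ≠ 0 := fun e => by
    have h1 := congrArg (Polynomial.coeff · 1) e
    simp only [P, Polynomial.finsetSum_coeff, Polynomial.coeff_X_pow, Polynomial.coeff_zero] at h1
    rw [sum_eq_single 0 (fun j _ hj => if_neg (Nat.one_lt_pow hj hp.out.one_lt).ne)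
      (fun h => absurd (mem_range.2 (Nat.pos_of_ne_zero hb)) h)] at h1
    simp at h1
  have hdeg : P.natDegree ≤ p ^ (b - 1) :=
    Polynomial.natDegree_sum_le_of_forall_le _ _ fun j hj => (Polynomial.natDegree_X_pow_le _).trans
      (Nat.pow_le_pow_right hp.out.pos (by rw [mem_range] at hj; omega))
  have hall : (univ.image fun x : fixedField p b => (x : Residue p)) ⊆ P.roots.toFinset :=
    fun x hx => by
      obtain ⟨y, -, rfl⟩ := mem_image.1 hx
      rw [Multiset.mem_toFinset, Polynomial.mem_roots hP0]
      obtain ⟨m, hm, h⟩ := exists_pow_traceChar hb y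
      have h1 : zetaRoot p ^ m = 1 := by
        rw [← h, ← traceChar_apply hb y, hone, AddChar.one_apply]
      have h2 := (zetaRoot_spec.pow_eq_one_iff_dvd m).1 h1
      simp only [Polynomial.IsRoot.def, P, Polynomial.eval_finsetSum, Polynomial.eval_pow,
        Polynomial.eval_X]
      rw [← hm, CharP.cast_eq_zero_iff (Residue p) p]
      exact h2
  have hle := (card_le_card hall).trans ((Multiset.toFinset_card_le _).trans
    ((Polynomial.card_roots' _).trans hdeg))
  rw [card_image_of_injective _ Subtype.val_injective, card_univ, ← Nat.card_eq_fintype_card,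
    natCard_fixedField hb] at hle
  exact absurd hle (not_le.2 (Nat.pow_lt_pow_right hp.out.one_lt (by omega)))

theorem sum_traceChar_mul {b : ℕ} (hb : b ≠ 0) [Fintype (fixedField p b)]
    [DecidableEq (fixedField p b)] (c : fixedField p b) :
    ∑ x, traceChar hb (x * c) = if c = 0 then ((p ^ b : ℕ) : ℂ_[p]) else 0 := by
  rw [AddChar.sum_mulShift c (AddChar.IsPrimitive.of_ne_one (traceChar_ne_one hb)),
    ← Nat.card_eq_fintype_card, natCard_fixedField hb, Nat.cast_ite, Nat.cast_zero]

theorem sum_teich_pow {b : ℕ} (hb : b ≠ 0) [Fintype (fixedField p b)ˣ] (w : ℕ) :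
    ∑ x : (fixedField p b)ˣ, teich ((x : fixedField p b) : Residue p) ^ w =
      if p ^ b - 1 ∣ w then ((p ^ b - 1 : ℕ) : ℂ_[p]) else 0 := by
  classical
  have := finite_fixedField (p := p) hb
  have := Fintype.ofFinite (fixedField p b)
  let τ : (fixedField p b)ˣ →* ℂ_[p] :=
    { toFun := fun x => teich ((x : fixedField p b) : Residue p)
      map_one' := by simp [teich_one]
      map_mul' := fun x y => by
        rw [Units.val_mul, Subfield.coe_mul]
        exact teich_mul (isFin_of_mem hb (x : fixedField p b).2)
          (isFin_of_mem hb (y : fixedField p b).2) }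
  have hτ : Function.Injective τ := fun x y h => Units.ext (Subtype.ext
    (teich_inj (isFin_of_mem hb (x : fixedField p b).2)
      (isFin_of_mem hb (y : fixedField p b).2) h))
  have hcard : Fintype.card (fixedField p b)ˣ = p ^ b - 1 := by
    rw [← Nat.card_eq_fintype_card, Nat.card_units, natCard_fixedField hb]
  split_ifs with hw
  · obtain ⟨t, rfl⟩ := hw
    rw [sum_congr rfl fun (x : (fixedField p b)ˣ) _ =>
      show teich ((x : fixedField p b) : Residue p) ^ ((p ^ b - 1) * t) = 1 by
        show τ x ^ _ = 1
        rw [← map_pow, ← hcard, pow_mul, pow_card_eq_one, one_pow, map_one],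
      sum_const, card_univ, hcard, nsmul_eq_mul, mul_one]
  · obtain ⟨g, hg⟩ := IsCyclic.exists_generator (α := (fixedField p b)ˣ)
    have hne : τ g ^ w ≠ 1 := fun e => hw (by
      rw [← map_pow, ← map_one τ] at e
      rw [← hcard, ← Nat.card_eq_fintype_card, ← orderOf_eq_card_of_forall_mem_zpowers hg]
      exact orderOf_dvd_of_pow_eq_one (hτ e))
    have hsum : τ g ^ w * ∑ x, τ x ^ w = ∑ x, τ x ^ w := by
      rw [mul_sum]
      exact Fintype.sum_equiv (Equiv.mulLeft g) _ _ fun x => by
        rw [Equiv.coe_mulLeft, map_mul, mul_pow]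
    show ∑ x, τ x ^ w = 0
    by_contra hS
    exact hne (mul_right_cancel₀ hS (hsum.trans (one_mul _).symm))

end FA.DworkRationality

end
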