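import Fermat.Agent.DworkRationality.ExpSum
import Mathlib.Algebra.MvPolynomial.Monad
import Mathlib.Data.Nat.Choose.Sum

/-!
# Counting points by exponential sums

For polynomials over the subfield with `p ^ a` elements the numbers of common zeros in affine space
over the subfields with `p ^ (s a)` elements are, in `s`, an `IsEntireQuot` sequence: first for a
torus, then for a hypersurface in affine space, then for any finite system.
-/

set_option autoImplicit false
set_option linter.unusedSectionVars false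
set_option linter.style.haveILetI false

noncomputable section

open Finset

namespace FA.DworkRationality

variable {p : ℕ} [hp : Fact p.Prime]

/-- Evaluation at a point of the residue field. -/
def evalRes {a : ℕ} {σ : Type*} (f : MvPolynomial σ (fixedField p a)) (x : σ → Residue p) :
    Residue p :=
  MvPolynomial.eval₂ (fixedField p a).subtype x f

theorem evalRes_mem {a : ℕ} {σ : Type*} (f : MvPolynomial σ (fixedField p a)) {n : ℕ}
    {x : σ → Residue p} (hx : ∀ i, x i ∈ fixedField p (n * a)) :
    evalRes f x ∈ fixedField p (n * a) := by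
  induction f using MvPolynomial.induction_on with
  | C c =>
    rw [evalRes, MvPolynomial.eval₂_C]
    exact mem_fixedField.2 (fixed_of_dvd (mem_fixedField.1 c.2) n)
  | add f g hf hg => rw [evalRes, MvPolynomial.eval₂_add]; exact add_mem hf hg
  | mul_X f i hf =>
    rw [evalRes, MvPolynomial.eval₂_mul, MvPolynomial.eval₂_X]
    exact mul_mem hf (hx i)

/-- The number of zeros in the torus. -/
def torusCount {a : ℕ} {σ : Type*} (f : MvPolynomial σ (fixedField p a)) (s : ℕ) : ℕ :=
  Nat.card {x : σ → (fixedField p (s * a))ˣ //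
    evalRes f (fun i => ((x i : fixedField p (s * a)) : Residue p)) = 0}

/-- The number of zeros in affine space. -/
def affineCount {a : ℕ} {σ : Type*} (f : MvPolynomial σ (fixedField p a)) (s : ℕ) : ℕ :=
  Nat.card {x : σ → fixedField p (s * a) // evalRes f (fun i => (x i : Residue p)) = 0}

/-- The number of common zeros in affine space. -/
def systemCount {a : ℕ} {σ κ : Type*} (f : κ → MvPolynomial σ (fixedField p a)) (s : ℕ) : ℕ :=
  Nat.card {x : σ → fixedField p (s * a) //
    ∀ j, evalRes (f j) (fun i => (x i : Residue p)) = 0}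

theorem natCast_filter_card {α : Type*} (s : Finset α) (P : α → Prop) [DecidablePred P] :
    ((s.filter P).card : ℂ_[p]) = ∑ x ∈ s, if P x then 1 else 0 :=
  (Finset.sum_boole P s).symm

theorem addChar_sum {A M ι : Type*} [AddCommMonoid A] [CommMonoid M] (ψ : AddChar A M)
    (s : Finset ι) (f : ι → A) : ψ (∑ i ∈ s, f i) = ∏ i ∈ s, ψ (f i) := by
  classical
  induction s using Finset.induction with
  | empty => simp
  | insert i s hi ih => rw [sum_insert hi, prod_insert hi, AddChar.map_add_eq_mul, ih]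

/-- **Zeros in a torus and Dwork's cycle traces.** -/
theorem exists_torusCount_eq {a : ℕ} (ha : a ≠ 0) {σ : Type*} [Fintype σ]
    (f : MvPolynomial σ (fixedField p a)) :
    ∃ (g : (Option σ → ℕ) → ℂ_[p]) (r : ℝ), 0 < r ∧ r < 1 ∧ (∀ v, ‖g v‖ ≤ r ^ expDeg v) ∧
      ∀ k, (((p ^ a) ^ (k + 1) : ℕ) : ℂ_[p]) * torusCount f (k + 1) =
        (((p ^ a) ^ (k + 1) - 1 : ℕ) : ℂ_[p]) ^ Fintype.card σ +
          (((p ^ a) ^ (k + 1) - 1 : ℕ) : ℂ_[p]) ^ (Fintype.card σ + 1) *
            cycleTrace g (p ^ a) k := by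
  classical
  let c : f.support → Residue p := fun d =>
    ((f.coeff (d : σ →₀ ℕ) : fixedField p a) : Residue p)
  let u : f.support → Option σ → ℕ := fun d o => o.elim 1 fun i => (d : σ →₀ ℕ) i
  obtain ⟨g, r, hr0, hr1, hg, hsum⟩ := exists_traceFormula ha c
    (fun d => mem_fixedField.1 (f.coeff (d : σ →₀ ℕ) : fixedField p a).2) u
  refine ⟨g, r, hr0, hr1, hg, fun k => ?_⟩
  set F := fixedField p ((k + 1) * a) with hF
  have hb : (k + 1) * a ≠ 0 := mul_ne_zero k.succ_ne_zero ha
  have : Finite F := finite_fixedField hb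
  letI : Fintype F := Fintype.ofFinite F
  have hcard : Fintype.card F = (p ^ a) ^ (k + 1) := by
    rw [← Nat.card_eq_fintype_card, natCard_fixedField hb, ← pow_mul, mul_comm]
  have hQ : (((p ^ a) ^ (k + 1) - 1 : ℕ) : ℂ_[p]) =
      (((p ^ a) ^ (k + 1) : ℕ) : ℂ_[p]) - 1 := by
    rw [Nat.cast_sub (Nat.one_le_pow _ _ (pow_pos hp.out.pos a)), Nat.cast_one]
  have h := hsum k
  rw [Fintype.card_option] at h
  let fx : (σ → Fˣ) → F := fun x =>
    ⟨evalRes f (fun i => ((x i : F) : Residue p)), evalRes_mem f fun i => (x i : F).2⟩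
  have hval : ∀ (x : σ → Fˣ) (y : Fˣ), (∏ d : f.support, ∏ j ∈ range ((k + 1) * a),
      ahEval (gammaRoot p * teich (c d * ∏ o, (((Equiv.piOptionEquivProd (β := fun _ => Fˣ)).symm
        (y, x) o : F) : Residue p) ^ u d o) ^ (p ^ j))) = traceChar hb ((y : F) * fx x) := by
    intro x y
    let t : f.support → F := fun d =>
      ⟨((f.coeff (d : σ →₀ ℕ) : fixedField p a) : Residue p),
          mem_fixedField.2 (fixed_of_dvd
            (mem_fixedField.1 (f.coeff (d : σ →₀ ℕ) : fixedField p a).2) _)⟩ *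
        ((y : F) * ∏ i, (x i : F) ^ (d : σ →₀ ℕ) i)
    have hfx : (y : F) * fx x = ∑ d, t d := by
      refine Subtype.ext ?_
      simp only [fx, t, Subfield.coe_mul, AddSubmonoidClass.coe_finsetSum,
        SubmonoidClass.coe_finsetProd, SubmonoidClass.coe_pow]
      rw [evalRes, MvPolynomial.eval₂_eq', Finset.mul_sum,
        ← Finset.sum_coe_sort f.support (fun d => ((y : F) : Residue p) *
          ((fixedField p a).subtype (f.coeff d) * ∏ i, ((x i : F) : Residue p) ^ d i))]
      exact sum_congr rfl fun d _ => by simp; ring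
    rw [hfx, addChar_sum]
    refine prod_congr rfl fun d _ => ?_
    rw [traceChar_apply]
    refine prod_congr rfl fun j _ => ?_
    congr 4
    simp [t, c, u, Fintype.prod_option, Equiv.piOptionEquivProd]
  have hS : torusSum ((k + 1) * a) c u = (((p ^ a) ^ (k + 1) : ℕ) : ℂ_[p]) * torusCount f (k + 1) -
      (((p ^ a) ^ (k + 1) - 1 : ℕ) : ℂ_[p]) ^ Fintype.card σ := by
    rw [torusSum, ← (Equiv.piOptionEquivProd (β := fun _ => Fˣ)).symm.sum_comp,
      Fintype.sum_prod_type, sum_comm]
    simp only [hval]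
    have hx : ∀ x : σ → Fˣ, ∑ y : Fˣ, traceChar hb ((y : F) * fx x) =
        (((p ^ a) ^ (k + 1) : ℕ) : ℂ_[p]) * (if fx x = 0 then 1 else 0) - 1 := fun x => by
      have h1 := sum_traceChar_mul hb (fx x)
      rw [← Finset.add_sum_erase univ (fun z => traceChar hb (z * fx x)) (mem_univ 0), zero_mul,
        AddChar.map_zero_eq_one] at h1
      have h2 : ∑ z ∈ univ.erase (0 : F), traceChar hb (z * fx x) =
          ∑ y : Fˣ, traceChar hb ((y : F) * fx x) := by
        refine (sum_bij (fun (y : Fˣ) _ => (y : F)) (fun y _ => ?_)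
          (fun y _ y' _ e => Units.ext e) (fun z hz => ?_) fun y _ => rfl).symm
        · exact mem_erase.2 ⟨y.ne_zero, mem_univ _⟩
        · exact ⟨Units.mk0 z (ne_of_mem_erase hz), mem_univ _, rfl⟩
      rw [h2] at h1
      have hexp : p ^ ((k + 1) * a) = (p ^ a) ^ (k + 1) := by rw [← pow_mul, mul_comm]
      rw [hexp] at h1
      rw [mul_ite, mul_one, mul_zero]
      linear_combination h1
    simp only [hx, sum_sub_distrib, ← mul_sum]
    congr 1
    · rw [← natCast_filter_card, torusCount, Nat.card_eq_fintype_card, Fintype.card_subtype]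
      congr 3
      ext x
      simp [fx, Subtype.ext_iff]
    · rw [sum_const, card_univ, Fintype.card_fun, Fintype.card_units, hcard, nsmul_eq_mul,
        mul_one, Nat.cast_pow]
  linear_combination h - hS

variable {a : ℕ} (ha : a ≠ 0)

include ha in
theorem isEntireQuot_torusCount {σ : Type*} [Fintype σ] (f : MvPolynomial σ (fixedField p a)) :
    IsEntireQuot fun s => (torusCount f s : ℂ_[p]) := by
  obtain ⟨g, r, hr0, hr1, hg, h⟩ := exists_torusCount_eq ha f
  set n := Fintype.card σ
  set Q : ℂ_[p] := ((p ^ a : ℕ) : ℂ_[p]) with hQ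
  have hQ0 : Q ≠ 0 := Nat.cast_ne_zero.2 (pow_ne_zero a hp.out.ne_zero)
  have hbase : ∀ N, IsEntireQuot (∑ i ∈ range (N + 1), ((-1 : ℤ) ^ (N - i) * N.choose i) •
      fun s => (Q ^ i / Q) ^ s) ∧ IsEntireQuot (∑ i ∈ range (N + 1),
        ((-1 : ℤ) ^ (N - i) * N.choose i) •
          fun s => (Q ^ i / Q) ^ s * cycleTrace g (p ^ a) (s - 1)) :=
    fun N => ⟨IsEntireQuot.sum _ fun i _ => (isEntireQuot_pow _).zsmul _,
      IsEntireQuot.sum _ fun i _ =>
        (isEntireQuot_cycleTrace hr0 hr1 hg (two_le_prime_pow ha) _).zsmul _⟩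
  refine ((hbase n).1.add (hbase (n + 1)).2).congr fun s hs => ?_
  obtain ⟨k, rfl⟩ := Nat.exists_eq_succ_of_ne_zero hs
  have hexp : ∀ N, ∑ i ∈ range (N + 1), (((-1 : ℤ) ^ (N - i) * N.choose i : ℤ) : ℂ_[p]) *
      (Q ^ i / Q) ^ (k + 1) = (Q ^ (k + 1) - 1) ^ N / Q ^ (k + 1) := fun N => by
    rw [sub_eq_add_neg (Q ^ (k + 1)), add_pow, Finset.sum_div]
    refine sum_congr rfl fun i _ => ?_
    push_cast
    rw [div_pow, ← pow_mul, ← pow_mul, mul_comm i]
    ring
  have h' := h k
  rw [Nat.cast_sub (Nat.one_le_pow _ _ (pow_pos hp.out.pos a)), Nat.cast_one, Nat.cast_pow, ← hQ]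
    at h'
  simp only [Pi.add_apply, Finset.sum_apply, Pi.smul_apply]
  simp only [zsmul_eq_mul, Nat.succ_eq_add_one, Nat.add_sub_cancel, ← mul_assoc, ← sum_mul, hexp]
  rw [div_mul_eq_mul_div, ← add_div, div_eq_iff (pow_ne_zero _ hQ0)]
  linear_combination -h'

include ha in
theorem isEntireQuot_affineCount {σ : Type*} [Fintype σ] (f : MvPolynomial σ (fixedField p a)) :
    IsEntireQuot fun s => (affineCount f s : ℂ_[p]) := by
  classical
  let fT : (T : Finset σ) → MvPolynomial {i // i ∈ T} (fixedField p a) := fun T =>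
    MvPolynomial.bind₁ (fun i => if h : i ∈ T then MvPolynomial.X ⟨i, h⟩ else 0) f
  refine (IsEntireQuot.sum univ fun T _ => isEntireQuot_torusCount ha (fT T)).congr
    fun s hs => ?_
  rw [Finset.sum_apply, ← Nat.cast_sum]
  congr 1
  set F := fixedField p (s * a) with hF
  have : Finite F := finite_fixedField (mul_ne_zero hs ha)
  letI : Fintype F := Fintype.ofFinite F
  have heval : ∀ (T : Finset σ) (x : {i // i ∈ T} → Residue p), evalRes (fT T) x =
      evalRes f (fun i => if h : i ∈ T then x ⟨i, h⟩ else 0) := fun T x => by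
    simp only [evalRes, fT, ← MvPolynomial.coe_eval₂Hom]
    rw [MvPolynomial.eval₂Hom_bind₁]
    congr 2
    funext i
    split_ifs <;> simp
  let e : (Σ T : Finset σ, {x : {i // i ∈ T} → Fˣ //
      evalRes (fT T) (fun i => ((x i : F) : Residue p)) = 0}) →
      {x : σ → F // evalRes f (fun i => (x i : Residue p)) = 0} := fun z =>
    ⟨fun i => if h : i ∈ z.1 then (z.2.1 ⟨i, h⟩ : F) else 0, by
      have h0 := z.2.2
      rw [heval] at h0
      refine Eq.trans ?_ h0
      congr 1
      funext i
      by_cases h : i ∈ z.1 <;> simp [h]⟩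
  have he : Function.Bijective e := by
    refine ⟨fun ⟨T, x, hx⟩ ⟨T', x', hx'⟩ h => ?_, fun ⟨y, hy⟩ => ?_⟩
    · have h1 : ∀ i, (if h : i ∈ T then (x ⟨i, h⟩ : F) else 0) =
          if h : i ∈ T' then (x' ⟨i, h⟩ : F) else 0 :=
        fun i => congrFun (congrArg Subtype.val h) i
      obtain rfl : T = T' := Finset.ext fun i => by
        have := h1 i
        by_cases h2 : i ∈ T <;> by_cases h3 : i ∈ T' <;> simp [h2, h3] at this ⊢
        · exact (x' ⟨i, h3⟩).ne_zero (by simpa using this.symm)
      obtain rfl : x = x' := funext fun i => Units.ext (by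
        have := h1 i
        rwa [dif_pos i.2, dif_pos i.2] at this)
      rfl
    · refine ⟨⟨univ.filter (y · ≠ 0), fun i => Units.mk0 (y i) (mem_filter.1 i.2).2, ?_⟩, ?_⟩
      · rw [heval]
        refine Eq.trans ?_ hy
        congr 1
        funext i
        split_ifs with h
        · rfl
        · simp only [mem_filter, mem_univ, true_and, not_not] at h
          simp [h]
      · refine Subtype.ext (funext fun i => ?_)
        simp only [e]
        split_ifs with h
        · rfl
        · simp only [mem_filter, mem_univ, true_and, not_not] at h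
          exact h.symm
  rw [affineCount, ← Nat.card_congr (Equiv.ofBijective e he), Nat.card_sigma]
  rfl

include ha in
/-- **Common zeros of a system.** -/
theorem isEntireQuot_systemCount {σ κ : Type*} [Fintype σ] [Fintype κ]
    (f : κ → MvPolynomial σ (fixedField p a)) :
    IsEntireQuot fun s => (systemCount f s : ℂ_[p]) := by
  classical
  set Q : ℂ_[p] := ((p ^ a : ℕ) : ℂ_[p]) with hQ
  refine (IsEntireQuot.sum (univ : Finset (Finset κ)) fun J _ =>
    ((isEntireQuot_pow (Q ^ Fintype.card σ)).add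
      (isEntireQuot_affineCount ha (∏ j ∈ J, f j)).neg).zsmul ((-1) ^ J.card)).congr fun s hs => ?_
  set F := fixedField p (s * a) with hF
  have : Finite F := finite_fixedField (mul_ne_zero hs ha)
  letI : Fintype F := Fintype.ofFinite F
  have hcard : ((Fintype.card (σ → F) : ℕ) : ℂ_[p]) = (Q ^ Fintype.card σ) ^ s := by
    rw [Fintype.card_fun, ← Nat.card_eq_fintype_card (α := F),
      natCard_fixedField (mul_ne_zero hs ha), hQ, Nat.cast_pow, Nat.cast_pow, Nat.cast_pow,
      ← pow_mul, ← pow_mul, ← pow_mul]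
    ring_nf
  let z : κ → (σ → F) → Prop := fun j x => evalRes (f j) (fun i => (x i : Residue p)) = 0
  have hJ : ∀ J : Finset κ, (affineCount (∏ j ∈ J, f j) s : ℂ_[p]) =
      ∑ x : σ → F, (1 - ∏ j ∈ J, if z j x then (0 : ℂ_[p]) else 1) := fun J => by
    rw [affineCount, Nat.card_eq_fintype_card, Fintype.card_subtype, natCast_filter_card]
    refine sum_congr rfl fun x _ => ?_
    have e : evalRes (∏ j ∈ J, f j) (fun i => (x i : Residue p)) =
        ∏ j ∈ J, evalRes (f j) (fun i => (x i : Residue p)) :=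
      map_prod (MvPolynomial.eval₂Hom (fixedField p a).subtype fun i => (x i : Residue p)) f J
    by_cases h : ∃ j ∈ J, z j x
    · obtain ⟨j, hj, h0⟩ := h
      rw [if_pos (e.trans (Finset.prod_eq_zero hj h0)),
        Finset.prod_eq_zero (i := j) (f := fun j => if z j x then (0 : ℂ_[p]) else 1) hj
          (if_pos h0),
        sub_zero]
    · push Not at h
      rw [if_neg fun h' => by
          obtain ⟨j, hj, h0⟩ := Finset.prod_eq_zero_iff.1 (e.symm.trans h')
          exact h j hj h0,
        prod_congr rfl fun j hj => if_neg (h j hj), prod_const_one, sub_self]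
  have hall : (systemCount f s : ℂ_[p]) = ∑ x : σ → F, ∏ j, if z j x then (1 : ℂ_[p]) else 0 := by
    rw [systemCount, Nat.card_eq_fintype_card, Fintype.card_subtype, natCast_filter_card]
    refine sum_congr rfl fun x _ => ?_
    rw [Fintype.prod_boole]
  simp only [Finset.sum_apply, Pi.smul_apply, Pi.add_apply, Pi.neg_apply]
  simp only [zsmul_eq_mul, Int.cast_pow, Int.cast_neg, Int.cast_one, hJ, hall, ← hcard,
    sum_sub_distrib, sum_const,
    card_univ, nsmul_eq_mul, mul_one]
  simp only [neg_sub, add_sub_cancel, mul_sum]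
  rw [sum_comm]
  refine sum_congr rfl fun x _ => ?_
  rw [← powerset_univ]
  calc ∑ J ∈ (univ : Finset κ).powerset,
        (-1 : ℂ_[p]) ^ J.card * ∏ j ∈ J, (if z j x then (0 : ℂ_[p]) else 1)
      = ∏ j, ((-1 : ℂ_[p]) * (if z j x then 0 else 1) + 1) := by
        rw [prod_add]
        simp only [prod_const_one, mul_one, prod_mul_distrib, prod_const]
    _ = ∏ j, if z j x then (1 : ℂ_[p]) else 0 :=
        prod_congr rfl fun j _ => by split_ifs <;> ring

end FA.DworkRationality

end
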