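import Fermat.Agent.DworkRationality.Fredholm
import Mathlib.Topology.Algebra.InfiniteSum.Constructions

/-!
# Products of series and cycles

* `hasSum_prod_pi`: a finite product of sums in a nonarchimedean field is a sum over tuples;
* `hasSum_cycles`: summing `∏ g (v l)` over the tuples with `q ^ (k + 1) - 1 ∣ ∑ q ^ l v l` gives
  the cycle trace.
-/

set_option autoImplicit false
set_option linter.unusedSectionVars false

noncomputable section

open Finset

namespace FA.DworkRationality

section products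

variable {R : Type*} [CommRing R] [UniformSpace R] [IsUniformAddGroup R] [NonarchimedeanRing R]

theorem hasSum_prod_fin {β : Type*} : ∀ {n : ℕ} {f : Fin n → β → R} {a : Fin n → R},
    (∀ i, HasSum (f i) (a i)) → HasSum (fun κ : Fin n → β => ∏ i, f i (κ i)) (∏ i, a i)
  | 0, f, a, _ => by simp
  | n + 1, f, a, h => by
    rw [← (Fin.consEquiv fun _ => β).hasSum_iff, Fin.prod_univ_succ]
    refine ((h 0).mul_of_nonarchimedean (hasSum_prod_fin fun i => h i.succ)).congr_fun fun x => ?_
    simp [Fin.prod_univ_succ, Fin.consEquiv]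

/-- **A product of sums is a sum over tuples.** -/
theorem hasSum_prod_pi {α β : Type*} [Fintype α] {f : α → β → R} {a : α → R}
    (h : ∀ i, HasSum (f i) (a i)) : HasSum (fun κ : α → β => ∏ i, f i (κ i)) (∏ i, a i) := by
  classical
  set e := Fintype.equivFin α
  have h' := hasSum_prod_fin fun i => h (e.symm i)
  rw [e.symm.prod_comp (fun i => a i)] at h'
  rw [← (Equiv.arrowCongr e (Equiv.refl β)).symm.hasSum_iff]
  refine h'.congr_fun fun κ => ?_
  show ∏ i, f i (κ (e i)) = _
  rw [← e.symm.prod_comp (fun i => f i (κ (e i)))]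
  exact prod_congr rfl fun i _ => by rw [e.apply_symm_apply]

end products

section cycles

variable {σ : Type*} {q k : ℕ}

/-- The differences `q u (l + 1) - u l` of a cycle. -/
def cycleSteps (q : ℕ) (u : Fin (k + 1) → σ → ℕ) : Fin (k + 1) → σ → ℕ :=
  fun l i => q * u (l + 1) i - u l i

/-- The sum `∑ q ^ l v (j + l)`. -/
def shiftSum (q : ℕ) (v : Fin (k + 1) → ℕ) (j : Fin (k + 1)) : ℕ :=
  ∑ l : Fin (k + 1), q ^ (l : ℕ) * v (j + l)

theorem sum_pow_succ_shift (q : ℕ) (v : Fin (k + 1) → ℕ) (j : Fin (k + 1)) :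
    (∑ l : Fin (k + 1), q ^ ((l : ℕ) + 1) * v (j + l + 1)) + v j =
      shiftSum q v j + q ^ (k + 1) * v j := by
  rw [shiftSum, Fin.sum_univ_castSucc, Fin.sum_univ_succ (fun l => q ^ (l : ℕ) * v (j + l))]
  simp only [Fin.val_castSucc, Fin.val_last, Fin.val_zero, pow_zero, one_mul, add_zero,
    Fin.val_succ, add_assoc, Fin.coeSucc_eq_succ, Fin.last_add_one]
  ring

theorem shiftSum_rec (q : ℕ) (v : Fin (k + 1) → ℕ) (j : Fin (k + 1)) :
    q * shiftSum q v (j + 1) + v j = shiftSum q v j + q ^ (k + 1) * v j := by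
  rw [← sum_pow_succ_shift, shiftSum, mul_sum]
  congr 1
  refine sum_congr rfl fun l _ => ?_
  rw [add_right_comm j 1 l, pow_succ]
  ring

theorem shiftSum_steps (hq : 1 ≤ q) {v w : Fin (k + 1) → ℕ}
    (h : ∀ l, v l + w l = q * w (l + 1)) (j : Fin (k + 1)) :
    shiftSum q v j = (q ^ (k + 1) - 1) * w j := by
  have h1 : shiftSum q v j + shiftSum q w j =
      ∑ l : Fin (k + 1), q ^ ((l : ℕ) + 1) * w (j + l + 1) := by
    rw [shiftSum, shiftSum, ← sum_add_distrib]
    exact sum_congr rfl fun l _ => by rw [← mul_add, h, pow_succ, mul_assoc]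
  have h2 := sum_pow_succ_shift q w j
  rw [← h1] at h2
  obtain ⟨Q, hQ⟩ : ∃ Q, q ^ (k + 1) = Q + 1 :=
    ⟨q ^ (k + 1) - 1, (Nat.sub_add_cancel (Nat.one_le_pow _ _ hq)).symm⟩
  rw [hQ, Nat.add_sub_cancel]
  rw [hQ, add_mul, one_mul] at h2
  omega

variable [Fintype σ] {K : Type*} [NormedField K] {g : (σ → ℕ) → K}

open Classical in
theorem cycleWeight_eq (u : Fin (k + 1) → σ → ℕ) : cycleWeight g q k u =
    if ∀ l i, u l i ≤ q * u (l + 1) i then ∏ l, g (cycleSteps q u l) else 0 := by
  rw [cycleWeight]
  split_ifs with h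
  · refine prod_congr rfl fun l _ => ?_
    rw [dworkEntry, if_pos (h l)]
    rfl
  · rw [not_forall] at h
    obtain ⟨l, hl⟩ := h
    exact prod_eq_zero (mem_univ l) (by rw [dworkEntry, if_neg hl])

/-- **The cycle trace as a sum over tuples of exponents.** -/
theorem hasSum_cycles [IsUltrametricDist K] [CompleteSpace K] {r : ℝ} (hr0 : 0 < r) (hr1 : r < 1)
    (hg : ∀ v, ‖g v‖ ≤ r ^ expDeg v) (hq : 2 ≤ q) (k : ℕ)
    (F : (Fin (k + 1) → σ → ℕ) → K)
    (hF : ∀ v, (¬ ∀ i, q ^ (k + 1) - 1 ∣ shiftSum q (fun l => v l i) 0) → F v = 0)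
    (hF' : ∀ v, (∀ i, q ^ (k + 1) - 1 ∣ shiftSum q (fun l => v l i) 0) → F v = ∏ l, g (v l)) :
    HasSum F (cycleTrace g q k) := by
  classical
  set Q := q ^ (k + 1) - 1 with hQdef
  have hQ : 0 < Q := by
    have : 1 < q ^ (k + 1) := Nat.one_lt_pow k.succ_ne_zero (by omega)
    omega
  let V := {u : Fin (k + 1) → σ → ℕ // ∀ l i, u l i ≤ q * u (l + 1) i}
  have hW : ∀ (u : V) (j : Fin (k + 1)) (i : σ),
      shiftSum q (fun l => cycleSteps q u.1 l i) j = Q * u.1 j i := fun u j i =>
    shiftSum_steps (by omega) (w := fun l => u.1 l i) (fun l => Nat.sub_add_cancel (u.2 l i)) j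
  have hinj : Function.Injective fun u : V => cycleSteps q u.1 := fun u u' h => by
    refine Subtype.ext (funext fun j => funext fun i => ?_)
    have h1 := hW u j i
    have h2 := hW u' j i
    simp only [show cycleSteps q u.1 = cycleSteps q u'.1 from h] at h1
    exact Nat.eq_of_mul_eq_mul_left hQ (h1.symm.trans h2)
  rw [← hinj.hasSum_iff fun v hv => hF v fun hdvd => hv ?_]
  · have h : HasSum (cycleWeight g q k ∘ Subtype.val : V → K) (cycleTrace g q k) := by
      refine (Subtype.val_injective.hasSum_iff fun u hu => ?_).2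
        (summable_cycleWeight hr0 hr1 hg hq k).hasSum
      rw [cycleWeight_eq, if_neg]
      exact fun hval => hu ⟨⟨u, hval⟩, rfl⟩
    refine h.congr_fun fun u => ?_
    simp only [Function.comp_apply]
    rw [cycleWeight_eq, if_pos u.2]
    refine hF' _ fun i => ?_
    rw [hW u 0 i]
    exact dvd_mul_right _ _
  · have hall : ∀ j i, Q ∣ shiftSum q (fun l => v l i) j := by
      intro j i
      induction j using Fin.induction with
      | zero => exact hdvd i
      | succ j ih =>
        rw [← Fin.coeSucc_eq_succ]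
        have h := shiftSum_rec q (fun l => v l i) j.castSucc
        have hco : Nat.Coprime Q q := by
          refine Nat.Coprime.coprime_dvd_right (dvd_pow_self q k.succ_ne_zero) ?_
          have h1 : q ^ (k + 1) = Q + 1 := by omega
          rw [h1]
          exact Nat.coprime_self_add_right.2 (Nat.coprime_one_right _)
        refine hco.dvd_of_dvd_mul_left ?_
        have h3 : q * shiftSum q (fun l => v l i) (j.castSucc + 1) =
            shiftSum q (fun l => v l i) j.castSucc + Q * v j.castSucc i := by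
          have h4 : q ^ (k + 1) * v j.castSucc i = Q * v j.castSucc i + v j.castSucc i := by
            rw [← Nat.succ_mul]
            congr 1
            omega
          omega
        rw [h3]
        exact dvd_add ih (dvd_mul_right _ _)
    choose w hw using hall
    have hstep : ∀ l i, q * w (l + 1) i = w l i + v l i := fun l i => by
      refine Nat.eq_of_mul_eq_mul_left hQ ?_
      have h := shiftSum_rec q (fun l => v l i) l
      have h4 : q ^ (k + 1) * v l i = Q * v l i + v l i := by
        rw [← Nat.succ_mul]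
        congr 1
        omega
      rw [hw, hw, h4] at h
      rw [mul_add, mul_left_comm]
      omega
    refine ⟨⟨w, fun l i => by rw [hstep]; exact Nat.le_add_right _ _⟩, ?_⟩
    funext l i
    show q * w (l + 1) i - w l i = v l i
    rw [hstep, Nat.add_sub_cancel_left]

end cycles

end FA.DworkRationality

end
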