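import Fermat.Agent.DworkRationality.Character
import Fermat.Agent.DworkRationality.Products
import Mathlib.Analysis.SpecialFunctions.Pow.Real
import Mathlib.Logic.Equiv.Fin.Basic

/-!
# Dwork's trace formula

The exponential sum of a polynomial with coefficients fixed by `x ↦ x ^ p ^ a` over the torus of
the field with `p ^ ((k + 1) a)` elements is `(q ^ (k + 1) - 1) ^ dim` times a cycle trace,
`q = p ^ a`.
-/

set_option autoImplicit false
set_option linter.unusedSectionVars false

noncomputable section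

open Finset

namespace FA.DworkRationality

variable {p : ℕ} [hp : Fact p.Prime]

/-- `teich` on a fixed field, as a monoid homomorphism. -/
def teichHom {b : ℕ} (hb : b ≠ 0) : fixedField p b →* ℂ_[p] where
  toFun x := teich (x : Residue p)
  map_one' := teich_one
  map_mul' x y := by
    rw [Subfield.coe_mul]
    exact teich_mul (isFin_of_mem hb x.2) (isFin_of_mem hb y.2)

variable {σ I : Type*} [Fintype σ] [Fintype I]

/-- The exponential sum over the torus. -/
def torusSum (b : ℕ) [Fintype (fixedField p b)ˣ] [DecidableEq σ] (c : I → Residue p)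
    (u : I → σ → ℕ) : ℂ_[p] :=
  ∑ x : σ → (fixedField p b)ˣ, ∏ i, ∏ j ∈ range b, ahEval (gammaRoot p *
    teich (c i * ∏ s, ((x s : fixedField p b) : Residue p) ^ u i s) ^ (p ^ j))

theorem fixed_of_dvd {r : Residue p} {a : ℕ} (hr : r ^ (p ^ a) = r) (n : ℕ) :
    r ^ (p ^ (n * a)) = r := by
  rw [mul_comm, pow_mul]
  exact pow_iterate_fix hr n

theorem teich_monomial {a k : ℕ} (ha : a ≠ 0) {c : Residue p} (hc : c ^ (p ^ a) = c)
    (u : σ → ℕ) (x : σ → (fixedField p ((k + 1) * a))ˣ) :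
    teich (c * ∏ s, ((x s : fixedField p ((k + 1) * a)) : Residue p) ^ u s) =
      teich c * ∏ s, teich ((x s : fixedField p ((k + 1) * a)) : Residue p) ^ u s := by
  have hb : (k + 1) * a ≠ 0 := mul_ne_zero k.succ_ne_zero ha
  have h := map_mul (teichHom hb) ⟨c, mem_fixedField.2 (fixed_of_dvd hc _)⟩
    (∏ s, (x s : fixedField p ((k + 1) * a)) ^ u s)
  simp only [map_prod, map_pow] at h
  refine Eq.trans (congrArg teich ?_) h
  rw [Subfield.coe_mul]
  congr 1
  simp

/-- **The series of a polynomial and the trace formula.** -/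
theorem exists_traceFormula {a : ℕ} (ha : a ≠ 0) (c : I → Residue p)
    (hc : ∀ i, c i ^ (p ^ a) = c i) (u : I → σ → ℕ) :
    ∃ (g : (σ → ℕ) → ℂ_[p]) (r : ℝ), 0 < r ∧ r < 1 ∧ (∀ v, ‖g v‖ ≤ r ^ expDeg v) ∧
      ∀ (k : ℕ) [Fintype (fixedField p ((k + 1) * a))ˣ] [DecidableEq σ],
        torusSum ((k + 1) * a) c u =
          (((p ^ a) ^ (k + 1) - 1 : ℕ) : ℂ_[p]) ^ Fintype.card σ * cycleTrace g (p ^ a) k := by
  classical
  set D := (univ : Finset (I × Fin a)).sum (fun t => p ^ (t.2 : ℕ) * expDeg (u t.1)) + 1 with hD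
  set w : I × Fin a → σ → ℕ := fun t s => p ^ (t.2 : ℕ) * u t.1 s with hw
  set β : I × Fin a → ℂ_[p] := fun t => gammaRoot p * teich (c t.1) ^ (p ^ (t.2 : ℕ)) with hβ
  set coef : (I × Fin a → ℕ) → ℂ_[p] := fun κ =>
    ∏ t, PowerSeries.coeff (κ t) (ahSeries p) * β t ^ κ t with hcoef
  set wt : (I × Fin a → ℕ) → σ → ℕ := fun κ s => ∑ t, κ t * w t s with hwt
  set r₀ := max ‖gammaRoot p‖ (1 / 2) with hr₀
  have hr₀0 : 0 < r₀ := lt_of_lt_of_le (by norm_num) (le_max_right _ _)
  have hr₀1 : r₀ < 1 := max_lt norm_gammaRoot (by norm_num)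
  set r : ℝ := r₀ ^ ((D : ℝ)⁻¹) with hr
  have hr0 : 0 < r := Real.rpow_pos_of_pos hr₀0 _
  have hr1 : r < 1 := Real.rpow_lt_one hr₀0.le hr₀1 (by positivity)
  have hrD : r ^ D = r₀ := Real.rpow_inv_natCast_pow hr₀0.le (by omega)
  have hβn : ∀ t, ‖β t‖ ≤ r₀ := fun t => by
    rw [hβ, norm_mul, norm_pow]
    exact (mul_le_of_le_one_right (norm_nonneg _)
      (pow_le_one₀ (norm_nonneg _) (norm_teich_le _))).trans (le_max_left _ _)
  -- the expansion of the product of the series
  have hG : ∀ Y : σ → ℂ_[p], (∀ s, ‖Y s‖ ≤ 1) →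
      HasSum (fun κ => coef κ * ∏ s, Y s ^ wt κ s) (∏ t, ahEval (β t * ∏ s, Y s ^ w t s)) := by
    intro Y hY
    have h1 : ∀ t, HasSum (fun n => PowerSeries.coeff n (ahSeries p) * (β t * ∏ s, Y s ^ w t s) ^ n)
        (ahEval (β t * ∏ s, Y s ^ w t s)) := fun t => by
      refine (summable_evalSeries boundedSeries_ahSeries ?_).hasSum
      rw [norm_mul, norm_prod]
      refine lt_of_le_of_lt (mul_le_of_le_one_right (norm_nonneg _) ?_) ((hβn t).trans_lt hr₀1)
      exact Finset.prod_le_one (fun s _ => norm_nonneg _) fun s _ => by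
        rw [norm_pow]; exact pow_le_one₀ (norm_nonneg _) (hY s)
    refine (hasSum_prod_pi h1).congr_fun fun κ => ?_
    simp only [hcoef, hwt, mul_pow, ← prod_pow_eq_pow_sum, ← Finset.prod_pow, ← pow_mul,
      mul_comm (κ _), prod_mul_distrib]
    rw [prod_comm (γ := σ)]
    ring
  have hsum : Summable coef := by
    have := (hG 1 (fun _ => by simp)).summable
    simpa using this
  set g : (σ → ℕ) → ℂ_[p] := fun v => ∑' κ : {κ // wt κ = v}, coef κ with hg
  have hgb : ∀ v, ‖g v‖ ≤ r ^ expDeg v := fun v => by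
    refine IsUltrametricDist.norm_tsum_le_of_forall_le_of_nonneg (by positivity) ?_
    rintro ⟨κ, rfl⟩
    have hκ : expDeg (wt κ) ≤ D * ∑ t, κ t := by
      rw [expDeg, hwt, sum_comm, mul_sum]
      refine sum_le_sum fun t _ => ?_
      rw [← mul_sum, mul_comm D]
      refine Nat.mul_le_mul_left _ ?_
      rw [hw, ← mul_sum, hD]
      exact le_add_right (single_le_sum (f := fun t : I × Fin a =>
        p ^ (t.2 : ℕ) * expDeg (u t.1)) (fun _ _ => Nat.zero_le _) (mem_univ t))
    refine le_trans ?_ (pow_le_pow_of_le_one hr0.le hr1.le hκ)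
    rw [pow_mul, hrD, hcoef, norm_prod, ← prod_pow_eq_pow_sum]
    refine prod_le_prod (fun t _ => norm_nonneg _) fun t _ => ?_
    rw [norm_mul, norm_pow]
    exact (mul_le_of_le_one_left (by positivity) (boundedSeries_ahSeries _)).trans
      (pow_le_pow_left₀ (norm_nonneg _) (hβn t) _)
  have hGv : ∀ Y : σ → ℂ_[p], (∀ s, ‖Y s‖ ≤ 1) →
      HasSum (fun v => g v * ∏ s, Y s ^ v s) (∏ t, ahEval (β t * ∏ s, Y s ^ w t s)) := by
    intro Y hY
    refine ((Equiv.sigmaFiberEquiv wt).hasSum_iff.2 (hG Y hY)).sigma fun v => ?_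
    refine ((hsum.subtype _).hasSum.mul_right (∏ s, Y s ^ v s)).congr_fun fun κ => ?_
    simp only [Function.comp_apply, Equiv.sigmaFiberEquiv_apply]
    rw [show wt (κ : I × Fin a → ℕ) = v from κ.2]
  refine ⟨g, r, hr0, hr1, hgb, fun k _ _ => ?_⟩
  set q := p ^ a with hq
  have hb : (k + 1) * a ≠ 0 := mul_ne_zero k.succ_ne_zero ha
  have hQ : p ^ ((k + 1) * a) - 1 = q ^ (k + 1) - 1 := by rw [hq, ← pow_mul, mul_comm]
  set X : (σ → (fixedField p ((k + 1) * a))ˣ) → σ → ℂ_[p] := fun x s =>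
    teich ((x s : fixedField p ((k + 1) * a)) : Residue p) with hX
  set W : (Fin (k + 1) → σ → ℕ) → σ → ℕ := fun v s => shiftSum q (fun l => v l s) 0 with hW
  -- each summand
  have hterm : ∀ x, HasSum (fun v => (∏ l, g (v l)) * ∏ s, X x s ^ W v s)
      (∏ i, ∏ j ∈ range ((k + 1) * a), ahEval (gammaRoot p *
        teich (c i * ∏ s, ((x s : fixedField p ((k + 1) * a)) : Residue p) ^ u i s) ^
          (p ^ j))) := by
    intro x
    have h := hasSum_prod_pi (fun l : Fin (k + 1) => hGv (fun s => X x s ^ q ^ (l : ℕ))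
      fun s => by rw [norm_pow]; exact pow_le_one₀ (norm_nonneg _) (norm_teich_le _))
    convert h using 1
    · funext v
      rw [prod_mul_distrib, prod_comm (γ := Fin (k + 1))]
      simp only [hW, shiftSum, zero_add, ← prod_pow_eq_pow_sum, ← pow_mul]
    · conv_rhs => enter [2, l]; rw [Fintype.prod_prod_type]
      rw [prod_comm (γ := Fin (k + 1))]
      refine prod_congr rfl fun i _ => ?_
      rw [← Fin.prod_univ_eq_prod_range, ← finProdFinEquiv.prod_comp, Fintype.prod_prod_type]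
      refine prod_congr rfl fun l _ => prod_congr rfl fun j _ => ?_
      congr 1
      rw [hβ, teich_monomial ha (hc i), finProdFinEquiv_apply_val, pow_add, mul_pow, ← prod_pow,
        mul_assoc]
      congr 2
      · rw [mul_comm (p ^ (j : ℕ)), pow_mul, pow_mul p a]
        congr 1
        exact pow_iterate_fix (teich_pow ha (hc i)) _
      · refine prod_congr rfl fun s _ => ?_
        rw [hX, hw, ← pow_mul, ← pow_mul, hq, ← pow_mul]
        ring_nf
  have htot : HasSum (fun v => (∏ l, g (v l)) * ∑ x, ∏ s, X x s ^ W v s)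
      (torusSum ((k + 1) * a) c u) := by
    simp only [mul_sum]
    exact hasSum_sum fun x _ => hterm x
  have horth : ∀ v, ∑ x, ∏ s, X x s ^ W v s = if ∀ s, q ^ (k + 1) - 1 ∣ W v s then
      (((q ^ (k + 1) - 1 : ℕ) : ℂ_[p]) ^ Fintype.card σ) else 0 := fun v => by
    have h := Finset.prod_univ_sum (fun _ : σ => (univ : Finset (fixedField p ((k + 1) * a))ˣ))
      (fun s x => teich ((x : fixedField p ((k + 1) * a)) : Residue p) ^ W v s)
    rw [Fintype.piFinset_univ] at h
    rw [hX, ← h]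
    simp only [sum_teich_pow hb, hQ]
    split_ifs with hall
    · rw [prod_congr rfl fun s _ => if_pos (hall s), prod_const, card_univ]
    · push Not at hall
      obtain ⟨s, hs⟩ := hall
      exact prod_eq_zero (mem_univ s) (if_neg hs)
  have hcyc := (hasSum_cycles hr0 hr1 hgb (two_le_prime_pow ha) k
    (fun v => if ∀ s, q ^ (k + 1) - 1 ∣ W v s then ∏ l, g (v l) else 0) (fun v hv => if_neg hv)
    fun v hv => if_pos hv).mul_left (((q ^ (k + 1) - 1 : ℕ) : ℂ_[p]) ^ Fintype.card σ)
  refine htot.unique (hcyc.congr_fun fun v => ?_)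
  rw [horth]
  split_ifs <;> ring

end FA.DworkRationality

end
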