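import Fermat.Agent.DworkRationality.Newton
import Mathlib.Topology.Algebra.InfiniteSum.Nonarchimedean
import Mathlib.Analysis.Normed.Group.InfiniteSum
import Mathlib.Data.Fintype.Pi
import Mathlib.Data.Pi.Interval
import Mathlib.Analysis.Normed.Field.Lemmas

/-!
# Cycle sums and their Fredholm determinant

For coefficients `g v`, `v ∈ ℕ ^ σ`, with `‖g v‖ ≤ r ^ |v|`, the matrix with entries
`g (q v - u)` has as traces of powers the cycle sums `cycleTrace`; these are the logarithmic
derivative of an entire series.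
-/

set_option autoImplicit false
set_option linter.unusedSectionVars false

noncomputable section

open Finset Filter Topology

namespace FA.DworkRationality

variable {K : Type*} [NormedField K] {σ : Type*} [Fintype σ]

/-- The total degree of an exponent. -/
def expDeg (u : σ → ℕ) : ℕ := ∑ i, u i

/-- The entry `g (q v - u)` of Dwork's matrix. -/
def dworkEntry (g : (σ → ℕ) → K) (q : ℕ) (u v : σ → ℕ) : K :=
  open Classical in if ∀ i, u i ≤ q * v i then g (fun i => q * v i - u i) else 0

/-- The weight of a cycle of exponents. -/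
def cycleWeight (g : (σ → ℕ) → K) (q k : ℕ) (u : Fin (k + 1) → σ → ℕ) : K :=
  ∏ l, dworkEntry g q (u l) (u (l + 1))

/-- The trace of the `(k + 1)`st power of Dwork's matrix. -/
def cycleTrace (g : (σ → ℕ) → K) (q k : ℕ) : K := ∑' u, cycleWeight g q k u

variable {g : (σ → ℕ) → K} {q : ℕ} {r : ℝ}

theorem norm_dworkEntry_mul_le (hr0 : 0 ≤ r) (hg : ∀ v, ‖g v‖ ≤ r ^ expDeg v) (u v : σ → ℕ) :
    ‖dworkEntry g q u v‖ * r ^ expDeg u ≤ r ^ (q * expDeg v) := by
  rw [dworkEntry]
  split_ifs with h
  · refine (mul_le_mul_of_nonneg_right (hg _) (by positivity)).trans (le_of_eq ?_)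
    rw [← pow_add]
    congr 1
    rw [expDeg, expDeg, expDeg, ← sum_add_distrib, mul_sum]
    exact sum_congr rfl fun i _ => Nat.sub_add_cancel (h i)
  · rw [norm_zero, zero_mul]
    positivity

theorem norm_prod_dworkEntry_le (hr0 : 0 < r) (hg : ∀ v, ‖g v‖ ≤ r ^ expDeg v) (hq : 1 ≤ q)
    {α : Type*} (s : Finset α) (f : α → σ → ℕ) (π : Equiv.Perm α) (hπ : ∀ a, π a ≠ a → a ∈ s) :
    ‖∏ a ∈ s, dworkEntry g q (f a) (f (π a))‖ ≤ (r ^ (q - 1)) ^ ∑ a ∈ s, expDeg (f a) := by
  refine le_of_mul_le_mul_right ?_ (pow_pos hr0 (∑ a ∈ s, expDeg (f a)))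
  rw [norm_prod, ← Finset.prod_pow_eq_pow_sum s (fun a => expDeg (f a)) r, ← prod_mul_distrib]
  refine (prod_le_prod (fun a _ => by positivity) fun a _ =>
    norm_dworkEntry_mul_le (q := q) hr0.le hg (f a) (f (π a))).trans (le_of_eq ?_)
  rw [prod_pow_eq_pow_sum, ← mul_sum, Equiv.Perm.sum_comp π s (fun a => expDeg (f a)) hπ,
    prod_pow_eq_pow_sum, ← pow_mul, ← pow_add]
  congr 1
  obtain ⟨q', rfl⟩ : ∃ q', q = q' + 1 := ⟨q - 1, by omega⟩
  rw [Nat.add_sub_cancel, add_mul, one_mul]

theorem norm_cycleWeight_le (hr0 : 0 < r) (hg : ∀ v, ‖g v‖ ≤ r ^ expDeg v) (hq : 1 ≤ q)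
    {k : ℕ} (u : Fin (k + 1) → σ → ℕ) :
    ‖cycleWeight g q k u‖ ≤ (r ^ (q - 1)) ^ ∑ l, expDeg (u l) :=
  norm_prod_dworkEntry_le hr0 hg hq univ u (Equiv.addRight 1) fun a _ => mem_univ a

theorem finite_expDeg_le {α : Type*} [Fintype α] (B : ℕ) :
    {u : α → σ → ℕ | ∑ a, expDeg (u a) ≤ B}.Finite := by
  classical
  refine (Fintype.piFinset fun _ : α => Fintype.piFinset fun _ : σ => Iic B).finite_toSet.subset
    fun u hu => ?_
  simp only [mem_coe, Fintype.mem_piFinset, mem_Iic]
  intro a i
  exact ((single_le_sum (f := u a) (fun _ _ => Nat.zero_le _) (mem_univ i)).trans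
    (single_le_sum (f := fun a => expDeg (u a)) (fun _ _ => Nat.zero_le _) (mem_univ a))).trans hu

theorem pow_sub_one_lt_one (hr0 : 0 ≤ r) (hr1 : r < 1) (hq : 2 ≤ q) : r ^ (q - 1) < 1 :=
  pow_lt_one₀ hr0 hr1 (by omega)

theorem summable_cycleWeight [IsUltrametricDist K] [CompleteSpace K] (hr0 : 0 < r) (hr1 : r < 1)
    (hg : ∀ v, ‖g v‖ ≤ r ^ expDeg v) (hq : 2 ≤ q) (k : ℕ) : Summable (cycleWeight g q k) := by
  refine NonarchimedeanAddGroup.summable_of_tendsto_cofinite_zero ?_
  rw [Metric.tendsto_nhds]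
  intro ε hε
  obtain ⟨B, hB⟩ := exists_pow_lt_of_lt_one hε (pow_sub_one_lt_one hr0.le hr1 hq)
  refine ((finite_expDeg_le (σ := σ) (α := Fin (k + 1)) B).subset fun u hu => ?_)
  simp only [Set.mem_compl_iff, Set.mem_ofPred_eq, dist_zero_right, not_lt] at hu ⊢
  by_contra hlt
  rw [not_le] at hlt
  refine absurd (hu.trans ((norm_cycleWeight_le hr0 hg (by omega) u).trans ?_)) (not_le.2 hB)
  exact pow_le_pow_of_le_one (by positivity) (pow_sub_one_lt_one hr0.le hr1 hq).le hlt.le

section paths

variable {R : Type*} [CommRing R] {ι : Type*} [Fintype ι] [DecidableEq ι]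

theorem matrix_pow_apply (A : Matrix ι ι R) (k : ℕ) (a b : ι) :
    (A ^ (k + 1)) a b = ∑ w : Fin k → ι,
      ∏ l : Fin (k + 1),
        A (Fin.cons (α := fun _ => ι) a w l) (Fin.snoc (α := fun _ => ι) w b l) := by
  induction k generalizing a with
  | zero => simp [Fin.snoc]
  | succ k ih =>
    rw [pow_succ' A (k + 1), Matrix.mul_apply, ← (Fin.consEquiv fun _ => ι).sum_comp,
      Fintype.sum_prod_type]
    refine sum_congr rfl fun c _ => ?_
    rw [ih, mul_sum]
    refine sum_congr rfl fun w _ => ?_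
    rw [Fin.prod_univ_succ (n := k + 1)]
    simp only [Fin.consEquiv, Equiv.coe_fn_mk, ← Fin.cons_snoc_eq_snoc_cons, Fin.cons_zero,
      Fin.cons_succ]

theorem trace_pow_eq_sum_cycles (A : Matrix ι ι R) (k : ℕ) :
    (A ^ (k + 1)).trace = ∑ u : Fin (k + 1) → ι, ∏ l, A (u l) (u (l + 1)) := by
  rw [Matrix.trace, ← (Fin.consEquiv fun _ => ι).sum_comp, Fintype.sum_prod_type]
  refine sum_congr rfl fun a _ => ?_
  rw [Matrix.diag_apply, matrix_pow_apply]
  refine sum_congr rfl fun w _ => prod_congr rfl fun l => ?_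
  induction l using Fin.lastCases with
  | last => simp [Fin.consEquiv]
  | cast j => simp [Fin.consEquiv, Fin.coeSucc_eq_succ]

end paths

/-- The truncation of Dwork's matrix to finitely many exponents. -/
def dworkMatrix (g : (σ → ℕ) → K) (q : ℕ) (U : Finset (σ → ℕ)) : Matrix U U K :=
  Matrix.of fun a b => dworkEntry g q a b

open Classical in
theorem trace_dworkMatrix (U : Finset (σ → ℕ)) (k : ℕ) :
    (dworkMatrix g q U ^ (k + 1)).trace =
      ∑ u ∈ Fintype.piFinset (fun _ : Fin (k + 1) => U), cycleWeight g q k u := by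
  rw [trace_pow_eq_sum_cycles]
  refine sum_bij (fun u _ l => (u l : σ → ℕ)) (fun u _ => Fintype.mem_piFinset.2 fun l => (u l).2)
    (fun u _ v _ h => funext fun l => Subtype.ext (congrFun h l))
    (fun v hv => ⟨fun l => ⟨v l, Fintype.mem_piFinset.1 hv l⟩, mem_univ _, rfl⟩)
    fun u _ => rfl

open Classical in
theorem tendsto_trace [IsUltrametricDist K] [CompleteSpace K] (hr0 : 0 < r) (hr1 : r < 1)
    (hg : ∀ v, ‖g v‖ ≤ r ^ expDeg v) (hq : 2 ≤ q) (k : ℕ) :
    Tendsto (fun U => (dworkMatrix g q U ^ (k + 1)).trace) atTop (𝓝 (cycleTrace g q k)) := by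
  simp only [trace_dworkMatrix]
  have h : Tendsto (fun U : Finset (σ → ℕ) => Fintype.piFinset fun _ : Fin (k + 1) => U)
      atTop atTop := by
    refine tendsto_atTop_atTop.2 fun W => ⟨W.biUnion fun u => univ.image u, fun U hU u hu => ?_⟩
    exact Fintype.mem_piFinset.2 fun l =>
      hU (mem_biUnion.2 ⟨u, hu, mem_image.2 ⟨l, mem_univ _, rfl⟩⟩)
  exact (summable_cycleWeight hr0 hr1 hg hq k).hasSum.comp h

variable [IsUltrametricDist K]

open Classical in
/-- **The coefficients of the finite determinants are small.** -/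
theorem norm_coeff_det_le (hr0 : 0 < r) (hr1 : r < 1) (hg : ∀ v, ‖g v‖ ≤ r ^ expDeg v)
    (hq : 2 ≤ q) (U : Finset (σ → ℕ)) (M k : ℕ) :
    ‖PowerSeries.coeff k
        (1 - (PowerSeries.X : PowerSeries K) • (dworkMatrix g q U).map PowerSeries.C).det‖ ≤
      (r ^ (q - 1)) ^ ((M + 1) *
        (k - (Fintype.piFinset fun _ : σ => Iic M).card)) := by
  rw [Matrix.det_apply, map_sum]
  refine IsUltrametricDist.norm_sum_le_of_forall_le_of_nonneg (by positivity) fun π _ => ?_
  rw [Units.smul_def, map_zsmul]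
  refine le_trans (le_of_eq ?_) (?_ : ‖PowerSeries.coeff k (∏ i,
    (1 - (PowerSeries.X : PowerSeries K) • (dworkMatrix g q U).map PowerSeries.C) (π i) i)‖ ≤ _)
  · rcases Int.units_eq_one_or (Equiv.Perm.sign π) with h | h <;> simp [h]
  have hentry : ∀ i, (1 - (PowerSeries.X : PowerSeries K) •
      (dworkMatrix g q U).map PowerSeries.C) (π i) i =
        PowerSeries.C (-(dworkEntry g q (π i) i)) * PowerSeries.X +
          PowerSeries.C (if π i = i then 1 else 0) := fun i => by
    rw [Matrix.sub_apply, Matrix.smul_apply, Matrix.map_apply, dworkMatrix, Matrix.of_apply,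
      smul_eq_mul, Matrix.one_apply, apply_ite PowerSeries.C, map_one, map_zero, map_neg]
    ring
  simp only [hentry, prod_add, map_sum]
  refine IsUltrametricDist.norm_sum_le_of_forall_le_of_nonneg (by positivity) fun S _ => ?_
  rw [prod_mul_distrib, prod_const, ← map_prod, ← map_prod, mul_right_comm, ← map_mul,
    PowerSeries.coeff_C_mul, PowerSeries.coeff_X_pow]
  split_ifs with hk
  swap
  · rw [mul_zero, norm_zero]
    positivity
  rw [mul_one, norm_mul]
  by_cases hfix : ∀ i ∈ univ \ S, π i = i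
  swap
  · push Not at hfix
    obtain ⟨i, hi, hne⟩ := hfix
    rw [prod_eq_zero hi (if_neg hne), norm_zero, mul_zero]
    positivity
  rw [prod_congr rfl fun i hi => if_pos (hfix i hi), prod_const_one, norm_one, mul_one, prod_neg,
    norm_mul, norm_pow, norm_neg, norm_one, one_pow, one_mul]
  have hπ : ∀ i, π i ≠ i → i ∈ S := fun i hi => by
    by_contra h
    exact hi (hfix i (mem_sdiff.2 ⟨mem_univ _, h⟩))
  have hπ' : ∀ i, π.symm i ≠ i → i ∈ S := fun i hi => hπ i fun e => hi (by
    conv_lhs => rw [← e]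
    exact π.symm_apply_apply i)
  have hperm : ∏ i ∈ S, dworkEntry g q (π i) i = ∏ i ∈ S, dworkEntry g q i (π.symm i) := by
    rw [← Equiv.Perm.prod_comp π S (fun i => dworkEntry g q i (π.symm i)) hπ]
    simp
  rw [hperm]
  refine (norm_prod_dworkEntry_le hr0 hg (by omega) S (fun i : U => (i : σ → ℕ)) π.symm hπ').trans
    (pow_le_pow_of_le_one (by positivity) (pow_sub_one_lt_one hr0.le hr1 hq).le ?_)
  set L := Fintype.piFinset fun _ : σ => Iic M
  have hcard : k - L.card ≤ (S.filter fun i : U => M < expDeg (i : σ → ℕ)).card := by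
    have h1 := Finset.card_filter_add_card_filter_not (s := S)
      (fun i : U => M < expDeg (i : σ → ℕ))
    have h2 : (S.filter fun i : U => ¬ M < expDeg (i : σ → ℕ)).card ≤ L.card := by
      refine Finset.card_le_card_of_injOn (fun i => (i : σ → ℕ)) (fun i hi => ?_)
        fun i _ j _ h => Subtype.ext h
      simp only [mem_coe, mem_filter, not_lt] at hi ⊢
      exact Fintype.mem_piFinset.2 fun j => mem_Iic.2
        ((single_le_sum (f := fun j => (i : σ → ℕ) j) (fun _ _ => Nat.zero_le _)
          (mem_univ j)).trans hi.2)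
    omega
  calc (M + 1) * (k - L.card)
      ≤ (M + 1) * (S.filter fun i : U => M < expDeg (i : σ → ℕ)).card :=
        Nat.mul_le_mul_left _ hcard
    _ ≤ ∑ i ∈ S.filter (fun i : U => M < expDeg (i : σ → ℕ)), expDeg (i : σ → ℕ) := by
        rw [mul_comm, ← smul_eq_mul]
        exact card_nsmul_le_sum _ _ _ fun i hi => (mem_filter.1 hi).2
    _ ≤ ∑ i ∈ S, expDeg (i : σ → ℕ) :=
        sum_le_sum_of_subset (filter_subset _ _)

/-- The coefficients of the Fredholm determinant, by Newton's recursion. -/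
def fredholmCoeff (g : (σ → ℕ) → K) (q : ℕ) : ℕ → K
  | 0 => 1
  | k + 1 => -((∑ j : Fin (k + 1), cycleTrace g q (k - j) * fredholmCoeff g q j) / ((k : K) + 1))

variable [CompleteSpace K] [CharZero K]

open Classical in
theorem tendsto_coeff_det (hr0 : 0 < r) (hr1 : r < 1) (hg : ∀ v, ‖g v‖ ≤ r ^ expDeg v)
    (hq : 2 ≤ q) (k : ℕ) :
    Tendsto (fun U => PowerSeries.coeff k
        (1 - (PowerSeries.X : PowerSeries K) • (dworkMatrix g q U).map PowerSeries.C).det)
      atTop (𝓝 (fredholmCoeff g q k)) := by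
  induction k using Nat.strong_induction_on with
  | _ k ih =>
    rcases k with _ | k
    · refine tendsto_const_nhds.congr fun U => ?_
      rw [fredholmCoeff, PowerSeries.coeff_zero_eq_constantCoeff_apply, RingHom.map_det]
      rw [RingHom.mapMatrix_apply]
      symm
      convert Matrix.det_one (R := K) (n := {x // x ∈ U}) using 2
      ext a b
      simp [Matrix.one_apply, apply_ite PowerSeries.constantCoeff]
    · have hrec : ∀ U : Finset (σ → ℕ), PowerSeries.coeff (k + 1)
          (1 - (PowerSeries.X : PowerSeries K) • (dworkMatrix g q U).map PowerSeries.C).det =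
          -((∑ j : Fin (k + 1), (dworkMatrix g q U ^ (k - (j : ℕ) + 1)).trace *
            PowerSeries.coeff (j : ℕ) (1 - (PowerSeries.X : PowerSeries K) •
              (dworkMatrix g q U).map PowerSeries.C).det) / ((k : K) + 1)) := fun U => by
        have h := congrArg (PowerSeries.coeff k) (derivative_det_one_sub (dworkMatrix g q U))
        rw [PowerSeries.coeff_derivative, map_neg, mul_comm (logSeries _), PowerSeries.coeff_mul,
          Finset.Nat.sum_antidiagonal_eq_sum_range_succ
            (fun i j => PowerSeries.coeff i _ * PowerSeries.coeff j _)] at h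
        rw [eq_comm, neg_eq_iff_eq_neg, div_eq_iff (Nat.cast_add_one_ne_zero k),
          neg_mul, h, neg_neg, ← Fin.sum_univ_eq_sum_range]
        refine sum_congr rfl fun j _ => ?_
        rw [logSeries, PowerSeries.coeff_mk, mul_comm]
      simp only [hrec, fredholmCoeff]
      refine ((tendsto_finsetSum _ fun j _ => ?_).div_const _).neg
      exact (tendsto_trace hr0 hr1 hg hq _).mul (ih j j.2)

/-- The Fredholm determinant. -/
def fredholmSeries (g : (σ → ℕ) → K) (q : ℕ) : PowerSeries K :=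
  PowerSeries.mk (fredholmCoeff g q)

/-- **The Fredholm determinant is entire.** -/
theorem entireSeries_fredholm (hr0 : 0 < r) (hr1 : r < 1) (hg : ∀ v, ‖g v‖ ≤ r ^ expDeg v)
    (hq : 2 ≤ q) : EntireSeries (fredholmSeries g q) := fun ε hε => by
  classical
  obtain ⟨M, hM⟩ := exists_pow_lt_of_lt_one hε (pow_sub_one_lt_one hr0.le hr1 hq)
  set c := (Fintype.piFinset fun _ : σ => Iic M).card
  set ρ := r ^ (q - 1)
  refine ⟨(1 + ε⁻¹) ^ c, fun k => ?_⟩
  simp only [fredholmSeries, PowerSeries.coeff_mk]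
  refine (le_of_tendsto (tendsto_coeff_det hr0 hr1 hg hq k).norm
    (Eventually.of_forall fun U => norm_coeff_det_le hr0 hr1 hg hq U M k)).trans ?_
  have hρ : ρ ^ (M + 1) ≤ ε :=
    (pow_le_pow_of_le_one (by positivity) (pow_sub_one_lt_one hr0.le hr1 hq).le
      M.le_succ).trans hM.le
  rw [pow_mul]
  refine (pow_le_pow_left₀ (by positivity) hρ _).trans ?_
  rcases le_or_gt c k with hck | hck
  · conv_rhs => rw [← Nat.add_sub_cancel' hck, pow_add, ← mul_assoc, ← mul_pow, add_mul,
      inv_mul_cancel₀ hε.ne', one_mul]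
    exact le_mul_of_one_le_left (by positivity) (one_le_pow₀ (by linarith))
  · rw [Nat.sub_eq_zero_of_le hck.le, pow_zero]
    calc (1 : ℝ) ≤ (1 + ε⁻¹) ^ (c - k) * ((1 + ε⁻¹) * ε) ^ k := by
          refine one_le_mul_of_one_le_of_one_le ?_ ?_
          · exact one_le_pow₀ (by linarith [inv_pos.2 hε])
          · refine one_le_pow₀ ?_
            rw [add_mul, inv_mul_cancel₀ hε.ne']
            linarith
      _ = (1 + ε⁻¹) ^ c * ε ^ k := by
          rw [mul_pow, ← mul_assoc, ← pow_add, Nat.sub_add_cancel hck.le]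

/-- The Fredholm determinant has the cycle traces as logarithmic derivative. -/
theorem derivative_fredholmSeries :
    PowerSeries.derivative K (fredholmSeries g q) =
      -(logSeries (fun s => cycleTrace g q (s - 1)) * fredholmSeries g q) := by
  ext k
  rw [PowerSeries.coeff_derivative, fredholmSeries, PowerSeries.coeff_mk, fredholmCoeff, map_neg,
    neg_mul, div_mul_cancel₀ _ (Nat.cast_add_one_ne_zero k), mul_comm (logSeries _),
    PowerSeries.coeff_mul, Finset.Nat.sum_antidiagonal_eq_sum_range_succ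
      (fun i j => PowerSeries.coeff i _ * PowerSeries.coeff j _), ← Fin.sum_univ_eq_sum_range]
  congr 1
  refine sum_congr rfl fun j _ => ?_
  rw [PowerSeries.coeff_mk, logSeries, PowerSeries.coeff_mk, Nat.add_sub_cancel, mul_comm]

theorem constantCoeff_fredholmSeries : PowerSeries.constantCoeff (fredholmSeries g q) = 1 := by
  rw [← PowerSeries.coeff_zero_eq_constantCoeff_apply, fredholmSeries, PowerSeries.coeff_mk,
    fredholmCoeff]

/-- The cycle traces, multiplied by a geometric sequence, give a quotient of entire series. -/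
theorem isEntireQuot_cycleTrace (hr0 : 0 < r) (hr1 : r < 1) (hg : ∀ v, ‖g v‖ ≤ r ^ expDeg v)
    (hq : 2 ≤ q) (c : K) : IsEntireQuot fun s => c ^ s * cycleTrace g q (s - 1) :=
  isEntireQuot_pow_mul (entireSeries_fredholm hr0 hr1 hg hq) constantCoeff_fredholmSeries
    derivative_fredholmSeries c

end FA.DworkRationality

end
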