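import Mathlib.Analysis.Normed.Group.Ultra
import Mathlib.Analysis.Normed.Field.Basic
import Mathlib.Analysis.Normed.Ring.Ultra
import Mathlib.LinearAlgebra.Matrix.Block
import Mathlib.LinearAlgebra.Matrix.ToLinearEquiv
import Mathlib.RingTheory.Polynomial.Content
import Mathlib.RingTheory.Polynomial.GaussLemma
import Mathlib.RingTheory.PowerSeries.Inverse
import Mathlib.Algebra.Polynomial.RingDivision
import Mathlib.RingTheory.Coprime.Lemmas
import Mathlib.RingTheory.EuclideanDomain
import Mathlib.RingTheory.Localization.Integral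
import Mathlib.RingTheory.PowerSeries.Trunc
import Mathlib.Algebra.BigOperators.Field
import Mathlib.Algebra.Field.ZMod
import Mathlib.Data.Nat.Prime.Int

/-!
# Rationality of integral power series by Hankel determinants

* `exists_recurrence`: Kronecker's criterion, a series whose Hankel determinants vanish from some
  size on is rational;
* `exists_intPolynomial`: Fatou's lemma, an integral series which is rational over `ℚ` is a
  quotient of integral polynomials with denominator of constant term one;
* `rational_of_entire_quotient`: the criterion of Borel and Dwork, an integral series with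
  coefficients of exponential growth which is the quotient of two series entire for an absolute
  value with `‖n‖ ≥ 1 / |n|` is rational.
-/

set_option autoImplicit false
set_option linter.unusedSectionVars false
set_option linter.style.haveILetI false

noncomputable section

open Finset

namespace FA.DworkRationality

/-- The coefficients of an entire series. -/
def Entire {K : Type*} [Norm K] (c : ℕ → K) : Prop :=
  ∀ ε : ℝ, 0 < ε → ∃ C : ℝ, ∀ k, ‖c k‖ ≤ C * ε ^ k

section kronecker

variable {K : Type*} [Field K]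

/-- The Hankel matrix of a sequence. -/
def hankel (z : ℕ → K) (m : ℕ) : Matrix (Fin m) (Fin m) K := Matrix.of fun i j => z (i + j)

/-- **Kronecker's criterion.** -/
theorem exists_recurrence (z : ℕ → K) (h0 : z 0 ≠ 0) {N₀ : ℕ}
    (hdet : ∀ m, N₀ ≤ m → (hankel z m).det = 0) :
    ∃ (M : ℕ) (c : ℕ → K), c M = 1 ∧ ∀ i, ∑ j ∈ range (M + 1), c j * z (i + j) = 0 := by
  classical
  have hne : ∃ M, (hankel z M).det ≠ 0 ∧ ∀ m, M < m → (hankel z m).det = 0 := by
    have h1 : (hankel z 1).det ≠ 0 := by simpa [hankel, Matrix.det_fin_one] using h0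
    refine ⟨Nat.findGreatest (fun m => (hankel z m).det ≠ 0) (max N₀ 1), ?_, fun m hm => ?_⟩
    · exact Nat.findGreatest_spec (P := fun m => (hankel z m).det ≠ 0) (le_max_right _ _) h1
    · rcases le_or_gt m (max N₀ 1) with h | h
      · exact not_not.1 (Nat.findGreatest_is_greatest hm h)
      · exact hdet m ((le_max_left _ _).trans h.le)
  obtain ⟨M, hM, hMmax⟩ := hne
  obtain ⟨v, hv0, hv⟩ := Matrix.exists_mulVec_eq_zero_iff.2 (hMmax (M + 1) M.lt_succ_self)
  have hv' : ∀ i : Fin (M + 1), ∑ j : Fin (M + 1), z (i + j) * v j = 0 := fun i => congrFun hv i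
  have hlast : v (Fin.last M) ≠ 0 := fun hl => by
    refine hM (Matrix.exists_mulVec_eq_zero_iff.1 ⟨fun j => v j.castSucc, fun e => hv0 ?_, ?_⟩)
    · funext j
      induction j using Fin.lastCases with
      | last => exact hl
      | cast j => exact congrFun e j
    · funext i
      have := hv' i.castSucc
      rw [Fin.sum_univ_castSucc, hl, mul_zero, add_zero] at this
      simpa [hankel, Matrix.mulVec, dotProduct] using this
  let c : ℕ → K := fun j => if hj : j < M + 1 then v ⟨j, hj⟩ / v (Fin.last M) else 0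
  have hc : c M = 1 := by
    simp only [c, dif_pos M.lt_succ_self]
    exact div_self hlast
  refine ⟨M, c, hc, ?_⟩
  set d : ℕ → K := fun i => ∑ j ∈ range (M + 1), c j * z (i + j) with hd
  have hd0 : ∀ i, i ≤ M → d i = 0 := fun i hi => by
    have h := hv' ⟨i, Nat.lt_succ_of_le hi⟩
    simp only [hd, ← Fin.sum_univ_eq_sum_range, c, dif_pos (Fin.isLt _), div_mul_eq_mul_div,
      ← Finset.sum_div, Fin.eta]
    rw [div_eq_zero_iff]
    exact Or.inl (by simpa only [mul_comm] using h)
  intro i
  induction i using Nat.strong_induction_on with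
  | _ i ih =>
    by_contra hne
    change d i ≠ 0 at hne
    obtain ⟨r, rfl⟩ : ∃ r, i = M + r := ⟨i - M, by
      have : ¬ i ≤ M := fun h => hne (hd0 i h)
      omega⟩
    -- replace the later columns by the differences
    let T : Matrix (Fin (M + (r + 1))) (Fin (M + (r + 1))) K := Matrix.of fun k l =>
      if M ≤ (l : ℕ) then (if (l : ℕ) ≤ k + M ∧ (k : ℕ) ≤ l then c (k + M - l) else 0)
      else if k = l then 1 else 0
    have hT : T.BlockTriangular id := fun k l hlk => by
      have hkl : (l : ℕ) < k := hlk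
      simp only [T, Matrix.of_apply]
      split_ifs with h1 h2 h3 <;> first | rfl | omega
    have hTdet : T.det = 1 := by
      rw [Matrix.det_of_isUpperTriangular hT]
      refine Finset.prod_eq_one fun k _ => ?_
      simp only [T, Matrix.of_apply]
      split_ifs with h1 h2
      · rw [Nat.add_sub_cancel_left]; exact hc
      · omega
      · rfl
    have hprod : ∀ k l : Fin (M + (r + 1)), (hankel z (M + (r + 1)) * T) k l =
        if M ≤ (l : ℕ) then d (k + (l - M)) else z (k + l) := fun k l => by
      rw [Matrix.mul_apply]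
      simp only [T, hankel, Matrix.of_apply]
      split_ifs with hl
      · rw [hd, Fin.sum_univ_eq_sum_range (fun t => z (k + t) *
          if (l : ℕ) ≤ t + M ∧ t ≤ (l : ℕ) then c (t + M - l) else 0) (M + (r + 1))]
        have hl' := l.isLt
        refine (Finset.sum_of_injOn (fun j => (l : ℕ) - M + j) ?_ ?_ ?_ ?_).symm
        · exact fun a _ b _ hab => Nat.add_left_cancel hab
        · intro j hj
          simp only [coe_range, Set.mem_Iio] at hj ⊢
          omega
        · intro t ht hnot
          rw [if_neg, mul_zero]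
          rintro ⟨h1, h2⟩
          refine hnot ⟨t + M - l, ?_, ?_⟩
          · simp only [coe_range, Set.mem_Iio]; omega
          · show (l : ℕ) - M + (t + M - l) = t
            omega
        · intro j hj
          rw [mem_range] at hj
          rw [if_pos ⟨by omega, by omega⟩, mul_comm, show (l : ℕ) - M + j + M - l = j by omega,
            add_assoc]
      · simp
    let e : Fin M ⊕ Fin (r + 1) ≃ Fin (M + (r + 1)) := finSumFinEquiv
    have hblocks : ((hankel z (M + (r + 1)) * T).submatrix e e).det =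
        (hankel z M).det * (Matrix.of fun k l : Fin (r + 1) => d (M + k + l)).det := by
      have : (hankel z (M + (r + 1)) * T).submatrix e e = Matrix.fromBlocks (hankel z M) 0
          (Matrix.of fun (k : Fin (r + 1)) (l : Fin M) => z (M + k + l))
          (Matrix.of fun k l : Fin (r + 1) => d (M + k + l)) := by
        ext k l
        simp only [Matrix.submatrix_apply, hprod]
        rcases k with k | k <;> rcases l with l | l <;>
          simp only [e, finSumFinEquiv_apply_left,
            finSumFinEquiv_apply_right, Fin.val_castAdd, Fin.val_natAdd,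
            Matrix.fromBlocks_apply₁₁, Matrix.fromBlocks_apply₁₂, Matrix.fromBlocks_apply₂₁,
            Matrix.fromBlocks_apply₂₂, Matrix.of_apply, hankel, Matrix.zero_apply,
            Nat.add_sub_cancel_left]
        · exact if_neg (by omega)
        · split_ifs with h <;> first | omega | exact ih _ (by omega)
        · exact if_neg (by omega)
        · split_ifs with h <;> first | omega | rfl
      rw [this, Matrix.det_fromBlocks_zero₁₂]
    have hanti : (Matrix.of fun k l : Fin (r + 1) => d (M + k + l)).det ≠ 0 := by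
      have hrev : ((Matrix.of fun k l : Fin (r + 1) => d (M + k + l)).submatrix id
          Fin.rev).BlockTriangular OrderDual.toDual := fun k l hlk => by
        have hkl : (k : ℕ) < l := hlk
        simp only [Matrix.submatrix_apply, Matrix.of_apply, id_eq]
        refine ih _ ?_
        rw [Fin.val_rev]
        omega
      have h1 := Matrix.det_of_isLowerTriangular _ hrev
      intro h0'
      have h2 := Matrix.det_permute' Fin.revPerm
        (Matrix.of fun k l : Fin (r + 1) => d (M + k + l))
      rw [h0', mul_zero, show (Fin.revPerm : Fin (r + 1) → Fin (r + 1)) = Fin.rev from rfl,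
        h1, Finset.prod_eq_zero_iff] at h2
      obtain ⟨k, -, hk⟩ := h2
      simp only [Matrix.submatrix_apply, Matrix.of_apply, id_eq, Fin.val_rev] at hk
      exact hne (by rwa [show M + (k : ℕ) + (r + 1 - ((k : ℕ) + 1)) = M + r by omega] at hk)
    refine mul_ne_zero hM hanti ?_
    rw [← hblocks, Matrix.det_submatrix_equiv_self, Matrix.det_mul, hTdet, mul_one]
    exact hMmax _ (by omega)

end kronecker

open Polynomial in
/-- **Fatou's lemma.** -/
theorem exists_intPolynomial {Z : PowerSeries ℤ} {P Q : ℚ[X]} (hQ : Q ≠ 0)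
    (h : PowerSeries.map (Int.castRingHom ℚ) Z * (Q : PowerSeries ℚ) = (P : PowerSeries ℚ)) :
    ∃ P' Q' : ℤ[X], Q'.coeff 0 = 1 ∧ Z * (Q' : PowerSeries ℤ) = (P' : PowerSeries ℤ) := by
  classical
  obtain ⟨g, P₁, Q₁, hcop, hP, hQ'⟩ : ∃ g P₁ Q₁ : ℚ[X], IsCoprime P₁ Q₁ ∧ P = g * P₁ ∧
      Q = g * Q₁ := by
    let : GCDMonoid ℚ[X] := EuclideanDomain.gcdMonoid ℚ[X]
    exact ⟨GCDMonoid.gcd P Q, P / GCDMonoid.gcd P Q, Q / GCDMonoid.gcd P Q,
      isCoprime_div_gcd_div_gcd hQ,
      (EuclideanDomain.mul_div_cancel' (gcd_ne_zero_of_right hQ) (gcd_dvd_left P Q)).symm,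
      (EuclideanDomain.mul_div_cancel' (gcd_ne_zero_of_right hQ) (gcd_dvd_right P Q)).symm⟩
  have hg : g ≠ 0 := fun e => hQ (by rw [hQ', e, zero_mul])
  have hQ₁ : Q₁ ≠ 0 := fun e => hQ (by rw [hQ', e, mul_zero])
  have h1 : PowerSeries.map (Int.castRingHom ℚ) Z * (Q₁ : PowerSeries ℚ) =
      (P₁ : PowerSeries ℚ) := by
    refine mul_left_cancel₀ (a := (g : PowerSeries ℚ)) (by simpa using hg) ?_
    rw [hP, hQ', Polynomial.coe_mul, Polynomial.coe_mul] at h
    linear_combination h
  -- a primitive integral multiple of the denominator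
  obtain ⟨c, hc, Q₂, hQ₂p, hQ₂⟩ : ∃ c : ℚ, c ≠ 0 ∧ ∃ Q₂ : ℤ[X], Q₂.IsPrimitive ∧
      Q₂.map (Int.castRingHom ℚ) = C c * Q₁ := by
    obtain ⟨b, hb, hbQ⟩ := IsLocalization.integerNormalization_spec (nonZeroDivisors ℤ) Q₁
    set N := IsLocalization.integerNormalization (nonZeroDivisors ℤ) Q₁
    rw [Algebra.smul_def, Polynomial.algebraMap_apply, algebraMap_int_eq] at hbQ
    have hN : N ≠ 0 := fun e => by
      rw [e, Polynomial.map_zero] at hbQ
      rcases mul_eq_zero.1 hbQ.symm with h0 | h0
      · exact nonZeroDivisors.ne_zero hb (Int.cast_eq_zero.1 (C_eq_zero.1 h0))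
      · exact hQ₁ h0
    have hc0 : (N.content : ℚ) ≠ 0 := by simpa [content_eq_zero_iff] using hN
    refine ⟨(b : ℚ) / N.content, div_ne_zero (by simpa using nonZeroDivisors.ne_zero hb) hc0,
      N.primPart, N.isPrimitive_primPart, ?_⟩
    have hN' := congrArg (Polynomial.map (Int.castRingHom ℚ)) N.eq_C_content_mul_primPart
    rw [hbQ, Polynomial.map_mul, Polynomial.map_C] at hN'
    refine mul_left_cancel₀ (a := C (N.content : ℚ)) (by simpa using hc0) ?_
    rw [← mul_assoc, ← C_mul, mul_div_cancel₀ _ hc0]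
    exact hN'.symm
  -- the numerator is integral
  obtain ⟨P₂, hP₂⟩ : ∃ P₂ : ℤ[X], Z * (Q₂ : PowerSeries ℤ) = (P₂ : PowerSeries ℤ) := by
    refine ⟨PowerSeries.trunc ((C c * P₁).natDegree + 1) (Z * (Q₂ : PowerSeries ℤ)), ?_⟩
    refine PowerSeries.map_injective (Int.castRingHom ℚ) Int.cast_injective ?_
    ext n
    rw [PowerSeries.coeff_map, PowerSeries.coeff_map, coeff_coe, PowerSeries.coeff_trunc]
    split_ifs with hn
    · rfl
    have he : PowerSeries.map (Int.castRingHom ℚ) (Z * (Q₂ : PowerSeries ℤ)) =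
        ((C c * P₁ : ℚ[X]) : PowerSeries ℚ) := by
      rw [map_mul, ← polynomial_map_coe, hQ₂, Polynomial.coe_mul, Polynomial.coe_mul, ← h1]
      ring
    have := congrArg (PowerSeries.coeff n) he
    rw [PowerSeries.coeff_map, coeff_coe, coeff_eq_zero_of_natDegree_lt (by omega)] at this
    simp only [map_zero]
    exact this
  -- a Bézout relation
  obtain ⟨A, B, m, hm, hAB⟩ : ∃ (A B : ℤ[X]) (m : ℤ), m ≠ 0 ∧ A * P₂ + B * Q₂ = C m := by
    obtain ⟨a, b, hab⟩ := hcop
    have hmap : ∀ f : ℚ[X], ∃ (t : ℤ) (f' : ℤ[X]), t ≠ 0 ∧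
        f'.map (Int.castRingHom ℚ) = C (t : ℚ) * f := fun f => by
      obtain ⟨t, ht, htf⟩ := IsLocalization.integerNormalization_spec (nonZeroDivisors ℤ) f
      rw [Algebra.smul_def, Polynomial.algebraMap_apply] at htf
      exact ⟨t, _, nonZeroDivisors.ne_zero ht, by simpa using htf⟩
    obtain ⟨s, a', hs, ha'⟩ := hmap (C c⁻¹ * a)
    obtain ⟨t, b', ht, hb'⟩ := hmap (C c⁻¹ * b)
    refine ⟨C t * a', C s * b', s * t, mul_ne_zero hs ht, ?_⟩
    refine Polynomial.map_injective (Int.castRingHom ℚ) Int.cast_injective ?_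
    have hP₂' : P₂.map (Int.castRingHom ℚ) = C c * P₁ := by
      refine Polynomial.coe_injective ℚ ?_
      rw [polynomial_map_coe, ← hP₂, map_mul, ← polynomial_map_coe, hQ₂, Polynomial.coe_mul,
        Polynomial.coe_mul, ← h1]
      ring
    simp only [Polynomial.map_add, Polynomial.map_mul, Polynomial.map_C, ha', hb', hP₂', hQ₂,
      Int.coe_castRingHom, C_mul]
    have hcc : C c⁻¹ * C c = 1 := by rw [← C_mul, inv_mul_cancel₀ hc, C_1]
    linear_combination C (s : ℚ) * C (t : ℚ) * hab + C (s : ℚ) * C (t : ℚ) * (a * P₁ + b * Q₁) * hcc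
  -- the content of a cofactor absorbs the integer
  have key : ∀ n : ℕ, n ≠ 0 → ∀ G : PowerSeries ℤ,
      (Q₂ : PowerSeries ℤ) * G = PowerSeries.C (n : ℤ) → IsUnit (Q₂.coeff 0) := by
    intro n
    induction n using Nat.strong_induction_on with
    | _ n ih =>
      intro hn G hG
      by_cases h1 : n = 1
      · have := congrArg PowerSeries.constantCoeff hG
        rw [map_mul, PowerSeries.constantCoeff_C, h1, Nat.cast_one, constantCoeff_coe] at this
        exact IsUnit.of_mul_eq_one _ this
      obtain ⟨l, hl, hdvd⟩ := Nat.exists_prime_and_dvd h1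
      have := Fact.mk hl
      have hzero : ∀ k, (l : ℤ) ∣ PowerSeries.coeff k G := by
        have h2 := congrArg (PowerSeries.map (Int.castRingHom (ZMod l))) hG
        rw [map_mul, PowerSeries.map_C, ← polynomial_map_coe, eq_intCast, Int.cast_natCast,
          (ZMod.natCast_eq_zero_iff n l).2 hdvd, map_zero, mul_eq_zero] at h2
        rcases h2 with h2 | h2
        · exfalso
          have hd : C (l : ℤ) ∣ Q₂ := C_dvd_iff_dvd_coeff _ _ |>.2 fun k => by
            have := congrArg (fun f => PowerSeries.coeff k f) h2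
            simp only [coeff_coe, coeff_map, map_zero] at this
            exact (ZMod.intCast_zmod_eq_zero_iff_dvd _ _).1 this
          exact (Nat.prime_iff_prime_int.1 hl).not_isUnit (hQ₂p _ hd)
        · intro k
          have := congrArg (PowerSeries.coeff k) h2
          rw [PowerSeries.coeff_map, map_zero] at this
          exact (ZMod.intCast_zmod_eq_zero_iff_dvd _ _).1 this
      choose g hg using hzero
      obtain ⟨n', rfl⟩ := hdvd
      refine ih n' ?_ (right_ne_zero_of_mul hn) (PowerSeries.mk g) ?_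
      · exact lt_mul_of_one_lt_left (Nat.pos_of_ne_zero (right_ne_zero_of_mul hn)) hl.one_lt
      · refine mul_left_cancel₀ (a := PowerSeries.C (l : ℤ))
          (fun e => hl.ne_zero (Int.natCast_eq_zero.1 (PowerSeries.C_injective
            (e.trans (map_zero PowerSeries.C).symm)))) ?_
        rw [← map_mul, ← Nat.cast_mul, ← hG, mul_left_comm]
        congr 1
        ext k
        rw [PowerSeries.coeff_C_mul, PowerSeries.coeff_mk, hg k]
  have hunit : IsUnit (Q₂.coeff 0) := by
    refine key m.natAbs (Int.natAbs_ne_zero.2 hm)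
      (PowerSeries.C (m.sign) * ((A : PowerSeries ℤ) * Z + (B : PowerSeries ℤ))) ?_
    have := congrArg (fun f : ℤ[X] => (f : PowerSeries ℤ)) hAB
    simp only [Polynomial.coe_add, Polynomial.coe_mul, Polynomial.coe_C, ← hP₂] at this
    rw [← Int.sign_mul_self_eq_natAbs m, map_mul, ← this]
    ring
  refine ⟨C (Q₂.coeff 0) * P₂, C (Q₂.coeff 0) * Q₂, ?_, ?_⟩
  · rw [coeff_C_mul, Int.isUnit_mul_self hunit]
  · rw [Polynomial.coe_mul, Polynomial.coe_mul, ← hP₂]
    ring

section borel

variable {K : Type*} [NormedField K] [IsUltrametricDist K]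

/-- The determinants of a series of integers which is a quotient of entire series are small. -/
theorem norm_hankel_le {z : ℕ → ℤ} {P Q : PowerSeries K} (hQ0 : PowerSeries.constantCoeff Q = 1)
    (hzQ : PowerSeries.mk (fun k => (z k : K)) * Q = P) {ε C : ℝ} (hε : 0 < ε) (hε1 : ε ≤ 1)
    (hC : 1 ≤ C) (hP : ∀ k, ‖PowerSeries.coeff k P‖ ≤ C * ε ^ k)
    (hQ : ∀ k, ‖PowerSeries.coeff k Q‖ ≤ C * ε ^ k) (e m : ℕ) :
    ‖(hankel (fun k => (z k : K)) m).det‖ ≤ (C * ε ^ e) ^ (m - e) := by
  classical
  set b : ℕ → K := fun k => PowerSeries.coeff k Q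
  have hb0 : b 0 = 1 := by simpa [b, PowerSeries.coeff_zero_eq_constantCoeff_apply] using hQ0
  let L : Matrix (Fin m) (Fin m) K := Matrix.of fun i k =>
    if e ≤ (i : ℕ) then (if k ≤ i ∧ (i : ℕ) ≤ k + e then b (i - k) else 0)
    else if k = i then 1 else 0
  have hL : L.BlockTriangular OrderDual.toDual := fun i k hik => by
    have hik' : (i : ℕ) < k := hik
    simp only [L, Matrix.of_apply]
    split_ifs with h1 h2 h3 <;> first | rfl | omega
  have hLdet : L.det = 1 := by
    rw [Matrix.det_of_isLowerTriangular _ hL]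
    refine Finset.prod_eq_one fun k _ => ?_
    simp only [L, Matrix.of_apply]
    split_ifs with h1 h2
    · rw [Nat.sub_self, hb0]
    · simp at h2
    · rfl
  set H := L * hankel (fun k => (z k : K)) m with hH
  have hz1 : ∀ k, ‖(z k : K)‖ ≤ 1 := fun k => IsUltrametricDist.norm_intCast_le_one K (z k)
  have hCε : 0 ≤ C * ε ^ e := by positivity
  have hent : ∀ i j : Fin m, ‖H i j‖ ≤ if e ≤ (i : ℕ) then C * ε ^ e else 1 := fun i j => by
    simp only [hH, Matrix.mul_apply, L, hankel, Matrix.of_apply]
    split_ifs with hi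
    · -- the truncated product against the series
      have hco : ∑ t ∈ range ((i : ℕ) + j + 1), b t * (z ((i : ℕ) + j - t) : K) =
          PowerSeries.coeff ((i : ℕ) + j) P := by
        rw [← hzQ, mul_comm, PowerSeries.coeff_mul, Finset.Nat.sum_antidiagonal_eq_sum_range_succ
          (fun s t => PowerSeries.coeff s Q * PowerSeries.coeff t
            (PowerSeries.mk fun k => (z k : K)))]
        exact Finset.sum_congr rfl fun t _ => by rw [PowerSeries.coeff_mk]
      have hsum : ∑ k : Fin m, (if k ≤ i ∧ (i : ℕ) ≤ k + e then b (i - k) else 0) *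
          (z (k + j) : K) = ∑ t ∈ range (e + 1), b t * (z ((i : ℕ) + j - t) : K) := by
        simp only [ite_mul, zero_mul]
        rw [← Finset.sum_filter]
        refine Finset.sum_bij' (fun k _ => (i : ℕ) - k)
          (fun t _ => ⟨(i : ℕ) - t, lt_of_le_of_lt (Nat.sub_le _ _) i.2⟩) ?_ ?_ ?_ ?_ ?_
        · intro k hk
          simp only [mem_filter, mem_univ, true_and, Fin.le_iff_val_le_val, mem_range] at hk ⊢
          omega
        · intro t ht
          simp only [mem_filter, mem_univ, true_and, Fin.le_iff_val_le_val, mem_range] at ht ⊢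
          omega
        · intro k hk
          simp only [mem_filter, mem_univ, true_and, Fin.le_iff_val_le_val] at hk
          exact Fin.ext (by simp only; omega)
        · intro t ht
          simp only [mem_range] at ht
          show (i : ℕ) - ((i : ℕ) - t) = t
          omega
        · intro k hk
          simp only [mem_filter, mem_univ, true_and, Fin.le_iff_val_le_val] at hk
          rw [show (i : ℕ) + j - (i - k) = k + j by omega]
      rw [hsum]
      have hsplit := Finset.sum_range_add_sum_Ico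
        (fun t => b t * (z ((i : ℕ) + j - t) : K)) (show e + 1 ≤ (i : ℕ) + j + 1 by omega)
      rw [hco] at hsplit
      rw [← eq_sub_iff_add_eq] at hsplit
      rw [hsplit, sub_eq_add_neg]
      refine (IsUltrametricDist.norm_add_le_max _ _).trans (max_le ?_ ?_)
      · exact (hP _).trans (mul_le_mul_of_nonneg_left
          (pow_le_pow_of_le_one hε.le hε1 (by omega)) (by linarith))
      · rw [norm_neg]
        refine IsUltrametricDist.norm_sum_le_of_forall_le_of_nonneg hCε fun t ht => ?_
        rw [mem_Ico] at ht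
        rw [norm_mul]
        refine (mul_le_of_le_one_right (norm_nonneg _) (hz1 _)).trans ((hQ t).trans ?_)
        exact mul_le_mul_of_nonneg_left (pow_le_pow_of_le_one hε.le hε1 (by omega)) (by linarith)
    · simp only [ite_mul, one_mul, zero_mul, Finset.sum_ite_eq', Finset.mem_univ, if_true]
      exact hz1 _
  have hdet : H.det = (hankel (fun k => (z k : K)) m).det := by
    rw [hH, Matrix.det_mul, hLdet, one_mul]
  rw [← hdet, Matrix.det_apply]
  refine IsUltrametricDist.norm_sum_le_of_forall_le_of_nonneg (pow_nonneg hCε _) fun σ _ => ?_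
  rw [show ‖Equiv.Perm.sign σ • ∏ i, H (σ i) i‖ = ‖∏ i, H (σ i) i‖ by
    rcases Int.units_eq_one_or (Equiv.Perm.sign σ) with h | h <;> rw [h]
    · rw [one_smul]
    · rw [Units.neg_smul, one_smul, norm_neg], norm_prod]
  calc ∏ i, ‖H (σ i) i‖ ≤ ∏ i, (if e ≤ (σ i : ℕ) then C * ε ^ e else 1) :=
        Finset.prod_le_prod (fun i _ => norm_nonneg _) fun i _ => hent (σ i) i
    _ = ∏ k : Fin m, (if e ≤ (k : ℕ) then C * ε ^ e else 1) :=
        Equiv.prod_comp σ (fun k : Fin m => if e ≤ (k : ℕ) then C * ε ^ e else 1)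
    _ = (C * ε ^ e) ^ (m - e) := by
        rw [Fin.prod_univ_eq_prod_range (fun k => if e ≤ k then C * ε ^ e else 1) m,
          Finset.prod_ite, Finset.prod_const_one, mul_one, Finset.prod_const]
        congr 1
        rw [show (range m).filter (fun k => e ≤ k) = Ico e m by ext k; simp [and_comm],
          Nat.card_Ico]

/-- The determinants of a series of exponential growth. -/
theorem abs_hankel_le {z : ℕ → ℤ} {R : ℝ} (hR : 1 ≤ R) (hz : ∀ k, |(z k : ℝ)| ≤ R ^ k) (m : ℕ) :
    |(((Matrix.of fun i j : Fin m => z (i + j)).det : ℤ) : ℝ)| ≤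
      (2 * R ^ 2) ^ (m * m) := by
  classical
  rw [Matrix.det_apply, Int.cast_sum]
  refine (Finset.abs_sum_le_sum_abs _ _).trans ?_
  have hterm : ∀ σ : Equiv.Perm (Fin m),
      |(((Equiv.Perm.sign σ • ∏ i, (Matrix.of fun i j : Fin m => z (i + j)) (σ i) i) : ℤ) : ℝ)|
        ≤ (R ^ 2) ^ (m * m) := fun σ => by
    rw [Units.smul_def, smul_eq_mul, Int.cast_mul, Int.cast_prod, abs_mul, Finset.abs_prod]
    rcases Int.units_eq_one_or (Equiv.Perm.sign σ) with h | h <;> rw [h] <;>
      simp only [Units.val_one, Units.val_neg, Int.cast_one, Int.cast_neg, abs_neg, abs_one,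
        one_mul] <;>
      (refine (Finset.prod_le_prod (fun i _ => abs_nonneg _) fun i _ => (hz _).trans
        (pow_le_pow_right₀ hR (show (σ i : ℕ) + (i : ℕ) ≤ 2 * m by omega))).trans ?_
       rw [Finset.prod_const, card_univ, Fintype.card_fin, ← pow_mul, ← pow_mul, mul_assoc])
  refine (Finset.sum_le_card_nsmul _ _ _ fun σ _ => hterm σ).trans ?_
  rw [Finset.card_univ, Fintype.card_perm, Fintype.card_fin, nsmul_eq_mul, mul_pow]
  refine mul_le_mul_of_nonneg_right ?_ (by positivity)
  calc ((m.factorial : ℕ) : ℝ) ≤ ((m ^ m : ℕ) : ℝ) := by exact_mod_cast Nat.factorial_le_pow m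
    _ ≤ ((2 ^ m) ^ m : ℕ) := by exact_mod_cast Nat.pow_le_pow_left Nat.lt_two_pow_self.le m
    _ = 2 ^ (m * m) := by push_cast; rw [← pow_mul]

/-- **The criterion of Borel and Dwork.** -/
theorem rational_of_entire_quotient (hK : ∀ n : ℤ, n ≠ 0 → 1 ≤ |(n : ℝ)| * ‖(n : K)‖)
    {z : ℕ → ℤ} (hz0 : z 0 = 1) {R : ℝ} (hR : 1 ≤ R) (hz : ∀ k, |(z k : ℝ)| ≤ R ^ k)
    {P Q : PowerSeries K} (hP : Entire fun k => PowerSeries.coeff k P)
    (hQ : Entire fun k => PowerSeries.coeff k Q) (hQ0 : PowerSeries.constantCoeff Q = 1)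
    (hzQ : PowerSeries.mk (fun k => (z k : K)) * Q = P) :
    ∃ P' Q' : Polynomial ℤ, P'.coeff 0 = 1 ∧ Q'.coeff 0 = 1 ∧
      PowerSeries.mk z * (Q' : PowerSeries ℤ) = (P' : PowerSeries ℤ) := by
  classical
  set B : ℝ := (2 * R ^ 2) ^ 16 with hB
  have hB1 : 1 ≤ B := one_le_pow₀ (by nlinarith)
  set ε : ℝ := (2 * B)⁻¹ with hε_def
  have hε : 0 < ε := by positivity
  have hε1 : ε ≤ 1 := inv_le_one_of_one_le₀ (by linarith)
  obtain ⟨C₁, hC₁⟩ := hP ε hε
  obtain ⟨C₂, hC₂⟩ := hQ ε hε
  set C : ℝ := max 1 (max C₁ C₂)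
  have hC : 1 ≤ C := le_max_left _ _
  have hP' : ∀ k, ‖PowerSeries.coeff k P‖ ≤ C * ε ^ k := fun k => (hC₁ k).trans
    (mul_le_mul_of_nonneg_right ((le_max_left _ _).trans (le_max_right _ _)) (by positivity))
  have hQ' : ∀ k, ‖PowerSeries.coeff k Q‖ ≤ C * ε ^ k := fun k => (hC₂ k).trans
    (mul_le_mul_of_nonneg_right ((le_max_right _ _).trans (le_max_right _ _)) (by positivity))
  obtain ⟨n₀, hn₀⟩ := pow_unbounded_of_one_lt (C ^ 3) (by norm_num : (1 : ℝ) < 2)
  have hvanish : ∀ m, 2 * n₀ + 2 ≤ m → (Matrix.of fun i j : Fin m => z (i + j)).det = 0 := by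
    intro m hm
    set D := (Matrix.of fun i j : Fin m => z (i + j)).det with hD_def
    by_contra hne
    have h1 := hK _ hne
    have h2 := abs_hankel_le hR hz m
    rw [← hD_def] at h2
    have h3 := norm_hankel_le hQ0 hzQ hε hε1 hC hP' hQ' (m / 2) m
    rw [show (hankel (fun k => (z k : K)) m).det = (D : K) by
      rw [hD_def, Int.cast_det]; rfl] at h3
    set e := m / 2 with he
    obtain ⟨f, hfe, hfm, hf⟩ : ∃ f, e ≤ f ∧ m - e = f ∧ f ≤ 3 * e :=
      ⟨m - e, by omega, rfl, by omega⟩
    rw [hfm, mul_pow, ← pow_mul] at h3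
    have hCf : C ^ f ≤ (C ^ 3) ^ e := by
      rw [← pow_mul]; exact pow_le_pow_right₀ hC hf
    have hεf : ε ^ (e * f) ≤ ε ^ (e * e) :=
      pow_le_pow_of_le_one hε.le hε1 (Nat.mul_le_mul_left e hfe)
    have hm3 : m * m ≤ 16 * (e * e) := by nlinarith [show m ≤ 4 * e by omega]
    have h2' : |(D : ℝ)| ≤ B ^ (e * e) := by
      refine h2.trans ?_
      rw [hB, ← pow_mul]
      exact pow_le_pow_right₀ (by nlinarith) hm3
    have h4 : C ^ f * ε ^ (e * f) ≤ (C ^ 3) ^ e * ε ^ (e * e) :=
      mul_le_mul hCf hεf (by positivity) (by positivity)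
    have h5 := h1.trans (mul_le_mul h2' (h3.trans h4) (norm_nonneg _) (by positivity))
    have hBε : B * ε = 2⁻¹ := by rw [hε_def]; field_simp
    rw [mul_left_comm, ← mul_pow, hBε, inv_pow, pow_mul, ← div_eq_mul_inv,
      one_le_div (by positivity), ← pow_mul] at h5
    have h6 : (C ^ 3) ^ e < ((2 : ℝ) ^ n₀) ^ e :=
      pow_lt_pow_left₀ hn₀ (by positivity) (by omega)
    rw [← pow_mul (2 : ℝ) n₀ e] at h6
    exact absurd (h5.trans_lt h6) (not_lt.2 (pow_le_pow_right₀ one_le_two
      (Nat.mul_le_mul_right e (show n₀ ≤ e by omega))))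
  obtain ⟨M, c, hcM, hc⟩ := exists_recurrence (fun k => (z k : ℚ)) (by simp [hz0])
    (N₀ := 2 * n₀ + 2) fun m hm => by
      rw [show hankel (fun k => (z k : ℚ)) m =
        (Matrix.of fun i j : Fin m => z (i + j)).map (Int.castRingHom ℚ) from rfl,
        ← RingHom.mapMatrix_apply, ← RingHom.map_det, hvanish m hm, map_zero]
  set Q₀ : Polynomial ℚ := ∑ j ∈ range (M + 1), Polynomial.monomial (M - j) (c j) with hQ₀
  have hcoeff : ∀ t, Q₀.coeff t = if t ≤ M then c (M - t) else 0 := fun t => by
    rw [hQ₀, Polynomial.finsetSum_coeff]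
    simp only [Polynomial.coeff_monomial]
    split_ifs with ht
    · rw [Finset.sum_eq_single (M - t) (fun j hj hne => if_neg (by
        simp only [mem_range] at hj; omega)) (fun h => absurd (mem_range.2 (by omega)) h),
        if_pos (by omega)]
    · exact Finset.sum_eq_zero fun j _ => if_neg (by omega)
  set S := PowerSeries.map (Int.castRingHom ℚ) (PowerSeries.mk z) * (Q₀ : PowerSeries ℚ) with hS
  obtain ⟨P', Q', hQ1, hzP⟩ := exists_intPolynomial (Z := PowerSeries.mk z)
    (P := PowerSeries.trunc M S)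
    (Q := Q₀) (fun e => by simpa [hcoeff, hcM] using congrArg (Polynomial.coeff · 0) e) (by
      rw [← hS]
      ext k
      rw [Polynomial.coeff_coe, PowerSeries.coeff_trunc]
      split_ifs with hk
      · rfl
      rw [hS, mul_comm, PowerSeries.coeff_mul, Finset.Nat.sum_antidiagonal_eq_sum_range_succ
        (fun s t => PowerSeries.coeff s (Q₀ : PowerSeries ℚ) *
          PowerSeries.coeff t (PowerSeries.map (Int.castRingHom ℚ) (PowerSeries.mk z)))]
      rw [← Finset.sum_subset (Finset.range_mono (show M + 1 ≤ k + 1 by omega))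
        (fun t _ ht => by
          simp only [mem_range] at ht
          rw [Polynomial.coeff_coe, hcoeff, if_neg (by omega), zero_mul]),
        ← hc (k - M), ← Finset.sum_range_reflect]
      refine Finset.sum_congr rfl fun t ht => ?_
      rw [mem_range] at ht
      rw [Polynomial.coeff_coe, hcoeff, if_pos (by omega), PowerSeries.coeff_map,
        PowerSeries.coeff_mk, show M + 1 - 1 - t = M - t by omega,
        show M - (M - t) = t by omega, show k - (M - t) = k - M + t by omega]
      rfl)
  refine ⟨P', Q', ?_, hQ1, hzP⟩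
  have := congrArg PowerSeries.constantCoeff hzP
  rw [map_mul, Polynomial.constantCoeff_coe, Polynomial.constantCoeff_coe, hQ1, mul_one] at this
  rw [← this, ← PowerSeries.coeff_zero_eq_constantCoeff_apply, PowerSeries.coeff_mk, hz0]

end borel

end FA.DworkRationality

end
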