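import Fermat.Agent.DworkRationality.Hankel
import Fermat.Agent.Mazur.Dwork

/-!
# Sequences of counts whose zeta series is a quotient of entire series

For `N : ℕ → K` the zeta series is the exponential of `∑ N s X ^ s / s`; its logarithmic
derivative is `logSeries N = ∑ N (j + 1) X ^ j`. The sequences for which it is a quotient of entire
series form a group, `IsEntireQuot`.
-/

set_option autoImplicit false
set_option linter.unusedSectionVars false

noncomputable section

open PowerSeries Finset

namespace FA.DworkRationality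

section field

variable {K : Type*} [Field K]

/-- The logarithmic derivative of the zeta series of `N`. -/
def logSeries (N : ℕ → K) : K⟦X⟧ := PowerSeries.mk fun j => N (j + 1)

theorem logSeries_add (N M : ℕ → K) : logSeries (N + M) = logSeries N + logSeries M := by
  ext j; simp [logSeries]

theorem logSeries_neg (N : ℕ → K) : logSeries (-N) = -logSeries N := by
  ext j; simp [logSeries]

theorem logSeries_congr {N M : ℕ → K} (h : ∀ s, s ≠ 0 → N s = M s) : logSeries N = logSeries M := by
  ext j; simp [logSeries, h]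

theorem coeff_derivative_logSeries {N : ℕ → K} {Z : K⟦X⟧} (hZ : d⁄dX K Z = Z * logSeries N)
    (k : ℕ) : coeff (k + 1) Z * ((k : K) + 1) = ∑ j ∈ range (k + 1), coeff j Z * N (k - j + 1) := by
  rw [← coeff_derivative, hZ, coeff_mul, Finset.Nat.sum_antidiagonal_eq_sum_range_succ
    (fun i j => coeff i Z * coeff j (logSeries N))]
  simp [logSeries]

variable [CharZero K]

/-- The zeta series of `N`. -/
def zetaSeries (N : ℕ → K) : K⟦X⟧ := FA.Mazur.expSeries (PowerSeries.mk fun s => N s / (s : K))

theorem constantCoeff_zetaSeries (N : ℕ → K) : constantCoeff (zetaSeries N) = 1 :=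
  (FA.Mazur.isExpOf_expSeries (by simp [← coeff_zero_eq_constantCoeff_apply])).1

theorem derivative_zetaSeries (N : ℕ → K) :
    d⁄dX K (zetaSeries N) = zetaSeries N * logSeries N := by
  rw [zetaSeries, (FA.Mazur.isExpOf_expSeries (by simp [← coeff_zero_eq_constantCoeff_apply])).2,
    mul_comm]
  congr 1
  ext j
  rw [coeff_derivative, coeff_mk, logSeries, coeff_mk, Nat.cast_add_one,
    div_mul_cancel₀ _ (Nat.cast_add_one_ne_zero j)]

theorem eq_of_derivative_eq {Z W : K⟦X⟧} {N : ℕ → K} (hZ : d⁄dX K Z = Z * logSeries N)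
    (hW : d⁄dX K W = W * logSeries N) (h0 : constantCoeff Z = constantCoeff W) {k : ℕ} :
    coeff k Z = coeff k W := by
  induction k using Nat.strong_induction_on with
  | _ k ih =>
    rcases k with _ | k
    · simpa only [coeff_zero_eq_constantCoeff_apply] using h0
    · refine mul_right_cancel₀ (Nat.cast_add_one_ne_zero k) ?_
      rw [coeff_derivative_logSeries hZ, coeff_derivative_logSeries hW]
      exact Finset.sum_congr rfl fun j hj => by rw [ih j (mem_range.1 hj)]

/-- A series with the logarithmic derivative of a quotient is that quotient. -/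
theorem mul_eq_of_logDeriv {Z P Q : K⟦X⟧} {N : ℕ → K} (hZ : d⁄dX K Z = Z * logSeries N)
    (hZ0 : constantCoeff Z = 1) (hP0 : constantCoeff P = 1) (hQ0 : constantCoeff Q = 1)
    (h : logSeries N * (P * Q) = d⁄dX K P * Q - P * d⁄dX K Q) : Z * Q = P := by
  have hP : constantCoeff P ≠ 0 := by rw [hP0]; exact one_ne_zero
  have h1 : Z * Q * P⁻¹ = 1 := by
    refine derivative.ext ?_ (by simp [hZ0, hQ0, hP0])
    rw [derivative_one, Derivation.leibniz, Derivation.leibniz, derivative_inv', hZ]
    simp only [smul_eq_mul]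
    linear_combination Z * P⁻¹ ^ 2 * h -
      (Z * logSeries N * Q * P⁻¹ + Z * d⁄dX K Q * P⁻¹) * (P.mul_inv_cancel hP)
  calc Z * Q = Z * Q * (P⁻¹ * P) := by rw [P.inv_mul_cancel hP, mul_one]
    _ = P := by rw [← mul_assoc, h1, one_mul]

end field

section entire

variable {K : Type*} [NormedField K] [IsUltrametricDist K]

/-- A series with coefficients of an entire function. -/
def EntireSeries (P : K⟦X⟧) : Prop := Entire fun k => coeff k P

theorem EntireSeries.mul {P Q : K⟦X⟧} (hP : EntireSeries P) (hQ : EntireSeries Q) :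
    EntireSeries (P * Q) := fun ε hε => by
  obtain ⟨C, hC⟩ := hP ε hε
  obtain ⟨D, hD⟩ := hQ ε hε
  have hC0 : 0 ≤ C := by simpa using (norm_nonneg _).trans (hC 0)
  have hD0 : 0 ≤ D := by simpa using (norm_nonneg _).trans (hD 0)
  refine ⟨C * D, fun k => ?_⟩
  simp only [coeff_mul]
  refine IsUltrametricDist.norm_sum_le_of_forall_le_of_nonneg (by positivity) fun ij hij => ?_
  rw [mem_antidiagonal] at hij
  rw [norm_mul, ← hij, pow_add, mul_mul_mul_comm]
  exact mul_le_mul (hC _) (hD _) (norm_nonneg _) (by positivity)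

theorem entireSeries_coe (f : Polynomial K) : EntireSeries (f : K⟦X⟧) := fun ε hε => by
  obtain ⟨C, hC⟩ := (f.support.finite_toSet.image fun k => ‖f.coeff k‖ / ε ^ k).bddAbove
  refine ⟨max C 0, fun k => ?_⟩
  show ‖coeff k (f : K⟦X⟧)‖ ≤ _
  rw [Polynomial.coeff_coe]
  by_cases hk : k ∈ f.support
  · have h1 : ‖f.coeff k‖ / ε ^ k ≤ C := hC ⟨k, hk, rfl⟩
    exact (div_le_iff₀ (by positivity)).1 (h1.trans (le_max_left _ _))
  · rw [Polynomial.notMem_support_iff.1 hk, norm_zero]
    positivity

theorem entireSeries_one : EntireSeries (1 : K⟦X⟧) := by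
  simpa using entireSeries_coe (1 : Polynomial K)

/-- The zeta series of `N` is a quotient of entire series. -/
def IsEntireQuot (N : ℕ → K) : Prop :=
  ∃ P Q : K⟦X⟧, EntireSeries P ∧ EntireSeries Q ∧ constantCoeff P = 1 ∧ constantCoeff Q = 1 ∧
    logSeries N * (P * Q) = d⁄dX K P * Q - P * d⁄dX K Q

theorem IsEntireQuot.add {N M : ℕ → K} (hN : IsEntireQuot N) (hM : IsEntireQuot M) :
    IsEntireQuot (N + M) := by
  obtain ⟨P, Q, hP, hQ, hP0, hQ0, h⟩ := hN
  obtain ⟨P₁, Q₁, hP₁, hQ₁, hP₁0, hQ₁0, h₁⟩ := hM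
  refine ⟨P * P₁, Q * Q₁, hP.mul hP₁, hQ.mul hQ₁, by rw [map_mul, hP0, hP₁0, one_mul],
    by rw [map_mul, hQ0, hQ₁0, one_mul], ?_⟩
  rw [logSeries_add, Derivation.leibniz, Derivation.leibniz]
  simp only [smul_eq_mul]
  linear_combination P₁ * Q₁ * h + P * Q * h₁

theorem IsEntireQuot.neg {N : ℕ → K} (hN : IsEntireQuot N) : IsEntireQuot (-N) := by
  obtain ⟨P, Q, hP, hQ, hP0, hQ0, h⟩ := hN
  refine ⟨Q, P, hQ, hP, hQ0, hP0, ?_⟩
  rw [logSeries_neg]
  linear_combination -h

theorem isEntireQuot_zero : IsEntireQuot (0 : ℕ → K) :=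
  ⟨1, 1, entireSeries_one, entireSeries_one, map_one _, map_one _, by
    ext j; simp [logSeries]⟩

theorem IsEntireQuot.congr {N M : ℕ → K} (hN : IsEntireQuot N) (h : ∀ s, s ≠ 0 → N s = M s) :
    IsEntireQuot M := by
  obtain ⟨P, Q, hP, hQ, hP0, hQ0, hd⟩ := hN
  exact ⟨P, Q, hP, hQ, hP0, hQ0, by rw [← logSeries_congr h]; exact hd⟩

theorem IsEntireQuot.zsmul {N : ℕ → K} (hN : IsEntireQuot N) (n : ℤ) : IsEntireQuot (n • N) := by
  induction n using Int.induction_on with
  | zero => rw [zero_smul]; exact isEntireQuot_zero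
  | succ i ih => rw [add_smul, one_smul]; exact ih.add hN
  | pred i ih => rw [sub_smul, one_smul, sub_eq_add_neg]; exact ih.add hN.neg

theorem IsEntireQuot.sum {ι : Type*} (s : Finset ι) {N : ι → ℕ → K}
    (h : ∀ i ∈ s, IsEntireQuot (N i)) : IsEntireQuot (∑ i ∈ s, N i) :=
  Finset.sum_induction _ IsEntireQuot (fun _ _ ha hb => ha.add hb) isEntireQuot_zero h

/-- A geometric sequence. -/
theorem isEntireQuot_pow (c : K) : IsEntireQuot fun s => c ^ s := by
  refine ⟨1, ((1 - Polynomial.C c * Polynomial.X : Polynomial K) : K⟦X⟧), entireSeries_one,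
    entireSeries_coe _, map_one _, by simp, ?_⟩
  have h : logSeries (fun s => c ^ s) * (1 - C c * PowerSeries.X) = C c := by
    ext j
    rcases j with _ | j
    · simp [logSeries]
    · rw [mul_sub, mul_one, ← mul_assoc, map_sub, coeff_succ_mul_X, coeff_mul_C, coeff_C,
        if_neg (Nat.succ_ne_zero j)]
      simp only [logSeries, coeff_mk]
      ring
  rw [Polynomial.coe_sub, Polynomial.coe_one, Polynomial.coe_mul, Polynomial.coe_C,
    Polynomial.coe_X, map_sub, Derivation.leibniz, derivative_one, derivative_C, derivative_X]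
  simp only [smul_eq_mul]
  linear_combination h

/-- The sequence attached to an entire series `D` with constant term one. -/
theorem isEntireQuot_of_series {D : K⟦X⟧} (hD : EntireSeries D) (hD0 : constantCoeff D = 1)
    {T : ℕ → K} (hT : d⁄dX K D = -(logSeries T * D)) : IsEntireQuot T :=
  ⟨1, D, entireSeries_one, hD, map_one _, hD0, by
    rw [derivative_one, hT]; ring⟩

theorem EntireSeries.rescale {D : K⟦X⟧} (hD : EntireSeries D) (c : K) :
    EntireSeries (PowerSeries.rescale c D) := fun ε hε => by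
  obtain ⟨C, hC⟩ := hD (ε / (‖c‖ + 1)) (by positivity)
  have hC0 : 0 ≤ C := by simpa using (norm_nonneg _).trans (hC 0)
  refine ⟨C, fun k => ?_⟩
  simp only [coeff_rescale, norm_mul, norm_pow]
  calc ‖c‖ ^ k * ‖coeff k D‖ ≤ ‖c‖ ^ k * (C * (ε / (‖c‖ + 1)) ^ k) :=
        mul_le_mul_of_nonneg_left (hC k) (by positivity)
    _ = C * (‖c‖ * (ε / (‖c‖ + 1))) ^ k := by rw [mul_pow]; ring
    _ ≤ C * ε ^ k := by
        refine mul_le_mul_of_nonneg_left (pow_le_pow_left₀ (by positivity) ?_ k) hC0
        rw [mul_div_assoc', div_le_iff₀ (by positivity)]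
        nlinarith [norm_nonneg c]

theorem isEntireQuot_pow_mul {D : K⟦X⟧} (hD : EntireSeries D) (hD0 : constantCoeff D = 1)
    {T : ℕ → K} (hT : d⁄dX K D = -(logSeries T * D)) (c : K) :
    IsEntireQuot fun s => c ^ s * T s := by
  refine isEntireQuot_of_series (hD.rescale c)
    (by simp [← coeff_zero_eq_constantCoeff_apply, coeff_rescale, hD0]) ?_
  have h1 : logSeries (fun s => c ^ s * T s) = C c * PowerSeries.rescale c (logSeries T) := by
    ext j; simp [logSeries, coeff_rescale, pow_succ']; ring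
  have h2 : d⁄dX K (PowerSeries.rescale c D) = C c * PowerSeries.rescale c (d⁄dX K D) := by
    ext j; simp [coeff_derivative, coeff_rescale, pow_succ']; ring
  rw [h1, h2, hT, map_neg, map_mul]
  ring

end entire

end FA.DworkRationality

end
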