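import Fermat.Agent.DworkRationality.Main
import Mathlib.LinearAlgebra.Projectivization.Cardinality
import Mathlib.RingTheory.MvPolynomial.Homogeneous
import Mathlib.Data.Fintype.Pigeonhole

/-!
# Counting zeros of homogeneous polynomials in projective space

The nonzero zeros of a system of homogeneous polynomials are `q - 1` for each projective zero, and
also `q - 1` for each zero whose first nonzero coordinate is one. So the projective count is a
sum of affine counts, and its zeta series is rational.
-/

set_option autoImplicit false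
set_option linter.unusedSectionVars false
set_option linter.style.haveILetI false

noncomputable section

open Finset
open scoped LinearAlgebra.Projectivization

namespace FA.DworkRationality

variable {F : Type*} [Field F] {κ : Type*} {n : ℕ}

/-- A homogeneous polynomial at a multiple of a point. -/
theorem aeval_smul_of_isHomogeneous {L σ : Type*} [Field L] [Algebra F L] [Fintype σ]
    {f : MvPolynomial σ F} {d : ℕ} (hf : f.IsHomogeneous d) (c : L) (x : σ → L) :
    MvPolynomial.aeval (c • x) f = c ^ d * MvPolynomial.aeval x f := by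
  rw [MvPolynomial.aeval_def, MvPolynomial.aeval_def, MvPolynomial.eval₂_eq',
    MvPolynomial.eval₂_eq', mul_sum]
  refine sum_congr rfl fun v hv => ?_
  simp only [Pi.smul_apply, smul_eq_mul, mul_pow, prod_mul_distrib, prod_pow_eq_pow_sum]
  have h := hf (MvPolynomial.mem_support_iff.1 hv)
  rw [Finsupp.weight_apply, Finsupp.sum_fintype _ _ fun _ => by simp] at h
  simp only [Pi.one_apply, smul_eq_mul, mul_one] at h
  rw [h]
  ring

variable (f : κ → MvPolynomial (Fin n) F)

/-- The zeros in projective space with coordinates in `L`. -/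
def ProjZero (L : Type*) [Field L] [Algebra F L] : Type _ :=
  {P : ℙ L (Fin n → L) // ∀ j, MvPolynomial.aeval P.rep (f j) = 0}

/-- The equations cutting out first nonzero coordinate `i`, equal to one. -/
def chartEquations (i : Fin n) (l : Fin n) : MvPolynomial (Fin n) F :=
  if l < i then MvPolynomial.X l else if l = i then MvPolynomial.X i - 1 else 0

theorem forall_aeval_chartEquations {L : Type*} [Field L] [Algebra F L] (i : Fin n)
    (x : Fin n → L) : (∀ l, MvPolynomial.aeval x (chartEquations (F := F) i l) = 0) ↔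
      x i = 1 ∧ ∀ l, l < i → x l = 0 := by
  constructor
  · intro h
    refine ⟨?_, fun l hl => ?_⟩
    · simpa [chartEquations, sub_eq_zero] using h i
    · simpa [chartEquations, hl] using h l
  · rintro ⟨h1, h2⟩ l
    rcases lt_trichotomy l i with hl | rfl | hl
    · simpa [chartEquations, hl] using h2 l hl
    · simp [chartEquations, h1]
    · simp [chartEquations, hl.ne', hl.not_gt]

variable {d : κ → ℕ}

/-- The nonzero zeros are the units times the projective zeros. -/
theorem card_cone_proj {L : Type*} [Field L] [Algebra F L]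
    (hf : ∀ j, (f j).IsHomogeneous (d j)) :
    Nat.card {x : Fin n → L // x ≠ 0 ∧ ∀ j, MvPolynomial.aeval x (f j) = 0} =
      Nat.card (ProjZero f L) * Nat.card Lˣ := by
  rw [← Nat.card_prod]
  refine (Nat.card_congr (Equiv.ofBijective (fun Pu : ProjZero f L × Lˣ =>
    (⟨(Pu.2 : L) • Pu.1.1.rep, smul_ne_zero Pu.2.ne_zero (Projectivization.rep_nonzero _),
      fun j => by rw [aeval_smul_of_isHomogeneous (hf j), Pu.1.2 j, mul_zero]⟩ :
        {x : Fin n → L // x ≠ 0 ∧ ∀ j, MvPolynomial.aeval x (f j) = 0})) ⟨?_, ?_⟩)).symm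
  · rintro ⟨⟨P, hP⟩, u⟩ ⟨⟨P', hP'⟩, u'⟩ h
    have h' : (u : L) • P.rep = (u' : L) • P'.rep := congrArg Subtype.val h
    obtain rfl : P = P' := by
      rw [← P.mk_rep, ← P'.mk_rep, Projectivization.mk_eq_mk_iff']
      exact ⟨(u⁻¹ : Lˣ) * (u' : L), by rw [mul_smul, ← h', smul_smul, Units.inv_mul, one_smul]⟩
    have := smul_left_injective L (Projectivization.rep_nonzero P) h'
    exact Prod.ext rfl (Units.ext this)
  · rintro ⟨x, hx, hz⟩
    obtain ⟨c, hc⟩ := Projectivization.exists_smul_eq_mk_rep L x hx
    refine ⟨⟨⟨Projectivization.mk L x hx, fun j => ?_⟩, c⁻¹⟩, Subtype.ext ?_⟩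
    · rw [← hc, Units.smul_def, aeval_smul_of_isHomogeneous (hf j), hz j, mul_zero]
    · show ((c⁻¹ : Lˣ) : L) • (Projectivization.mk L x hx).rep = x
      rw [← hc, Units.smul_def, smul_smul, Units.inv_mul, one_smul]

/-- The nonzero zeros are the units times the zeros with first nonzero coordinate one. -/
theorem card_cone_chart {L : Type*} [Field L] [Algebra F L] [Finite L]
    (hf : ∀ j, (f j).IsHomogeneous (d j)) :
    Nat.card {x : Fin n → L // x ≠ 0 ∧ ∀ j, MvPolynomial.aeval x (f j) = 0} =
      (∑ i, Nat.card {x : Fin n → L //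
        ∀ j, MvPolynomial.aeval x (Sum.elim f (chartEquations i) j) = 0}) * Nat.card Lˣ := by
  classical
  rw [← Nat.card_sigma, ← Nat.card_prod]
  have hsplit : ∀ (i : Fin n) (x : Fin n → L),
      (∀ j, MvPolynomial.aeval x (Sum.elim f (chartEquations i) j) = 0) →
        (∀ j, MvPolynomial.aeval x (f j) = 0) ∧ x i = 1 ∧ ∀ l, l < i → x l = 0 := fun i x h =>
    ⟨fun j => h (Sum.inl j), (forall_aeval_chartEquations i x).1 fun l => h (Sum.inr l)⟩
  refine (Nat.card_congr (Equiv.ofBijective (fun Pu : (Σ i, {x : Fin n → L //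
      ∀ j, MvPolynomial.aeval x (Sum.elim f (chartEquations i) j) = 0}) × Lˣ =>
    (⟨(Pu.2 : L) • Pu.1.2.1, smul_ne_zero Pu.2.ne_zero fun h0 => by
        have := (hsplit _ _ Pu.1.2.2).2.1
        rw [h0] at this
        exact zero_ne_one this,
      fun j => by
        rw [aeval_smul_of_isHomogeneous (hf j), (hsplit _ _ Pu.1.2.2).1 j, mul_zero]⟩ :
        {x : Fin n → L // x ≠ 0 ∧ ∀ j, MvPolynomial.aeval x (f j) = 0})) ⟨?_, ?_⟩)).symm
  · rintro ⟨⟨i, x, hx⟩, u⟩ ⟨⟨i', x', hx'⟩, u'⟩ h
    have h' : ∀ l, (u : L) * x l = (u' : L) * x' l := congrFun (congrArg Subtype.val h)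
    obtain ⟨-, h1, h2⟩ := hsplit i x hx
    obtain ⟨-, h1', h2'⟩ := hsplit i' x' hx'
    rcases lt_trichotomy i i' with hl | rfl | hl
    · have := h' i
      rw [h1, h2' i hl, mul_one, mul_zero] at this
      exact absurd this u.ne_zero
    · have := h' i
      rw [h1, h1', mul_one, mul_one] at this
      obtain rfl := Units.ext this
      obtain rfl : x = x' := funext fun l => mul_left_cancel₀ u.ne_zero (h' l)
      rfl
    · have := h' i'
      rw [h1', h2 i' hl, mul_one, mul_zero] at this
      exact absurd this.symm u'.ne_zero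
  · rintro ⟨x, hx, hz⟩
    have hne : (univ.filter fun l => x l ≠ 0).Nonempty := by
      obtain ⟨l, hl⟩ := Function.ne_iff.1 hx
      exact ⟨l, mem_filter.2 ⟨mem_univ _, hl⟩⟩
    set i := (univ.filter fun l => x l ≠ 0).min' hne with hi
    have hxi : x i ≠ 0 := (mem_filter.1 (min'_mem _ hne)).2
    have hlt : ∀ l, l < i → x l = 0 := fun l hl => by
      by_contra h
      exact absurd (min'_le _ l (mem_filter.2 ⟨mem_univ _, h⟩)) (not_le.2 hl)
    refine ⟨⟨⟨i, (x i)⁻¹ • x, ?_⟩, Units.mk0 _ hxi⟩, Subtype.ext ?_⟩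
    · rintro (j | l)
      · rw [Sum.elim_inl, aeval_smul_of_isHomogeneous (hf j), hz j, mul_zero]
      · exact (forall_aeval_chartEquations i _).2
          ⟨by simp [hxi], fun l hl => by simp [hlt l hl]⟩ l
    · show (x i) • (x i)⁻¹ • x = x
      rw [smul_smul, mul_inv_cancel₀ hxi, one_smul]

/-- The projective zeros are counted by the charts. -/
theorem card_projZero_eq {L : Type*} [Field L] [Algebra F L] [Finite L]
    (hf : ∀ j, (f j).IsHomogeneous (d j)) :
    Nat.card (ProjZero f L) = ∑ i, Nat.card {x : Fin n → L //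
      ∀ j, MvPolynomial.aeval x (Sum.elim f (chartEquations i) j) = 0} :=
  Nat.eq_of_mul_eq_mul_right Nat.card_pos
    ((card_cone_proj f hf).symm.trans (card_cone_chart f hf))

open PowerSeries in
/-- A finite sum of counts with rational zeta series has a rational zeta series. -/
theorem exists_rational_zetaSeries_sum {ι : Type*} (S : Finset ι) {N : ι → ℕ → ℚ}
    (h : ∀ i ∈ S, ∃ P Q : Polynomial ℤ, P.coeff 0 = 1 ∧ Q.coeff 0 = 1 ∧
      zetaSeries (N i) * ((Q.map (Int.castRingHom ℚ) : Polynomial ℚ) : PowerSeries ℚ) =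
        ((P.map (Int.castRingHom ℚ) : Polynomial ℚ) : PowerSeries ℚ)) :
    ∃ P Q : Polynomial ℤ, P.coeff 0 = 1 ∧ Q.coeff 0 = 1 ∧
      zetaSeries (∑ i ∈ S, N i) * ((Q.map (Int.castRingHom ℚ) : Polynomial ℚ) : PowerSeries ℚ) =
        ((P.map (Int.castRingHom ℚ) : Polynomial ℚ) : PowerSeries ℚ) := by
  classical
  induction S using Finset.induction with
  | empty =>
    refine ⟨1, 1, by simp, by simp, ?_⟩
    simp only [sum_empty, Polynomial.map_one, Polynomial.coe_one, mul_one]
    ext k
    refine eq_of_derivative_eq (derivative_zetaSeries _) ?_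
      (by simp [constantCoeff_zetaSeries])
    simp only [logSeries, Pi.zero_apply]
    ext j
    simp
  | insert i S hi ih =>
    obtain ⟨P, Q, hP, hQ, e⟩ := h i (mem_insert_self i S)
    obtain ⟨P', Q', hP', hQ', e'⟩ := ih fun j hj => h j (mem_insert_of_mem hj)
    refine ⟨P * P', Q * Q', by simp [Polynomial.mul_coeff_zero, hP, hP'],
      by simp [Polynomial.mul_coeff_zero, hQ, hQ'], ?_⟩
    have hadd : zetaSeries (N i + ∑ j ∈ S, N j) = zetaSeries (N i) * zetaSeries (∑ j ∈ S, N j) := by
      ext k
      refine eq_of_derivative_eq (derivative_zetaSeries _) ?_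
        (by simp [constantCoeff_zetaSeries])
      rw [Derivation.leibniz, derivative_zetaSeries, derivative_zetaSeries, logSeries_add,
        smul_eq_mul, smul_eq_mul]
      ring
    rw [sum_insert hi, hadd, Polynomial.map_mul, Polynomial.map_mul, Polynomial.coe_mul,
      Polynomial.coe_mul, ← e, ← e']
    ring

end FA.DworkRationality

end
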