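import Mathlib.NumberTheory.Padics.Complex
import Mathlib.RingTheory.Ideal.Quotient.Basic
import Mathlib.RingTheory.RootsOfUnity.PrimitiveRoots
import Mathlib.RingTheory.RootsOfUnity.AlgebraicallyClosed
import Mathlib.FieldTheory.Finite.Basic
import Mathlib.Topology.Algebra.InfiniteSum.Nonarchimedean
import Mathlib.Analysis.Normed.Group.Ultra
import Mathlib.Analysis.Normed.Ring.Ultra

/-!
# The residue field of `ℂ_p` and the Teichmüller character

The elements `r` of the residue field with `r ^ p ^ a = r` have unique lifts `teich r` with the same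
property; `teich` is multiplicative on them.
-/

set_option autoImplicit false
set_option linter.unusedSectionVars false

noncomputable section

open Finset

namespace FA.DworkRationality

variable (p : ℕ) [hp : Fact p.Prime]

instance nonarchimedeanRing_padicComplex : NonarchimedeanRing ℂ_[p] where
  is_nonarchimedean := NonarchimedeanAddGroup.is_nonarchimedean

/-- The closed unit ball. -/
def unitBall : Subring ℂ_[p] where
  carrier := {x | ‖x‖ ≤ 1}
  one_mem' := norm_one.le
  zero_mem' := by simp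
  mul_mem' {a b} ha hb := by
    show ‖a * b‖ ≤ 1
    rw [norm_mul]
    exact mul_le_one₀ ha (norm_nonneg _) hb
  add_mem' {a b} ha hb := (IsUltrametricDist.norm_add_le_max a b).trans (max_le ha hb)
  neg_mem' {a} ha := by simpa using ha

/-- The open unit ball. -/
def openBall : Ideal (unitBall p) where
  carrier := {x | ‖(x : ℂ_[p])‖ < 1}
  zero_mem' := by simp
  add_mem' {a b} ha hb :=
    (IsUltrametricDist.norm_add_le_max (a : ℂ_[p]) b).trans_lt (max_lt ha hb)
  smul_mem' c x hx := by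
    show ‖(c : ℂ_[p]) * x‖ < 1
    rw [norm_mul]
    exact (mul_le_of_le_one_left (norm_nonneg _) c.2).trans_lt hx

theorem mem_openBall {x : unitBall p} : x ∈ openBall p ↔ ‖(x : ℂ_[p])‖ < 1 := Iff.rfl

instance isMaximal_openBall : (openBall p).IsMaximal := by
  refine Ideal.isMaximal_iff.2 ⟨fun h => ?_, fun J x hJ hx hxJ => ?_⟩
  · rw [mem_openBall, OneMemClass.coe_one, norm_one] at h
    exact lt_irrefl _ h
  · rw [mem_openBall, not_lt] at hx
    have h0 : (x : ℂ_[p]) ≠ 0 := fun e => by rw [e, norm_zero] at hx; linarith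
    have h1 : ‖(x : ℂ_[p])⁻¹‖ ≤ 1 := by rw [norm_inv]; exact inv_le_one_of_one_le₀ hx
    have := J.mul_mem_left ⟨_, h1⟩ hxJ
    convert this using 1
    exact Subtype.ext (inv_mul_cancel₀ h0).symm

/-- The residue field of `ℂ_p`. -/
abbrev Residue : Type := unitBall p ⧸ openBall p

instance field_residue : Field (Residue p) := Ideal.Quotient.field _

/-- Reduction. -/
def red : unitBall p →+* Residue p := Ideal.Quotient.mk (openBall p)

variable {p}

theorem red_surjective : Function.Surjective (red p) := Ideal.Quotient.mk_surjective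

theorem red_eq_red {x y : unitBall p} : red p x = red p y ↔ ‖(x : ℂ_[p]) - y‖ < 1 :=
  Ideal.Quotient.eq

theorem norm_natCast_prime_lt_one : ‖((p : ℕ) : ℂ_[p])‖ < 1 := by
  rw [← map_natCast (algebraMap ℚ_[p] ℂ_[p]), norm_algebraMap', Padic.norm_p]
  exact inv_lt_one_of_one_lt₀ (by exact_mod_cast hp.out.one_lt)

instance charP_residue : CharP (Residue p) p :=
  (CharP.charP_iff_prime_eq_zero hp.out).2 (by
    rw [← map_natCast (red p)]
    exact Ideal.Quotient.eq_zero_iff_mem.2 (by
      rw [mem_openBall, SubringClass.coe_natCast]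
      exact norm_natCast_prime_lt_one))

theorem pow_iterate_fix {M : Type*} [Monoid M] {x : M} {n : ℕ} (h : x ^ n = x) :
    ∀ i : ℕ, x ^ (n ^ i) = x
  | 0 => by simp
  | i + 1 => by rw [pow_succ, pow_mul, pow_iterate_fix h i, h]

theorem norm_le_one_of_pow_eq {x : ℂ_[p]} {n : ℕ} (hn : 2 ≤ n) (h : x ^ n = x) : ‖x‖ ≤ 1 := by
  by_contra hlt
  rw [not_le] at hlt
  have : ‖x‖ ^ n = ‖x‖ := by rw [← norm_pow, h]
  exact absurd this (ne_of_gt (by simpa using pow_lt_pow_right₀ hlt (show 1 < n by omega)))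

theorem two_le_prime_pow {a : ℕ} (ha : a ≠ 0) : 2 ≤ p ^ a :=
  hp.out.two_le.trans (Nat.le_self_pow ha p)

/-- **Two roots of `X ^ p ^ a - X` in the same class coincide.** -/
theorem eq_of_pow_fixed {x y : ℂ_[p]} {a : ℕ} (ha : a ≠ 0) (hx : x ^ (p ^ a) = x)
    (hy : y ^ (p ^ a) = y) (hxy : ‖x - y‖ < 1) : x = y := by
  set n := p ^ a
  have hx1 := norm_le_one_of_pow_eq (two_le_prime_pow ha) hx
  have hy1 := norm_le_one_of_pow_eq (two_le_prime_pow ha) hy
  have hgeom : (∑ i ∈ range n, x ^ i * y ^ (n - 1 - i)) * (x - y) = x - y := by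
    rw [geom_sum₂_mul, hx, hy]
  have hlt : ‖∑ i ∈ range n, x ^ i * y ^ (n - 1 - i)‖ < 1 := by
    have e : ∑ i ∈ range n, x ^ i * y ^ (n - 1 - i) =
        ∑ i ∈ range n, (x ^ i - y ^ i) * y ^ (n - 1 - i) + (n : ℂ_[p]) * y ^ (n - 1) := by
      simp only [sub_mul, Finset.sum_sub_distrib]
      rw [show ∑ i ∈ range n, y ^ i * y ^ (n - 1 - i) = (n : ℂ_[p]) * y ^ (n - 1) by
        rw [Finset.sum_congr rfl (g := fun _ => y ^ (n - 1)) fun i hi => by
          rw [← pow_add, Nat.add_sub_cancel' (Nat.le_sub_one_of_lt (mem_range.1 hi))],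
          Finset.sum_const, card_range, nsmul_eq_mul]]
      ring
    rw [e]
    refine (IsUltrametricDist.norm_add_le_max _ _).trans_lt (max_lt ?_ ?_)
    · obtain ⟨i, hi, hb⟩ := IsUltrametricDist.exists_norm_finsetSum_le_of_nonempty
        (nonempty_range_iff.2 (pow_ne_zero a hp.out.ne_zero))
        (fun i => (x ^ i - y ^ i) * y ^ (n - 1 - i))
      refine hb.trans_lt ?_
      rw [norm_mul, norm_pow, ← geom_sum₂_mul, norm_mul]
      refine (mul_le_of_le_one_right (by positivity) (pow_le_one₀ (norm_nonneg _) hy1)).trans_lt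
        ((mul_le_of_le_one_left (norm_nonneg _) ?_).trans_lt hxy)
      refine IsUltrametricDist.norm_sum_le_of_forall_le_of_nonneg zero_le_one fun j _ => ?_
      rw [norm_mul, norm_pow, norm_pow]
      exact mul_le_one₀ (pow_le_one₀ (norm_nonneg _) hx1) (by positivity)
        (pow_le_one₀ (norm_nonneg _) hy1)
    · rw [norm_mul, norm_pow, Nat.cast_pow, norm_pow]
      refine (mul_le_of_le_one_right (by positivity) (pow_le_one₀ (norm_nonneg _) hy1)).trans_lt ?_
      exact pow_lt_one₀ (norm_nonneg _) norm_natCast_prime_lt_one ha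
  by_contra hne
  have h := congrArg norm hgeom
  rw [norm_mul] at h
  have hpos : 0 < ‖x - y‖ := norm_pos_iff.2 (sub_ne_zero.2 hne)
  nlinarith

/-- The roots of `X ^ n - X` in `ℂ_p`. -/
theorem exists_roots_finset {a : ℕ} (ha : a ≠ 0) :
    ∃ T : Finset ℂ_[p], T.card = p ^ a ∧ ∀ x ∈ T, x ^ (p ^ a) = x := by
  classical
  set n := p ^ a
  have hn : 2 ≤ n := two_le_prime_pow ha
  have : NeZero ((n - 1 : ℕ) : ℂ_[p]) := ⟨Nat.cast_ne_zero.2 (by omega)⟩
  obtain ⟨ζ, hζ⟩ := HasEnoughRootsOfUnity.exists_primitiveRoot ℂ_[p] (n - 1)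
  refine ⟨insert 0 ((range (n - 1)).image (ζ ^ ·)), ?_, fun x hx => ?_⟩
  · rw [card_insert_of_notMem fun h => ?_, card_image_of_injOn, card_range]
    · omega
    · exact fun i hi j hj e => hζ.pow_inj (mem_range.1 hi) (mem_range.1 hj) e
    · obtain ⟨i, -, hi⟩ := mem_image.1 h
      exact pow_ne_zero i (hζ.ne_zero (by omega)) hi
  · rcases mem_insert.1 hx with rfl | hx
    · exact zero_pow (by omega)
    · obtain ⟨i, -, rfl⟩ := mem_image.1 hx
      rw [show n = n - 1 + 1 by omega, pow_succ, ← pow_mul, mul_comm i, pow_mul, hζ.pow_eq_one,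
        one_pow, one_mul]

/-- The roots of `X ^ n - X` lift. -/
theorem exists_lift {r : Residue p} {a : ℕ} (ha : a ≠ 0) (hr : r ^ (p ^ a) = r) :
    ∃ x : unitBall p, (x : ℂ_[p]) ^ (p ^ a) = x ∧ red p x = r := by
  classical
  set n := p ^ a
  have hn : 2 ≤ n := two_le_prime_pow ha
  obtain ⟨T, hcard, hT⟩ := exists_roots_finset (p := p) ha
  let f : {x // x ∈ T} → Residue p := fun x =>
    red p ⟨x.1, norm_le_one_of_pow_eq hn (hT x.1 x.2)⟩
  have hf : Function.Injective f := fun x y h =>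
    Subtype.ext (eq_of_pow_fixed ha (hT x.1 x.2) (hT y.1 y.2) (red_eq_red.1 h))
  by_contra hcon
  have hq : (Polynomial.X ^ n - Polynomial.X : Polynomial (Residue p)) ≠ 0 :=
    FiniteField.X_pow_card_sub_X_ne_zero (Residue p) (by omega)
  have hle := Finset.card_le_card (s := insert r (univ.image f))
    (t := (Polynomial.X ^ n - Polynomial.X : Polynomial (Residue p)).roots.toFinset) fun s hs => by
      rw [Multiset.mem_toFinset, Polynomial.mem_roots hq]
      simp only [Polynomial.IsRoot.def, Polynomial.eval_sub, Polynomial.eval_pow,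
        Polynomial.eval_X, sub_eq_zero]
      rcases mem_insert.1 hs with rfl | hs
      · exact hr
      · obtain ⟨x, -, rfl⟩ := mem_image.1 hs
        show red p _ ^ n = _
        rw [← map_pow]
        exact congrArg (red p) (Subtype.ext (hT x.1 x.2))
  rw [card_insert_of_notMem fun h => ?_, card_image_of_injective _ hf, card_univ,
    Fintype.card_coe, hcard] at hle
  · have := hle.trans ((Multiset.toFinset_card_le _).trans (Polynomial.card_roots' _))
    rw [FiniteField.X_pow_card_sub_X_natDegree_eq (Residue p) (by omega)] at this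
    omega
  · obtain ⟨x, -, hx⟩ := mem_image.1 h
    exact hcon ⟨⟨x.1, norm_le_one_of_pow_eq hn (hT x.1 x.2)⟩, hT x.1 x.2, hx⟩

/-- The elements of the residue field lying in a finite field. -/
def IsFin (r : Residue p) : Prop := ∃ a : ℕ, a ≠ 0 ∧ r ^ (p ^ a) = r

open Classical in
/-- The Teichmüller representative. -/
def teich (r : Residue p) : ℂ_[p] :=
  if h : ∃ x : unitBall p, (∃ a : ℕ, a ≠ 0 ∧ (x : ℂ_[p]) ^ (p ^ a) = x) ∧ red p x = r then
    (h.choose : ℂ_[p]) else 0

theorem teich_unique {r : Residue p} {x : unitBall p} {a : ℕ} (ha : a ≠ 0)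
    (hx : (x : ℂ_[p]) ^ (p ^ a) = x) (hr : red p x = r) : teich r = x := by
  have h : ∃ x : unitBall p, (∃ a : ℕ, a ≠ 0 ∧ (x : ℂ_[p]) ^ (p ^ a) = x) ∧ red p x = r :=
    ⟨x, ⟨a, ha, hx⟩, hr⟩
  rw [teich, dif_pos h]
  obtain ⟨⟨b, hb, hy⟩, hyr⟩ := h.choose_spec
  refine eq_of_pow_fixed (mul_ne_zero hb ha) ?_ ?_ (red_eq_red.1 (hyr.trans hr.symm))
  · rw [pow_mul]; exact pow_iterate_fix hy a
  · rw [mul_comm, pow_mul]; exact pow_iterate_fix hx b

theorem teich_pow {r : Residue p} {a : ℕ} (ha : a ≠ 0) (hr : r ^ (p ^ a) = r) :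
    teich r ^ (p ^ a) = teich r := by
  obtain ⟨x, hx, hxr⟩ := exists_lift ha hr
  rw [teich_unique ha hx hxr, hx]

theorem exists_ball_teich {r : Residue p} (hr : IsFin r) :
    ∃ x : unitBall p, (x : ℂ_[p]) = teich r ∧ red p x = r := by
  obtain ⟨a, ha, hr⟩ := hr
  obtain ⟨x, hx, hxr⟩ := exists_lift ha hr
  exact ⟨x, (teich_unique ha hx hxr).symm, hxr⟩

theorem norm_teich_le (r : Residue p) : ‖teich r‖ ≤ 1 := by
  unfold teich
  split_ifs with h
  · exact h.choose.2
  · simp

theorem teich_mul {r s : Residue p} (hr : IsFin r) (hs : IsFin s) :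
    teich (r * s) = teich r * teich s := by
  obtain ⟨a, ha, hr'⟩ := hr
  obtain ⟨b, hb, hs'⟩ := hs
  obtain ⟨x, hx, hxr⟩ := exists_lift ha hr'
  obtain ⟨y, hy, hys⟩ := exists_lift hb hs'
  rw [teich_unique ha hx hxr, teich_unique hb hy hys]
  refine teich_unique (x := x * y) (mul_ne_zero ha hb) ?_ (by rw [map_mul, hxr, hys])
  rw [Subring.coe_mul, mul_pow, pow_mul p a b, pow_iterate_fix hx b, ← pow_mul p a b,
    mul_comm a b, pow_mul p b a, pow_iterate_fix hy a]

theorem teich_zero : teich (0 : Residue p) = 0 :=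
  teich_unique (x := (0 : unitBall p)) one_ne_zero (by simp [hp.out.ne_zero]) (map_zero _)

theorem teich_one : teich (1 : Residue p) = 1 :=
  teich_unique (x := (1 : unitBall p)) one_ne_zero (by simp) (map_one _)

theorem teich_pow_eq {r : Residue p} (hr : IsFin r) (k : ℕ) : teich (r ^ k) = teich r ^ k := by
  induction k with
  | zero => rw [pow_zero, pow_zero, teich_one]
  | succ k ih =>
    obtain ⟨a, ha, hr'⟩ := hr
    rw [pow_succ, pow_succ, teich_mul ⟨a, ha, by rw [← pow_mul, mul_comm, pow_mul, hr']⟩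
      ⟨a, ha, hr'⟩, ih]

theorem teich_inj {r s : Residue p} (hr : IsFin r) (hs : IsFin s) (h : teich r = teich s) :
    r = s := by
  obtain ⟨x, hx, rfl⟩ := exists_ball_teich hr
  obtain ⟨y, hy, rfl⟩ := exists_ball_teich hs
  rw [show x = y from Subtype.ext (hx.trans (h.trans hy.symm))]

end FA.DworkRationality

end
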