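import Fermat.Agent.DworkRationality.Newton
import Fermat.Agent.DworkRationality.Residue
import Mathlib.NumberTheory.Padics.PadicIntegers
import Mathlib.NumberTheory.Padics.RingHoms

/-!
# Dwork's splitting function

The Artin–Hasse series `E = exp (∑ X ^ p ^ i / p ^ i)` has integral coefficients. For a zero `γ` of
`E - ζ`, `ζ` of order `p`, and a Teichmüller representative `t` with `t ^ p ^ a = t` the product of
the `E (γ t ^ p ^ j)`, `j < a`, is `ζ` to the power of the trace.
-/

set_option autoImplicit false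
set_option linter.unusedSectionVars false

noncomputable section

open Finset Filter Topology

namespace FA.DworkRationality

variable {p : ℕ} [hp : Fact p.Prime]

local notation "Cp" => PadicComplex p

/-- A series with coefficients in the unit ball. -/
def BoundedSeries (f : PowerSeries Cp) : Prop := ∀ k, ‖PowerSeries.coeff k f‖ ≤ 1

theorem BoundedSeries.mul {f g : PowerSeries Cp} (hf : BoundedSeries f) (hg : BoundedSeries g) :
    BoundedSeries (f * g) := fun k => by
  rw [PowerSeries.coeff_mul]
  refine IsUltrametricDist.norm_sum_le_of_forall_le_of_nonneg zero_le_one fun ij _ => ?_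
  rw [norm_mul]
  exact mul_le_one₀ (hf _) (norm_nonneg _) (hg _)

theorem boundedSeries_one : BoundedSeries (1 : PowerSeries Cp) := fun k => by
  rw [PowerSeries.coeff_one]
  split_ifs <;> simp

theorem BoundedSeries.pow {f : PowerSeries Cp} (hf : BoundedSeries f) :
    ∀ n : ℕ, BoundedSeries (f ^ n)
  | 0 => by rw [pow_zero]; exact boundedSeries_one
  | n + 1 => by rw [pow_succ]; exact (BoundedSeries.pow hf n).mul hf

theorem BoundedSeries.rescale {f : PowerSeries Cp} (hf : BoundedSeries f) {c : Cp} (hc : ‖c‖ ≤ 1) :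
    BoundedSeries (PowerSeries.rescale c f) := fun k => by
  rw [PowerSeries.coeff_rescale, norm_mul, norm_pow]
  exact mul_le_one₀ (pow_le_one₀ (norm_nonneg _) hc) (norm_nonneg _) (hf k)

/-- The value of a series. -/
def evalSeries (f : PowerSeries Cp) (x : Cp) : Cp := ∑' k, PowerSeries.coeff k f * x ^ k

theorem summable_evalSeries {f : PowerSeries Cp} (hf : BoundedSeries f) {x : Cp} (hx : ‖x‖ < 1) :
    Summable fun k => PowerSeries.coeff k f * x ^ k := by
  refine NonarchimedeanAddGroup.summable_of_tendsto_cofinite_zero ?_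
  rw [Nat.cofinite_eq_atTop]
  refine squeeze_zero_norm (fun k => ?_) (tendsto_pow_atTop_nhds_zero_of_lt_one (norm_nonneg x) hx)
  rw [norm_mul, norm_pow]
  exact mul_le_of_le_one_left (by positivity) (hf k)

theorem evalSeries_one (x : Cp) : evalSeries (1 : PowerSeries Cp) x = 1 := by
  rw [evalSeries, tsum_eq_single 0 fun k hk => by rw [PowerSeries.coeff_one, if_neg hk, zero_mul]]
  simp

theorem tsum_cauchy {f g : ℕ → Cp} (hf : Summable f) (hg : Summable g) :
    (∑' n, f n) * (∑' n, g n) = ∑' n, ∑ kl ∈ antidiagonal n, f kl.1 * g kl.2 :=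
  hf.tsum_mul_tsum_eq_tsum_sum_antidiagonal hg (hf.mul_of_nonarchimedean hg)

theorem evalSeries_mul {f g : PowerSeries Cp} (hf : BoundedSeries f) (hg : BoundedSeries g)
    {x : Cp} (hx : ‖x‖ < 1) : evalSeries (f * g) x = evalSeries f x * evalSeries g x := by
  rw [evalSeries, evalSeries, evalSeries,
    tsum_cauchy (summable_evalSeries hf hx) (summable_evalSeries hg hx)]
  refine tsum_congr fun k => ?_
  rw [PowerSeries.coeff_mul, Finset.sum_mul]
  refine Finset.sum_congr rfl fun ij hij => ?_
  rw [mem_antidiagonal] at hij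
  rw [← hij, pow_add]
  ring

theorem evalSeries_pow {f : PowerSeries Cp} (hf : BoundedSeries f) {x : Cp} (hx : ‖x‖ < 1) :
    ∀ n : ℕ, evalSeries (f ^ n) x = evalSeries f x ^ n
  | 0 => by rw [pow_zero, pow_zero, evalSeries_one]
  | n + 1 => by rw [pow_succ, pow_succ, evalSeries_mul (hf.pow n) hf hx, evalSeries_pow hf hx n]

theorem evalSeries_rescale (f : PowerSeries Cp) (c x : Cp) :
    evalSeries (PowerSeries.rescale c f) x = evalSeries f (c * x) :=
  tsum_congr fun k => by rw [PowerSeries.coeff_rescale, mul_pow]; ring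

theorem evalSeries_prod {ι : Type*} (s : Finset ι) {f : ι → PowerSeries Cp}
    (hf : ∀ i ∈ s, BoundedSeries (f i)) {x : Cp} (hx : ‖x‖ < 1) :
    BoundedSeries (∏ i ∈ s, f i) ∧ evalSeries (∏ i ∈ s, f i) x = ∏ i ∈ s, evalSeries (f i) x := by
  classical
  induction s using Finset.induction with
  | empty => exact ⟨boundedSeries_one, evalSeries_one x⟩
  | insert a s ha ih =>
    obtain ⟨h1, h2⟩ := ih fun i hi => hf i (mem_insert_of_mem hi)
    rw [prod_insert ha, prod_insert ha, evalSeries_mul (hf a (mem_insert_self _ _)) h1 hx, h2]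
    exact ⟨(hf a (mem_insert_self _ _)).mul h1, rfl⟩

open PowerSeries in
/-- Pointwise convergence of bounded series gives convergence of values. -/
theorem tendsto_evalSeries {F : ℕ → PowerSeries Cp} {G : PowerSeries Cp}
    (hF : ∀ N, BoundedSeries (F N)) (hG : BoundedSeries G)
    (h : ∀ k, Tendsto (fun N => coeff k (F N)) atTop (𝓝 (coeff k G))) {x : Cp} (hx : ‖x‖ < 1) :
    Tendsto (fun N => evalSeries (F N) x) atTop (𝓝 (evalSeries G x)) := by
  rw [tendsto_iff_norm_sub_tendsto_zero, Metric.tendsto_atTop]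
  intro ε hε
  obtain ⟨M, hM⟩ := exists_pow_lt_of_lt_one (half_pos hε) hx
  have hev : ∀ᶠ N in atTop, ∀ k ∈ range M, ‖coeff k (F N) - coeff k G‖ < ε / 2 :=
    (eventually_all_finset _).2 fun k _ => by
      have := tendsto_iff_norm_sub_tendsto_zero.1 (h k)
      exact this.eventually_lt_const (half_pos hε)
  obtain ⟨N₀, hN₀⟩ := eventually_atTop.1 hev
  refine ⟨N₀, fun N hN => ?_⟩
  rw [Real.dist_eq, sub_zero, abs_norm, evalSeries, evalSeries,
    ← (summable_evalSeries (hF N) hx).tsum_sub (summable_evalSeries hG hx)]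
  refine (IsUltrametricDist.norm_tsum_le_of_forall_le_of_nonneg (C := ε / 2) (by positivity)
    fun k => ?_).trans_lt (half_lt_self hε)
  rw [← sub_mul, norm_mul, norm_pow]
  rcases lt_or_ge k M with hk | hk
  · exact (mul_le_of_le_one_right (norm_nonneg _) (pow_le_one₀ (norm_nonneg _) hx.le)).trans
      (hN₀ N hN k (mem_range.2 hk)).le
  · refine (mul_le_mul ?_ (pow_le_pow_of_le_one (norm_nonneg _) hx.le hk) (by positivity)
      zero_le_one).trans (by rw [one_mul]; exact hM.le)
    rw [sub_eq_add_neg]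
    exact (IsUltrametricDist.norm_add_le_max _ _).trans
      (max_le (hF N k) ((norm_neg _).trans_le (hG k)))

variable (p) in
open Classical in
/-- `∑ X ^ p ^ i / p ^ i` over a field of characteristic zero. -/
def hasseSeries (K : Type*) [Field K] : PowerSeries K :=
  PowerSeries.mk fun s => if ∃ i : ℕ, s = p ^ i then (s : K)⁻¹ else 0

theorem constantCoeff_hasseSeries (K : Type*) [Field K] :
    PowerSeries.constantCoeff (hasseSeries p K) = 0 := by
  rw [← PowerSeries.coeff_zero_eq_constantCoeff_apply, hasseSeries, PowerSeries.coeff_mk,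
    if_neg fun ⟨i, hi⟩ => pow_ne_zero i hp.out.ne_zero hi.symm]

variable (p) in
/-- The Artin–Hasse series. -/
def ahSeries : PowerSeries Cp :=
  PowerSeries.map (algebraMap ℚ_[p] Cp) (FA.Mazur.expSeries (hasseSeries p ℚ_[p]))

theorem isExpOf_ahSeries : FA.Mazur.IsExpOf (hasseSeries p Cp) (ahSeries p) := by
  have h := (FA.Mazur.isExpOf_expSeries (constantCoeff_hasseSeries (p := p) ℚ_[p])).map
    (algebraMap ℚ_[p] Cp)
  convert h using 1
  · ext s
    simp [hasseSeries, apply_ite (algebraMap ℚ_[p] Cp)]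
  · rfl

/-- **Integrality of the Artin–Hasse series.** -/
theorem boundedSeries_ahSeries : BoundedSeries (ahSeries p) := fun k => by
  rw [ahSeries, PowerSeries.coeff_map, norm_algebraMap']
  refine PadicInt.mem_subring_iff p |>.1 ?_
  refine FA.Mazur.expSeries_mem_of_dwork hp.out (PadicInt.subring p) (RingHom.id ℚ_[p])
    (fun x hx => hx) (fun x hx => ?_) (fun m hm => ?_) (constantCoeff_hasseSeries _) (fun s => ?_) k
  · let z₀ : ℤ_[p] := ⟨x, hx⟩
    have h : (p : ℤ_[p]) ∣ z₀ - z₀ ^ p := by
      rw [← Ideal.mem_span_singleton, ← PadicInt.maximalIdeal_eq_span_p, ← PadicInt.ker_toZMod,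
        RingHom.mem_ker, map_sub, map_pow, ZMod.pow_card, sub_self]
    obtain ⟨y, hy⟩ := h
    refine ⟨y, y.2, ?_⟩
    have := congrArg (fun z : ℤ_[p] => (z : ℚ_[p])) hy
    simp only [PadicInt.coe_sub, PadicInt.coe_pow, PadicInt.coe_mul, PadicInt.coe_natCast] at this
    exact this
  · rw [PadicInt.mem_subring_iff, norm_inv, Padic.norm_natCast_eq_one_iff.2
      ((Nat.Prime.coprime_iff_not_dvd hp.out).2 hm), inv_one]
  · refine ⟨if s = 1 then -1 else 0, by split_ifs <;> simp, ?_⟩
    rw [map_sub, ← map_natCast (PowerSeries.C (R := ℚ_[p])), PowerSeries.coeff_C_mul,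
      PowerSeries.map_id, id_eq, PowerSeries.coeff_expand]
    have hp0 : (p : ℚ_[p]) ≠ 0 := Nat.cast_ne_zero.2 hp.out.ne_zero
    simp only [hasseSeries, PowerSeries.coeff_mk]
    rcases eq_or_ne s 1 with rfl | hs
    · rw [if_neg (fun h => hp.out.one_lt.ne' (Nat.dvd_one.1 h)), if_pos ⟨0, (pow_zero p).symm⟩,
        if_pos rfl]
      simp
    rw [if_neg hs]
    by_cases hps : ∃ i, s = p ^ i
    · obtain ⟨i, rfl⟩ := hps
      rcases i with _ | i
      · exact absurd (pow_zero p) hs
      rw [if_pos (dvd_pow_self p i.succ_ne_zero), pow_succ, Nat.mul_div_cancel _ hp.out.pos,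
        if_pos ⟨i, rfl⟩, if_pos ⟨i + 1, (pow_succ p i).symm⟩, mul_zero, sub_eq_zero, Nat.cast_mul,
        mul_inv, mul_comm (((p ^ i : ℕ) : ℚ_[p])⁻¹), ← mul_assoc, mul_inv_cancel₀ hp0, one_mul]
    · rw [if_neg hps, mul_zero, sub_zero]
      split_ifs with h1 h2
      · obtain ⟨i, hi⟩ := h2
        exact absurd ⟨i + 1, by rw [pow_succ, ← hi, Nat.div_mul_cancel h1]⟩ hps
      · rfl
      · rfl

theorem coeff_one_ahSeries : PowerSeries.coeff 1 (ahSeries p) = 1 := by
  have h := congrArg (PowerSeries.coeff 0) (isExpOf_ahSeries (p := p)).2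
  rw [PowerSeries.coeff_derivative, PowerSeries.coeff_mul] at h
  simp only [Nat.cast_zero, zero_add, mul_one, Finset.Nat.antidiagonal_zero, sum_singleton,
    PowerSeries.coeff_derivative] at h
  rw [h, PowerSeries.coeff_zero_eq_constantCoeff_apply, (isExpOf_ahSeries (p := p)).1, mul_one,
    hasseSeries, PowerSeries.coeff_mk, if_pos ⟨0, by simp⟩]
  simp

/-- The value of the Artin–Hasse series. -/
def ahEval (x : Cp) : Cp := evalSeries (ahSeries p) x

theorem ahEval_split {x : Cp} (hx : ‖x‖ < 1) :
    ahEval x = 1 + x + ∑' k, PowerSeries.coeff (k + 2) (ahSeries p) * x ^ (k + 2) := by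
  have h := summable_evalSeries boundedSeries_ahSeries hx
  rw [ahEval, evalSeries, ← h.sum_add_tsum_nat_add 2, sum_range_succ, sum_range_one,
    PowerSeries.coeff_zero_eq_constantCoeff_apply, (isExpOf_ahSeries (p := p)).1,
    coeff_one_ahSeries]
  simp

theorem norm_ahEval_contract {x y : Cp} {r : ℝ} (hr : r < 1) (hx : ‖x‖ ≤ r) (hy : ‖y‖ ≤ r) :
    ‖(x - ahEval x) - (y - ahEval y)‖ ≤ r * ‖x - y‖ := by
  have hr0 : 0 ≤ r := (norm_nonneg x).trans hx
  have hxs := (summable_nat_add_iff 2).2
    (summable_evalSeries boundedSeries_ahSeries (hx.trans_lt hr))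
  have hys := (summable_nat_add_iff 2).2
    (summable_evalSeries boundedSeries_ahSeries (hy.trans_lt hr))
  rw [ahEval_split (hx.trans_lt hr), ahEval_split (hy.trans_lt hr),
    show ∀ a b c d : Cp, a - (1 + a + c) - (b - (1 + b + d)) = -(c - d) from fun a b c d => by ring,
    norm_neg, ← hxs.tsum_sub hys]
  refine IsUltrametricDist.norm_tsum_le_of_forall_le_of_nonneg (by positivity) fun k => ?_
  rw [← mul_sub, norm_mul]
  refine (mul_le_of_le_one_left (norm_nonneg _) (boundedSeries_ahSeries _)).trans ?_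
  rw [← geom_sum₂_mul, norm_mul]
  refine mul_le_mul_of_nonneg_right ?_ (norm_nonneg _)
  refine IsUltrametricDist.norm_sum_le_of_forall_le_of_nonneg hr0 fun i hi => ?_
  rw [mem_range] at hi
  rw [norm_mul, norm_pow, norm_pow]
  refine (mul_le_mul (pow_le_pow_left₀ (norm_nonneg _) hx i)
    (pow_le_pow_left₀ (norm_nonneg _) hy _) (by positivity) (by positivity)).trans ?_
  rw [← pow_add]
  exact pow_le_of_le_one hr0 hr.le (by omega)

/-- **A zero of `E - ζ`.** -/
theorem exists_gamma {ζ : Cp} (hζ : ‖ζ - 1‖ < 1) : ∃ γ : Cp, ‖γ‖ < 1 ∧ ahEval γ = ζ := by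
  set r := ‖ζ - 1‖
  let g : Cp → Cp := fun x => x - ahEval x + ζ
  let u : ℕ → Cp := fun n => g^[n] 0
  have h0 : ahEval (0 : Cp) = 1 := by
    rw [ahEval_split (by simp)]; simp
  have hu : ∀ n, ‖u n‖ ≤ r := by
    intro n
    induction n with
    | zero => simp [u, r]
    | succ n ih =>
      simp only [u, Function.iterate_succ_apply']
      have h := norm_ahEval_contract hζ ih (show ‖(0 : Cp)‖ ≤ r by simp [r])
      rw [h0, sub_zero] at h
      rw [show g (g^[n] 0) = (g^[n] 0 - ahEval (g^[n] 0) - (0 - 1)) + (ζ - 1) by simp [g]]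
      exact (IsUltrametricDist.norm_add_le_max _ _).trans
        (max_le (h.trans (mul_le_of_le_one_left (norm_nonneg _) hζ.le |>.trans ih)) le_rfl)
  have hd : ∀ n, ‖u (n + 1) - u n‖ ≤ r ^ n * ‖u 1 - u 0‖ := by
    intro n
    induction n with
    | zero => simp
    | succ n ih =>
      have h := norm_ahEval_contract hζ (hu (n + 1)) (hu n)
      rw [show u (n + 1 + 1) - u (n + 1) =
          u (n + 1) - ahEval (u (n + 1)) - (u n - ahEval (u n)) by
        simp only [u, Function.iterate_succ_apply', g]; ring, pow_succ', mul_assoc]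
      exact h.trans (mul_le_mul_of_nonneg_left ih (norm_nonneg _))
  have hcauchy : CauchySeq u := NonarchimedeanAddGroup.cauchySeq_of_tendsto_sub_nhds_zero (by
    refine squeeze_zero_norm hd ?_
    simpa using (tendsto_pow_atTop_nhds_zero_of_lt_one (norm_nonneg _) hζ).mul_const ‖u 1 - u 0‖)
  obtain ⟨γ, hγ⟩ := cauchySeq_tendsto_of_complete hcauchy
  have hγr : ‖γ‖ ≤ r := le_of_tendsto' hγ.norm hu
  refine ⟨γ, hγr.trans_lt hζ, ?_⟩
  have hg : Tendsto (fun n => g (u n)) atTop (𝓝 (g γ)) := by
    rw [tendsto_iff_norm_sub_tendsto_zero] at hγ ⊢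
    refine squeeze_zero (fun n => norm_nonneg _) (fun n => ?_) (by simpa using hγ.const_mul r)
    rw [show g (u n) - g γ = u n - ahEval (u n) - (γ - ahEval γ) by simp only [g]; ring]
    exact norm_ahEval_contract hζ (hu n) hγr
  have h2 : Tendsto (fun n => g (u n)) atTop (𝓝 γ) := by
    have := hγ.comp (tendsto_add_atTop_nat 1)
    simpa [u, Function.comp_def, Function.iterate_succ_apply'] using this
  have := tendsto_nhds_unique hg h2
  simp only [g] at this
  linear_combination -this

theorem norm_root_sub_one_lt {ζ : Cp} (hζ : ζ ^ p = 1) : ‖ζ - 1‖ < 1 := by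
  have h1 : ‖ζ‖ = 1 := by
    refine (pow_eq_one_iff_of_nonneg (norm_nonneg ζ) hp.out.ne_zero).1 ?_
    rw [← norm_pow, hζ, norm_one]
  let z : unitBall p := ⟨ζ, h1.le⟩
  have hz : (red p z - 1) ^ p = 0 := by
    rw [sub_pow_char, ← map_pow, one_pow, sub_eq_zero,
      show z ^ p = 1 from Subtype.ext hζ, map_one]
  have := (pow_eq_zero_iff hp.out.ne_zero).1 hz
  rw [sub_eq_zero, ← map_one (red p), red_eq_red] at this
  exact this

variable (p) in
/-- A primitive `p`th root of unity. -/
def zetaRoot : Cp := (HasEnoughRootsOfUnity.exists_primitiveRoot Cp p).choose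

theorem zetaRoot_spec : IsPrimitiveRoot (zetaRoot p) p :=
  have : NeZero ((p : ℕ) : Cp) := ⟨Nat.cast_ne_zero.2 hp.out.ne_zero⟩
  (HasEnoughRootsOfUnity.exists_primitiveRoot Cp p).choose_spec

variable (p) in
/-- Dwork's `γ`. -/
def gammaRoot : Cp :=
  (exists_gamma (norm_root_sub_one_lt (zetaRoot_spec (p := p)).pow_eq_one)).choose

theorem norm_gammaRoot : ‖gammaRoot p‖ < 1 :=
  (exists_gamma (norm_root_sub_one_lt (zetaRoot_spec (p := p)).pow_eq_one)).choose_spec.1

theorem ahEval_gammaRoot : ahEval (gammaRoot p) = zetaRoot p :=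
  (exists_gamma (norm_root_sub_one_lt (zetaRoot_spec (p := p)).pow_eq_one)).choose_spec.2

open PowerSeries in
theorem tendsto_expOf {H : PowerSeries Cp} {F : ℕ → PowerSeries Cp} {G : PowerSeries Cp}
    {c : ℕ → Cp} {T : Cp} (hc : Tendsto c atTop (𝓝 T))
    (hF : ∀ N, FA.Mazur.IsExpOf (C (c N) * H) (F N)) (hG : FA.Mazur.IsExpOf (C T * H) G) (k : ℕ) :
    Tendsto (fun N => coeff k (F N)) atTop (𝓝 (coeff k G)) := by
  induction k using Nat.strong_induction_on with
  | _ k ih =>
    rcases k with _ | k
    · simp [coeff_zero_eq_constantCoeff_apply, (hF _).1, hG.1]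
    have key : ∀ (t : Cp) (f : PowerSeries Cp), FA.Mazur.IsExpOf (C t * H) f →
        coeff (k + 1) f = ((k : Cp) + 1)⁻¹ * (t * ∑ ij ∈ antidiagonal k,
          coeff ij.1 (d⁄dX Cp H) * coeff ij.2 f) := fun t f hf => by
      have h := congrArg (coeff k) hf.2
      rw [coeff_derivative, Derivation.leibniz, derivative_C, smul_zero, add_zero, smul_eq_mul,
        mul_assoc, coeff_C_mul, coeff_mul] at h
      rw [← h, ← mul_assoc, mul_comm _ (coeff (k + 1) f), mul_assoc,
        inv_mul_cancel₀ (Nat.cast_add_one_ne_zero k), mul_one]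
    simp only [key _ _ (hF _), key _ _ hG]
    refine (hc.mul (tendsto_finsetSum _ fun ij hij => ?_)).const_mul _
    rw [mem_antidiagonal] at hij
    exact (ih ij.2 (by omega)).const_mul _

/-- The conjugates `r ^ p ^ j` have power sums which are limits of integers. -/
theorem exists_nat_tendsto {r : Residue p} {a : ℕ} (ha : a ≠ 0) (hr : r ^ (p ^ a) = r) :
    ∃ m : ℕ → ℕ, Tendsto (fun N => (m N : Cp)) atTop (𝓝 (∑ j ∈ range a, teich r ^ (p ^ j))) := by
  classical
  -- the polynomial with roots the conjugates has coefficients in the prime field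
  set P : Polynomial (Residue p) :=
    ∏ j ∈ range a, (Polynomial.X - Polynomial.C (r ^ (p ^ j))) with hP
  have hshift : ∀ i, (r ^ (p ^ i)) ^ p = r ^ (p ^ (i + 1)) := fun i => by
    rw [← pow_mul, pow_succ]
  have hfrob : P.map (frobenius (Residue p) p) = P := by
    rw [hP, Polynomial.map_prod]
    simp only [Polynomial.map_sub, Polynomial.map_X, Polynomial.map_C, frobenius_def, hshift]
    obtain ⟨b, rfl⟩ := Nat.exists_eq_succ_of_ne_zero ha
    rw [prod_range_succ, hr, prod_range_succ' (fun j => Polynomial.X - Polynomial.C (r ^ p ^ j)),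
      pow_zero, pow_one]
  have hcoeff : ∀ k, ∃ c : ℤ, (c : Residue p) = P.coeff k := fun k => by
    have h : (P.coeff k) ^ p = P.coeff k := by
      conv_rhs => rw [← hfrob, Polynomial.coeff_map, frobenius_def]
    -- the fixed points of Frobenius
    by_contra hne
    push Not at hne
    have hq := FiniteField.X_pow_card_sub_X_ne_zero (Residue p) hp.out.one_lt
    have hle := Finset.card_le_card
      (s := insert (P.coeff k) ((range p).image fun i : ℕ => (i : Residue p)))
      (t := (Polynomial.X ^ p - Polynomial.X : Polynomial (Residue p)).roots.toFinset)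
      fun s hs => by
        rw [Multiset.mem_toFinset, Polynomial.mem_roots hq]
        simp only [Polynomial.IsRoot.def, Polynomial.eval_sub, Polynomial.eval_pow,
          Polynomial.eval_X, sub_eq_zero]
        rcases mem_insert.1 hs with rfl | hs
        · exact h
        · obtain ⟨i, -, rfl⟩ := mem_image.1 hs
          exact map_natCast (frobenius (Residue p) p) i
    rw [card_insert_of_notMem fun h' => ?_, card_image_of_injOn, card_range] at hle
    · have := hle.trans ((Multiset.toFinset_card_le _).trans (Polynomial.card_roots' _))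
      rw [FiniteField.X_pow_card_sub_X_natDegree_eq (Residue p) hp.out.one_lt] at this
      omega
    · intro i hi j hj e
      simp only [coe_range, Set.mem_Iio] at hi hj
      exact CharP.natCast_injOn_Iio (Residue p) p hi hj e
    · obtain ⟨i, -, hi⟩ := mem_image.1 h'
      exact hne i (by rw [Int.cast_natCast]; exact hi)
  choose c hc using hcoeff
  set f : Polynomial ℤ := Polynomial.X ^ a + ∑ k ∈ range a, Polynomial.C (c k) * Polynomial.X ^ k
    with hf
  have hfm : f.Monic := Polynomial.monic_X_pow_add (lt_of_le_of_lt (Polynomial.degree_sum_le _ _)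
    ((Finset.sup_lt_iff (WithBot.bot_lt_coe a)).2 fun k hk => lt_of_le_of_lt
      (Polynomial.degree_C_mul_X_pow_le k _) (WithBot.coe_lt_coe.2 (mem_range.1 hk))))
  have hfP : f.map (Int.castRingHom (Residue p)) = P := by
    have hPm : P.Monic := Polynomial.monic_prod_of_monic _ _ fun j _ => Polynomial.monic_X_sub_C _
    have hdeg : P.natDegree = a := by
      rw [hP, Polynomial.natDegree_prod_of_monic _ _ fun j _ => Polynomial.monic_X_sub_C _,
        Finset.sum_congr rfl fun j _ => Polynomial.natDegree_X_sub_C _]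
      simp
    rw [hPm.as_sum, hdeg, hf, Polynomial.map_add, Polynomial.map_pow, Polynomial.map_X,
      Polynomial.map_sum]
    congr 1
    refine Finset.sum_congr rfl fun k _ => ?_
    rw [Polynomial.map_mul, Polynomial.map_C, Polynomial.map_pow, Polynomial.map_X, eq_intCast, hc]
  set R := (f.map (Int.castRingHom Cp)).roots with hR
  have hR1 : ∀ x ∈ R, ‖x‖ ≤ 1 := fun x hx => by
    rw [Polynomial.mem_roots (hfm.map _).ne_zero, Polynomial.IsRoot.def, hf] at hx
    simp only [Polynomial.map_add, Polynomial.map_pow, Polynomial.map_X, Polynomial.map_sum,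
      Polynomial.map_mul, Polynomial.map_C, Polynomial.eval_add, Polynomial.eval_pow,
      Polynomial.eval_X, Polynomial.eval_finsetSum, Polynomial.eval_mul, Polynomial.eval_C,
      add_eq_zero_iff_eq_neg] at hx
    by_contra hlt
    rw [not_le] at hlt
    have hb : ‖x‖ ^ a ≤ ‖x‖ ^ (a - 1) := by
      rw [← norm_pow, hx, norm_neg]
      refine IsUltrametricDist.norm_sum_le_of_forall_le_of_nonneg (by positivity) fun k hk => ?_
      rw [norm_mul, norm_pow, eq_intCast]
      refine (mul_le_of_le_one_left (by positivity)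
        (IsUltrametricDist.norm_intCast_le_one _ _)).trans ?_
      exact pow_le_pow_right₀ hlt.le (by rw [mem_range] at hk; omega)
    exact absurd hb (not_le.2 (pow_lt_pow_right₀ hlt (by omega)))
  let R' : Multiset (unitBall p) := R.pmap (fun x hx => ⟨x, hx⟩) hR1
  have hR' : R'.map (fun x : unitBall p => (x : Cp)) = R := by
    refine (Multiset.map_pmap (fun x : unitBall p => (x : Cp))
      (fun x hx => (⟨x, hx⟩ : unitBall p)) R hR1).trans ?_
    exact (Multiset.pmap_eq_map (fun x => ‖x‖ ≤ 1) (fun x => x) R hR1).trans (Multiset.map_id' R)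
  have hconj : R'.map (red p) = (range a).val.map fun j => r ^ (p ^ j) := by
    have h1 : f.map (Int.castRingHom (unitBall p)) =
        (R'.map fun x => Polynomial.X - Polynomial.C x).prod := by
      refine Polynomial.map_injective (unitBall p).subtype Subtype.val_injective ?_
      rw [Polynomial.map_map, show (unitBall p).subtype.comp (Int.castRingHom _) =
        Int.castRingHom Cp from RingHom.ext_int _ _, Polynomial.map_multiset_prod,
        Multiset.map_map]
      rw [(IsAlgClosed.splits (f.map (Int.castRingHom Cp))).eq_prod_roots_of_monic (hfm.map _),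
        ← hR, ← hR', Multiset.map_map]
      simp
    have h2 := congrArg (Polynomial.map (red p)) h1
    rw [Polynomial.map_map, show (red p).comp (Int.castRingHom _) = Int.castRingHom (Residue p)
      from RingHom.ext_int _ _, hfP, Polynomial.map_multiset_prod, Multiset.map_map] at h2
    have h3 := congrArg Polynomial.roots h2
    rw [hP, Finset.prod, show (fun j => Polynomial.X - Polynomial.C (r ^ (p ^ j))) =
      (fun t => Polynomial.X - Polynomial.C t) ∘ (fun j => r ^ (p ^ j)) from rfl,
      ← Multiset.map_map] at h3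
    rw [show (Polynomial.map (red p) ∘ fun x => Polynomial.X - Polynomial.C x) =
      (fun t => Polynomial.X - Polynomial.C t) ∘ (red p : unitBall p → Residue p) from
        funext fun x => by simp, ← Multiset.map_map] at h3
    rwa [Polynomial.roots_multiset_prod_X_sub_C, Polynomial.roots_multiset_prod_X_sub_C,
      eq_comm] at h3
  -- iterating Frobenius reaches the Teichmüller representatives
  have hlim : ∀ x : unitBall p, red p x ^ (p ^ a) = red p x →
      Tendsto (fun N : ℕ => (x : Cp) ^ (p ^ (a * N))) atTop (𝓝 (teich (red p x))) := by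
    intro x hx
    obtain ⟨y, hy, hyx⟩ := exists_lift ha hx
    rw [teich_unique ha hy hyx, tendsto_iff_norm_sub_tendsto_zero]
    set d := max ‖(x : Cp) - y‖ ‖((p : ℕ) : Cp)‖
    have hd : d < 1 := max_lt (red_eq_red.1 hyx.symm) norm_natCast_prime_lt_one
    have step : ∀ (i : ℕ) (u v : Cp), ‖u‖ ≤ 1 → ‖v‖ ≤ 1 → ‖u - v‖ ≤ d ^ (i + 1) →
        ‖u ^ p - v ^ p‖ ≤ d ^ (i + 2) := by
      intro i u v hu hv huv
      rw [← geom_sum₂_mul, norm_mul, pow_succ' d (i + 1)]
      refine mul_le_mul ?_ huv (norm_nonneg _) ((norm_nonneg _).trans (le_max_left _ _))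
      have e : ∑ j ∈ range p, u ^ j * v ^ (p - 1 - j) =
          ∑ j ∈ range p, (u ^ j - v ^ j) * v ^ (p - 1 - j) + (p : Cp) * v ^ (p - 1) := by
        simp only [sub_mul, Finset.sum_sub_distrib]
        rw [show ∑ j ∈ range p, v ^ j * v ^ (p - 1 - j) = (p : Cp) * v ^ (p - 1) by
          rw [Finset.sum_congr rfl (g := fun _ => v ^ (p - 1)) fun j hj => by
            rw [← pow_add, Nat.add_sub_cancel' (Nat.le_sub_one_of_lt (mem_range.1 hj))],
            Finset.sum_const, card_range, nsmul_eq_mul]]
        ring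
      rw [e]
      refine (IsUltrametricDist.norm_add_le_max _ _).trans (max_le ?_ ?_)
      · refine IsUltrametricDist.norm_sum_le_of_forall_le_of_nonneg
          ((norm_nonneg _).trans (le_max_left _ _)) fun j _ => ?_
        rw [norm_mul, norm_pow, ← geom_sum₂_mul, norm_mul]
        refine (mul_le_of_le_one_right (by positivity) (pow_le_one₀ (norm_nonneg _) hv)).trans
          ((mul_le_of_le_one_left (norm_nonneg _) ?_).trans (huv.trans ?_))
        · refine IsUltrametricDist.norm_sum_le_of_forall_le_of_nonneg zero_le_one fun l _ => ?_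
          rw [norm_mul, norm_pow, norm_pow]
          exact mul_le_one₀ (pow_le_one₀ (norm_nonneg _) hu) (by positivity)
            (pow_le_one₀ (norm_nonneg _) hv)
        · exact pow_le_of_le_one ((norm_nonneg _).trans (le_max_left _ _)) hd.le i.succ_ne_zero
      · rw [norm_mul, norm_pow]
        exact (mul_le_of_le_one_right (norm_nonneg _) (pow_le_one₀ (norm_nonneg _) hv)).trans
          (le_max_right _ _)
    have hall : ∀ i, ‖(x : Cp) ^ (p ^ i) - (y : Cp) ^ (p ^ i)‖ ≤ d ^ (i + 1) := by
      intro i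
      induction i with
      | zero => simp only [pow_zero, pow_one, zero_add]; exact le_max_left _ _
      | succ i ih =>
        rw [pow_succ, pow_mul, pow_mul]
        exact step i _ _ (by rw [norm_pow]; exact pow_le_one₀ (norm_nonneg _) x.2)
          (by rw [norm_pow]; exact pow_le_one₀ (norm_nonneg _) y.2) ih
    refine squeeze_zero (fun N => norm_nonneg _) (fun N => ?_)
      (tendsto_pow_atTop_nhds_zero_of_lt_one
      ((norm_nonneg _).trans (le_max_left _ _)) hd)
    have h1 := hall (a * N)
    rw [show (y : Cp) ^ (p ^ (a * N)) = y by rw [pow_mul]; exact pow_iterate_fix hy N] at h1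
    exact h1.trans (pow_le_pow_of_le_one ((norm_nonneg _).trans (le_max_left _ _)) hd.le
      (le_trans (Nat.le_mul_of_pos_left N (Nat.pos_of_ne_zero ha)) (Nat.le_succ _)))
  have hfix : ∀ j, (r ^ p ^ j) ^ (p ^ a) = r ^ p ^ j := fun j => by
    rw [← pow_mul, mul_comm, pow_mul, hr]
  -- the power sums are integers
  have hint : ∀ N, ∃ z : ℤ, (R.map (· ^ (p ^ (a * N)))).sum = (z : Cp) := fun N => by
    obtain ⟨z, hz⟩ := exists_int_psum (K := Cp) hfm (p ^ (a * N) - 1)
    rw [Nat.sub_add_cancel (Nat.one_le_pow _ _ hp.out.pos)] at hz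
    exact ⟨z, hz⟩
  choose z hz using hint
  have hsum : Tendsto (fun N => (z N : Cp)) atTop (𝓝 (∑ j ∈ range a, teich r ^ (p ^ j))) := by
    have hT : ∑ j ∈ range a, teich r ^ (p ^ j) =
        (R'.map fun x => teich (red p x)).sum := by
      rw [show (R'.map fun x => teich (red p x)) = (R'.map (red p)).map teich by
        rw [Multiset.map_map]; rfl, hconj, Multiset.map_map]
      exact Finset.sum_congr rfl fun j _ => (teich_pow_eq ⟨a, ha, hr⟩ _).symm
    rw [hT]
    have h1 : ∀ N, (z N : Cp) = (R'.map fun x : unitBall p => (x : Cp) ^ (p ^ (a * N))).sum :=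
      fun N => by rw [← hz N, ← hR', Multiset.map_map]; rfl
    simp only [h1]
    refine tendsto_multiset_sum R' fun x hx => hlim x ?_
    obtain ⟨j, -, hj⟩ := Multiset.mem_map.1 (hconj ▸ Multiset.mem_map_of_mem (red p) hx)
    rw [← hj, hfix]
  -- make them natural
  refine ⟨fun N => (z N + p ^ N * |z N|).toNat, ?_⟩
  have hnn : ∀ N, 0 ≤ z N + p ^ N * |z N| := fun N => by
    have h1 : (1 : ℤ) ≤ (p : ℤ) ^ N := one_le_pow₀ (by exact_mod_cast hp.out.one_le)
    nlinarith [neg_abs_le (z N), abs_nonneg (z N)]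
  have h2 : Tendsto (fun N : ℕ => ((p ^ N * |z N| : ℤ) : Cp)) atTop (𝓝 0) := by
    refine squeeze_zero_norm (fun N => ?_) (tendsto_pow_atTop_nhds_zero_of_lt_one (norm_nonneg _)
      (norm_natCast_prime_lt_one (p := p)))
    rw [Int.cast_mul, norm_mul, Int.cast_pow, Int.cast_natCast, norm_pow]
    exact mul_le_of_le_one_right (by positivity) (IsUltrametricDist.norm_intCast_le_one _ _)
  have h3 := hsum.add h2
  rw [add_zero] at h3
  refine h3.congr fun N => ?_
  rw [← Int.cast_add, ← Int.cast_natCast (R := Cp), Int.toNat_of_nonneg (hnn N)]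

open PowerSeries in
/-- **The splitting property.** -/
theorem prod_ahEval_teich {r : Residue p} {a : ℕ} (ha : a ≠ 0) (hr : r ^ (p ^ a) = r) :
    ∃ m : ℕ, (m : Residue p) = ∑ j ∈ Finset.range a, r ^ (p ^ j) ∧
      ∏ j ∈ Finset.range a, ahEval (gammaRoot p * teich r ^ (p ^ j)) = zetaRoot p ^ m := by
  set t := teich r
  set T := ∑ j ∈ Finset.range a, t ^ (p ^ j) with hT_def
  obtain ⟨m, hm⟩ := exists_nat_tendsto ha hr
  rw [← hT_def] at hm
  have ht : ∀ s, (∃ i, s = p ^ i) → ∑ j ∈ Finset.range a, (t ^ (p ^ j)) ^ s = T := by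
    rintro s ⟨i, rfl⟩
    simp only [← pow_mul, ← pow_add]
    induction i with
    | zero => simp [hT_def]
    | succ i ih =>
      refine Eq.trans ?_ ih
      obtain ⟨b, rfl⟩ := Nat.exists_eq_succ_of_ne_zero ha
      rw [Finset.sum_range_succ, Finset.sum_range_succ']
      congr 1
      · refine Finset.sum_congr rfl fun j _ => ?_
        rw [show j + 1 + i = j + (i + 1) by omega]
      · rw [zero_add, show b + (i + 1) = b + 1 + i by omega, pow_add p (b + 1) i, pow_mul,
          teich_pow ha hr]
  -- the product is the exponential of `T` times the Hasse series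
  have hexp : FA.Mazur.IsExpOf (C T * hasseSeries p Cp)
      (∏ j ∈ Finset.range a, rescale (t ^ (p ^ j)) (ahSeries p)) := by
    have h1 : ∀ s : Finset ℕ, FA.Mazur.IsExpOf
        (∑ j ∈ s, rescale (t ^ (p ^ j)) (hasseSeries p Cp))
        (∏ j ∈ s, rescale (t ^ (p ^ j)) (ahSeries p)) := by
      intro s
      induction s using Finset.induction with
      | empty => simpa using FA.Mazur.isExpOf_zero
      | insert b s hb ih =>
        rw [Finset.sum_insert hb, Finset.prod_insert hb]
        refine FA.Mazur.IsExpOf.mul ⟨?_, ?_⟩ ih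
        · rw [← coeff_zero_eq_constantCoeff_apply, coeff_rescale, pow_zero, one_mul,
            coeff_zero_eq_constantCoeff_apply, (isExpOf_ahSeries (p := p)).1]
        · have hd : ∀ f : PowerSeries Cp, d⁄dX Cp (rescale (t ^ p ^ b) f) =
              C (t ^ p ^ b) * rescale (t ^ p ^ b) (d⁄dX Cp f) := fun f => by
            ext j
            rw [coeff_derivative, coeff_rescale, coeff_C_mul, coeff_rescale, coeff_derivative,
              pow_succ']
            ring
          rw [hd, hd, (isExpOf_ahSeries (p := p)).2, map_mul, mul_assoc]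
    convert h1 (Finset.range a) using 1
    ext s
    rw [coeff_C_mul, map_sum]
    simp only [coeff_rescale, hasseSeries, coeff_mk]
    split_ifs with hs
    · rw [← Finset.sum_mul, ht s hs]
    · simp
  have hint : ∀ N, FA.Mazur.IsExpOf (C (m N : Cp) * hasseSeries p Cp) (ahSeries p ^ m N) :=
    fun N => by
      rw [map_natCast, ← nsmul_eq_mul]
      exact (isExpOf_ahSeries (p := p)).nsmul (m N)
  have htn : ‖t‖ ≤ 1 := norm_teich_le r
  have hb : ∀ j ∈ Finset.range a, BoundedSeries (rescale (t ^ (p ^ j)) (ahSeries p)) :=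
    fun j _ => boundedSeries_ahSeries.rescale (by
      rw [norm_pow]
      exact pow_le_one₀ (norm_nonneg _) htn)
  obtain ⟨hbP, hevP⟩ := evalSeries_prod _ hb (norm_gammaRoot (p := p))
  have hlim := tendsto_evalSeries (fun N => boundedSeries_ahSeries.pow (m N)) hbP
    (fun k => tendsto_expOf hm hint hexp k) (norm_gammaRoot (p := p))
  rw [hevP] at hlim
  have hval : ∀ N, evalSeries (ahSeries p ^ m N) (gammaRoot p) = zetaRoot p ^ m N := fun N => by
    rw [evalSeries_pow boundedSeries_ahSeries norm_gammaRoot]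
    exact congrArg (· ^ m N) (ahEval_gammaRoot (p := p))
  simp only [hval, evalSeries_rescale] at hlim
  have hprod : ∏ j ∈ Finset.range a, ahEval (gammaRoot p * t ^ (p ^ j)) =
      ∏ j ∈ Finset.range a, evalSeries (ahSeries p) (t ^ p ^ j * gammaRoot p) :=
    Finset.prod_congr rfl fun j _ => by rw [ahEval, mul_comm]
  have hred : ∀ᶠ N in atTop, (m N : Residue p) = ∑ j ∈ Finset.range a, r ^ (p ^ j) := by
    have := (tendsto_iff_norm_sub_tendsto_zero.1 hm).eventually_lt_const one_pos
    filter_upwards [this] with N hN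
    obtain ⟨x, hx, hxr⟩ := exists_ball_teich ⟨a, ha, hr⟩
    rw [← map_natCast (red p), ← hxr]
    simp only [← map_pow, ← map_sum]
    refine red_eq_red.2 ?_
    rwa [SubringClass.coe_natCast, AddSubmonoidClass.coe_finsetSum,
      Finset.sum_congr rfl (g := fun j => t ^ p ^ j) fun j _ => by rw [SubmonoidClass.coe_pow, hx]]
  obtain ⟨N₀, hN₀⟩ := eventually_atTop.1 hred
  refine ⟨m N₀, hN₀ N₀ le_rfl, ?_⟩
  rw [hprod]
  refine tendsto_nhds_unique hlim (tendsto_const_nhds.congr' ?_)
  filter_upwards [eventually_ge_atTop N₀] with N hN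
  exact pow_eq_pow_of_modEq (((CharP.natCast_eq_natCast (Residue p) p).1
    ((hN₀ N₀ le_rfl).trans (hN₀ N hN).symm))) zetaRoot_spec.pow_eq_one

end FA.DworkRationality

end
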